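import Mathlib.FieldTheory.Finite.Basic
import Mathlib.FieldTheory.Finiteness
import Mathlib.LinearAlgebra.LinearIndependent.Lemmas
import Mathlib.LinearAlgebra.Dimension.Constructions
import Mathlib.RingTheory.LinearDisjoint
import Mathlib.Algebra.CharP.Algebra
import Mathlib.Algebra.Algebra.ZMod
import Mathlib.Algebra.Module.ZMod

/-!
# Fixed points of semilinear maps and additive maps of a finite field
-/

set_option autoImplicit false
set_option linter.style.haveILetI false
set_option linter.unusedSectionVars false

noncomputable section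

namespace Fermat.Agent.CFT.Flat

open Module

variable {p : ℕ} [hp : Fact p.Prime] {κ : Type*} [Field κ] [CharP κ p]

theorem exists_zmod_cast_of_pow_eq {c : κ} (hc : c ^ p = c) :
    ∃ a : ZMod p, ZMod.castHom (dvd_refl p) κ a = c := by
  classical
  by_contra hne
  rw [not_exists] at hne
  set φ := ZMod.castHom (dvd_refl p) κ
  have hinj : Function.Injective φ := φ.injective
  set S : Finset κ := insert c (Finset.univ.image φ)
  set P : Polynomial κ := Polynomial.X ^ p - Polynomial.X
  have hP0 : P ≠ 0 := FiniteField.X_pow_card_sub_X_ne_zero κ hp.out.one_lt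
  have hdeg : P.natDegree = p := FiniteField.X_pow_card_sub_X_natDegree_eq κ hp.out.one_lt
  have hsub : S ⊆ P.roots.toFinset := by
    intro x hx
    rw [Multiset.mem_toFinset, Polynomial.mem_roots hP0]
    simp only [P, Polynomial.IsRoot, Polynomial.eval_sub, Polynomial.eval_pow, Polynomial.eval_X]
    rcases Finset.mem_insert.mp hx with rfl | hx
    · rw [hc, sub_self]
    · obtain ⟨a, -, rfl⟩ := Finset.mem_image.mp hx
      rw [← map_pow, ZMod.pow_card, sub_self]
  have hcard : S.card = p + 1 := by
    rw [Finset.card_insert_of_notMem, Finset.card_image_of_injective _ hinj, Finset.card_univ,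
      ZMod.card]
    simp only [Finset.mem_image, Finset.mem_univ, true_and, not_exists]
    exact hne
  have := (Finset.card_le_card hsub).trans ((Multiset.toFinset_card_le _).trans P.card_roots')
  omega

/-- Fixed vectors of a semilinear map are counted by the dimension. -/
theorem natCard_fixed_le {V : Type*} [AddCommGroup V] [Module κ V] (X : Submodule κ V)
    [FiniteDimensional κ X] (F : V → V) (hadd : ∀ u v, F (u + v) = F u + F v)
    (hsmul : ∀ (c : κ) v, F (c • v) = c ^ p • F v) (G : AddSubgroup V)
    (hG : ∀ v ∈ G, v ∈ X ∧ F v = v) : Nat.card G ≤ p ^ finrank κ X := by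
  classical
  obtain ⟨b, hbG, hspan, hind⟩ := exists_linearIndependent κ (G : Set V)
  -- the independent set lies in `X`
  let incl : b → X := fun x => ⟨x.1, (hG _ (hbG x.2)).1⟩
  have hind' : LinearIndependent κ incl :=
    LinearIndependent.of_comp X.subtype (by exact hind)
  haveI : Finite b := hind'.finite
  haveI : Fintype b := Fintype.ofFinite b
  have hd : Fintype.card b ≤ finrank κ X := hind'.fintype_card_le_finrank
  set φ := ZMod.castHom (dvd_refl p) κ
  let Φ : (b → ZMod p) → V := fun a => ∑ x : b, φ (a x) • (x : V)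
  have hF0 : F 0 = 0 := by simpa using hadd 0 0
  let Fhom : V →+ V := { toFun := F, map_zero' := hF0, map_add' := hadd }
  have hcover : (G : Set V) ⊆ Set.range Φ := by
    intro v hv
    have hmem : v ∈ Submodule.span κ (Set.range fun x : b => (x : V)) := by
      rw [Subtype.range_coe, hspan]
      exact Submodule.subset_span hv
    obtain ⟨c, hc⟩ := (Submodule.mem_span_range_iff_exists_fun κ).mp hmem
    have h1 : ∑ x : b, (c x ^ p) • (x : V) = ∑ x : b, c x • (x : V) := by
      calc ∑ x : b, (c x ^ p) • (x : V) = ∑ x : b, Fhom (c x • (x : V)) :=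
            Finset.sum_congr rfl fun x _ => by
              show _ = F _
              rw [hsmul, (hG _ (hbG x.2)).2]
        _ = Fhom (∑ x : b, c x • (x : V)) := (map_sum Fhom _ _).symm
        _ = _ := by show F _ = _; rw [hc]; exact (hG v hv).2
    have h2 : ∀ x : b, c x ^ p = c x := fun x => by
      have h3 : ∑ x : b, (c x ^ p - c x) • (x : V) = 0 := by
        simp only [sub_smul, Finset.sum_sub_distrib, h1, sub_self]
      exact sub_eq_zero.mp (Fintype.linearIndependent_iff.mp hind _ h3 x)
    choose a ha using fun x : b => exists_zmod_cast_of_pow_eq (h2 x)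
    exact ⟨a, by simp only [Φ, φ, ha, hc]⟩
  calc Nat.card G ≤ Nat.card (Set.range Φ) :=
        Nat.card_mono (Set.finite_range Φ) hcover
    _ ≤ Nat.card (b → ZMod p) := Finite.card_range_le Φ
    _ = p ^ Fintype.card b := by rw [Nat.card_fun, Nat.card_zmod, Nat.card_eq_fintype_card]
    _ ≤ p ^ finrank κ X := Nat.pow_le_pow_right hp.out.pos hd

variable {k : Type*} [Field k] [Finite k] [Algebra (ZMod p) k]

variable (k κ) in
/-- Additive functions from `k` to `κ`. -/
def addFns : Submodule κ (k → κ) where
  carrier := {ρ | ∀ a b, ρ (a + b) = ρ a + ρ b}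
  zero_mem' a b := by simp
  add_mem' {u v} hu hv a b := by simp only [Pi.add_apply, hu a b, hv a b]; abel
  smul_mem' c u hu a b := by simp [hu a b, mul_add]

variable (k κ) in
theorem finiteDimensional_addFns :
    FiniteDimensional κ (addFns (κ := κ) k) ∧
      finrank κ (addFns (κ := κ) k) ≤ finrank (ZMod p) k := by
  haveI : FiniteDimensional (ZMod p) k := Module.Finite.of_finite
  letI : Algebra (ZMod p) κ := ZMod.algebra κ p
  set b := Module.finBasis (ZMod p) k
  let Φ : addFns (κ := κ) k →ₗ[κ] (Fin (finrank (ZMod p) k) → κ) :=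
    { toFun := fun ρ i => (ρ : k → κ) (b i)
      map_add' := fun _ _ => rfl
      map_smul' := fun _ _ => rfl }
  have hinj : Function.Injective Φ := by
    rintro ⟨u, hu⟩ ⟨v, hv⟩ h
    let u' : k →+ κ := AddMonoidHom.mk' u hu
    let v' : k →+ κ := AddMonoidHom.mk' v hv
    have heq : u'.toZModLinearMap p = v'.toZModLinearMap p := b.ext fun i => congrFun h i
    exact Subtype.ext (funext fun x => DFunLike.congr_fun heq x)
  haveI := FiniteDimensional.of_injective Φ hinj
  refine ⟨inferInstance, (LinearMap.finrank_le_finrank_of_injective hinj).trans ?_⟩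
  rw [Module.finrank_pi, Fintype.card_fin]

variable (ι : k →+* κ)

/-- The Frobenius twists of an embedding. -/
def twist (i : ℕ) : k → κ := fun a => ι a ^ p ^ i

theorem twist_mem (i : ℕ) : twist (p := p) ι i ∈ addFns (κ := κ) k := fun a b => by
  simp only [twist, map_add]
  exact add_pow_char_pow (ι a) (ι b) p i

theorem twist_linearIndependent :
    LinearIndependent κ fun i : Fin (finrank (ZMod p) k) => twist (p := p) ι i := by
  haveI : FiniteDimensional (ZMod p) k := Module.Finite.of_finite
  haveI : Fintype k := Fintype.ofFinite k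
  haveI : CharP k p := charP_of_injective_algebraMap (algebraMap (ZMod p) k).injective p
  let m : Fin (finrank (ZMod p) k) → (k →* κ) := fun i =>
    (powMonoidHom (p ^ (i : ℕ))).comp ι.toMonoidHom
  have hm : Function.Injective m := by
    intro i j hij
    -- evaluate at a generator of the units
    obtain ⟨g, hg⟩ := IsCyclic.exists_generator (α := kˣ)
    have hord : orderOf g = Fintype.card k - 1 := by
      rw [orderOf_eq_card_of_forall_mem_zpowers hg, Nat.card_units, Nat.card_eq_fintype_card]
    have h1 : ι ((g : k) ^ p ^ (i : ℕ)) = ι ((g : k) ^ p ^ (j : ℕ)) := by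
      rw [map_pow, map_pow]; exact DFunLike.congr_fun hij (g : k)
    have h2 : g ^ p ^ (i : ℕ) = g ^ p ^ (j : ℕ) := Units.ext (by
      rw [Units.val_pow_eq_pow_val, Units.val_pow_eq_pow_val]; exact ι.injective h1)
    rw [pow_eq_pow_iff_modEq, hord] at h2
    have hcardk : Fintype.card k = p ^ finrank (ZMod p) k := by
      rw [← Nat.card_eq_fintype_card, Module.natCard_eq_pow_finrank (K := ZMod p), Nat.card_zmod]
    rw [hcardk] at h2
    have hlt : ∀ l : Fin (finrank (ZMod p) k), p ^ (l : ℕ) < p ^ finrank (ZMod p) k - 1 ∨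
        finrank (ZMod p) k = 1 := fun l => by
      rcases Nat.lt_or_ge 1 (finrank (ZMod p) k) with h | h
      · left
        have h3 : p ^ (l : ℕ) * p ≤ p ^ finrank (ZMod p) k := by
          rw [← pow_succ]; exact Nat.pow_le_pow_right hp.out.pos l.2
        have h4 := Nat.mul_le_mul_left (p ^ (l : ℕ)) hp.out.two_le
        have h5 : p ^ (l : ℕ) ≠ 1 ∨ (l : ℕ) = 0 := by
          rcases Nat.eq_zero_or_pos (l : ℕ) with h0 | h0
          · exact Or.inr h0
          · exact Or.inl (Nat.one_lt_pow h0.ne' hp.out.one_lt).ne'
        have h6 : 4 ≤ p ^ finrank (ZMod p) k :=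
          (Nat.pow_le_pow_left hp.out.two_le 2).trans (Nat.pow_le_pow_right hp.out.pos h)
        have h7 : 0 < p ^ (l : ℕ) := pow_pos hp.out.pos _
        rcases h5 with h5 | h5
        · omega
        · rw [h5, pow_zero]; omega
      · exact Or.inr (by have := l.2; omega)
    rcases hlt i with hi | h1
    · rcases hlt j with hj | h1
      · exact Fin.ext (Nat.pow_right_injective hp.out.two_le
          (Nat.ModEq.eq_of_lt_of_lt h2 hi hj))
      · exact Fin.ext (by have := i.2; have := j.2; omega)
    · exact Fin.ext (by have := i.2; have := j.2; omega)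
  exact (linearIndependent_monoidHom k κ).comp m hm

open scoped Classical in
/-- The dimension of the additive maps commuting with multiplication by `μ` and `ζ`. -/
theorem finrank_eigen_le (μ : k) (ζ : κ) (X : Submodule κ (k → κ))
    (hX : ∀ ρ ∈ X, ρ ∈ addFns (κ := κ) k ∧ ∀ b, ρ (μ * b) = ζ * ρ b) :
    FiniteDimensional κ X ∧ finrank κ X ≤
      ((Finset.range (finrank (ZMod p) k)).filter fun i => ι μ ^ p ^ i = ζ).card := by
  classical
  obtain ⟨hfin, hdim⟩ := finiteDimensional_addFns (p := p) κ k
  set f := finrank (ZMod p) k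
  have hind := twist_linearIndependent (p := p) ι
  have hspan : Submodule.span κ (Set.range fun i : Fin f => twist (p := p) ι i) =
      addFns (κ := κ) k := by
    refine Submodule.eq_of_le_of_finrank_le
      (Submodule.span_le.mpr (Set.range_subset_iff.mpr fun i => twist_mem ι i)) ?_
    rw [finrank_span_eq_card hind, Fintype.card_fin]
    exact hdim
  set Y := Submodule.span κ (Set.range
    fun i : {i : Fin f // ι μ ^ p ^ (i : ℕ) = ζ} => twist (p := p) ι i.1)
  haveI : FiniteDimensional κ Y := FiniteDimensional.span_of_finite κ (Set.finite_range _)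
  have hXY : X ≤ Y := by
    intro ρ hρ
    obtain ⟨hadd, heig⟩ := hX ρ hρ
    rw [← hspan] at hadd
    obtain ⟨c, hc⟩ := (Submodule.mem_span_range_iff_exists_fun κ).mp hadd
    have hrel : ∑ i : Fin f, (c i * (ι μ ^ p ^ (i : ℕ) - ζ)) • twist (p := p) ι i = 0 := by
      funext b
      have h1 := heig b
      rw [← hc] at h1
      simp only [Finset.sum_apply, Pi.smul_apply, twist, smul_eq_mul, map_mul, mul_pow,
        Finset.mul_sum] at h1
      simp only [Finset.sum_apply, Pi.smul_apply, twist, smul_eq_mul, Pi.zero_apply]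
      rw [← sub_eq_zero.mpr h1, ← Finset.sum_sub_distrib]
      exact Finset.sum_congr rfl fun i _ => by ring
    have hzero := Fintype.linearIndependent_iff.mp hind _ hrel
    rw [← hc]
    refine Submodule.sum_mem _ fun i _ => ?_
    by_cases hi : ι μ ^ p ^ (i : ℕ) = ζ
    · exact Submodule.smul_mem _ _ (Submodule.subset_span ⟨⟨i, hi⟩, rfl⟩)
    · rcases mul_eq_zero.mp (hzero i) with h | h
      · rw [h, zero_smul]; exact Submodule.zero_mem _
      · exact absurd (sub_eq_zero.mp h) hi
  refine ⟨Submodule.finiteDimensional_of_le hXY, (Submodule.finrank_mono hXY).trans ?_⟩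
  refine (finrank_range_le_card _).trans ?_
  rw [Fintype.card_subtype]
  refine Finset.card_le_card_of_injOn (fun i : Fin f => (i : ℕ)) (fun i hi => ?_)
    (fun a _ b _ h => Fin.ext h)
  rw [Finset.mem_coe, Finset.mem_filter] at hi ⊢
  exact ⟨Finset.mem_range.mpr i.2, hi.2⟩

end Fermat.Agent.CFT.Flat
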