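import Fermat.Agent.CFT.Flat.Slots
import Fermat.Agent.CFT.Flat.Semilinear
import Mathlib.RingTheory.Trace.Basic
import Mathlib.RingTheory.Finiteness.Prod

/-!
# Counting cocycles with tame coefficients and bounded ramification
-/

set_option autoImplicit false
set_option linter.style.haveILetI false
set_option linter.unusedSectionVars false

noncomputable section

namespace Fermat.Agent.CFT.Flat

open Fermat.Agent.Arith Module

variable {p : ℕ} [hp : Fact p.Prime]
variable {k : Type*} [Field k] [Finite k] [Algebra (ZMod p) k]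
variable {W : Type*} [AddCommGroup W] [Module k W]

/-- A cocycle on the decomposition group obeying the ramification bound. -/
structure IsBddCoc (p : ℕ) [Fact p.Prime] (ρ : GQ → Module.End k W) (c : GQ → W) : Prop where
  add : ∀ g ∈ decG p, ∀ h ∈ decG p, c (g * h) = c g + ρ g (c h)
  off : ∀ g, g ∉ decG p → c g = 0
  bdd : ∃ H : Subgroup GQ, IsLevel p H ∧ H ≤ tame p ∧ IsBdd p H ∧ ∀ h ∈ H, c h = 0
  level : ∃ L : IntermediateField ℚ QBar, FiniteDimensional ℚ L ∧ Normal ℚ L ∧
    ∀ g ∈ L.fixingSubgroup, g ∈ decG p → c g = 0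

/-- An action of the decomposition group, trivial on tame inertia. -/
structure IsTameAction (p : ℕ) [Fact p.Prime] (ρ : GQ → Module.End k W) : Prop where
  one_tame : ∀ g ∈ tame p, ρ g = 1
  mul : ∀ g ∈ decG p, ∀ h ∈ decG p, ρ (g * h) = ρ g * ρ h

omit [Finite k] [Algebra (ZMod p) k] in
theorem IsTameAction.apply_inv {ρ : GQ → Module.End k W} (h : IsTameAction p ρ) {g : GQ}
    (hg : g ∈ decG p) (y : W) : ρ g (ρ g⁻¹ y) = y := by
  rw [← Module.End.mul_apply, ← h.mul g hg _ ((decG p).inv_mem hg), mul_inv_cancel,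
    h.one_tame 1 (tame p).one_mem, Module.End.one_apply]

variable {ρ : GQ → Module.End k W} (hρ : IsTameAction p ρ)

theorem IsBddCoc.one {c : GQ → W} (h : IsBddCoc p ρ c) : c 1 = 0 := by
  obtain ⟨H, -, -, -, hz⟩ := h.bdd
  exact hz 1 H.one_mem

omit [Finite k] [Algebra (ZMod p) k] in
theorem mem_decG_of_mem_tame {g : GQ} (hg : g ∈ tame p) : g ∈ decG p :=
  inG_le_decG p ((mem_tame p).mp hg).1

include hρ

theorem IsBddCoc.tame_add {c : GQ → W} (h : IsBddCoc p ρ c) {g g' : GQ} (hg : g ∈ tame p)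
    (hg' : g' ∈ tame p) : c (g * g') = c g + c g' := by
  rw [h.add g (mem_decG_of_mem_tame hg) g' (mem_decG_of_mem_tame hg'), hρ.one_tame g hg,
    Module.End.one_apply]

theorem IsBddCoc.conj {c : GQ → W} (h : IsBddCoc p ρ c) {τ g : GQ} (hτ : τ ∈ decG p)
    (hg : g ∈ tame p) : c (τ⁻¹ * g * τ) = ρ τ⁻¹ (c g) := by
  have hg' := mem_decG_of_mem_tame hg
  have hτ' := (decG p).inv_mem hτ
  have h1 := h.add τ⁻¹ hτ' τ hτ
  rw [inv_mul_cancel, h.one] at h1
  rw [h.add _ ((decG p).mul_mem hτ' hg') τ hτ, h.add τ⁻¹ hτ' g hg', hρ.mul _ hτ' _ hg', hρ.one_tame g hg, mul_one,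
    add_right_comm, ← h1, zero_add]

theorem IsBddCoc.hasDeep_e₀ {c : GQ → W} (h : IsBddCoc p ρ c) (ℓ : W →+ ZMod p) :
    HasDeep p (ℓ ∘ c) (e₀ p) := by
  obtain ⟨H, hH, hle, hbdd, hz⟩ := h.bdd
  have ht : IsTameHom p H (ℓ ∘ c) :=
    ⟨hH, hle, fun g hg g' hg' => by
      simp only [Function.comp_apply, h.tame_add hρ hg hg', map_add],
    fun g hg => by simp only [Function.comp_apply, hz g hg, map_zero]⟩
  exact ht.exists_unit_radical hbdd

omit hρ

variable (p) in
/-- The cocycles with radicals congruent to one at level `n`. -/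
def deep (T : AddSubgroup (GQ → W)) (n : ℕ) : AddSubgroup (GQ → W) where
  carrier := {c | c ∈ T ∧ (1 ≤ n → ∀ ℓ : W →+ ZMod p, HasDeep p (ℓ ∘ c) n)}
  zero_mem' := ⟨T.zero_mem, fun _ ℓ => by
    rw [show ℓ ∘ (0 : GQ → W) = 0 from funext fun _ => map_zero ℓ]; exact hasDeep_zero n⟩
  add_mem' {c c'} hc hc' := ⟨T.add_mem hc.1 hc'.1, fun hn ℓ => by
    rw [show ℓ ∘ (c + c') = ℓ ∘ c + ℓ ∘ c' from funext fun _ => map_add ℓ _ _]
    exact (hc.2 hn ℓ).add hn (hc'.2 hn ℓ)⟩
  neg_mem' {c} hc := ⟨T.neg_mem hc.1, fun hn ℓ => by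
    rw [show ℓ ∘ (-c) = -(ℓ ∘ c) from funext fun _ => map_neg ℓ _]
    exact (hc.2 hn ℓ).neg hn⟩

/-! ### Coordinates of functionals -/

variable {η : Type*} [Fintype η] [DecidableEq η]

variable (p) in
/-- The functional attached to a coordinate and a scalar. -/
def coordFn (B : Basis η k W) (w : η) (b : k) : W →+ ZMod p :=
  (Algebra.trace (ZMod p) k).toAddMonoidHom.comp
    ((AddMonoidHom.mulLeft b).comp (B.coord w).toAddMonoidHom)

theorem coordFn_apply (B : Basis η k W) (w : η) (b : k) (x : W) :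
    coordFn p B w b x = Algebra.trace (ZMod p) k (b * B.repr x w) := rfl

theorem exists_coordFn (B : Basis η k W) (ℓ : W →+ ZMod p) :
    ∃ b : η → k, ℓ = ∑ w, coordFn p B w (b w) := by
  classical
  haveI : FiniteDimensional (ZMod p) k := Module.Finite.of_finite
  set Φ : k →ₗ[ZMod p] (k →ₗ[ZMod p] ZMod p) := Algebra.traceForm (ZMod p) k
  have hinj : Function.Injective Φ := LinearMap.ker_eq_bot.mp (LinearMap.ker_eq_bot'.mpr fun x hx =>
    (traceForm_nondegenerate (ZMod p) k).1 x fun y => LinearMap.congr_fun hx y)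
  have hsurj : Function.Surjective Φ :=
    (LinearMap.injective_iff_surjective_of_finrank_eq_finrank
      (by rw [Subspace.dual_finrank_eq])).mp hinj
  choose b hb using fun w => hsurj
    ((ℓ.comp (AddMonoidHom.flip (smulAddHom k W) (B w))).toZModLinearMap p)
  refine ⟨b, AddMonoidHom.ext fun x => ?_⟩
  have h1 : ∀ w, coordFn p B w (b w) x = ℓ (B.repr x w • B w) := fun w => by
    have := LinearMap.congr_fun (hb w) (B.repr x w)
    rw [coordFn_apply]
    exact this
  rw [AddMonoidHom.finsetSum_apply, Finset.sum_congr rfl fun w _ => h1 w, ← map_sum, B.sum_repr]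

theorem coordFn_add (B : Basis η k W) (w : η) (a b : k) :
    coordFn p B w (a + b) = coordFn p B w a + coordFn p B w b :=
  AddMonoidHom.ext fun x => by simp [coordFn_apply, add_mul]

/-! ### The slots -/

variable {τ : GQ} {B : Basis η k W} {lam : η → k}

theorem repr_eigen (hB : ∀ w, ρ τ (B w) = lam w • B w) (x : W) (w : η) :
    B.repr (ρ τ x) w = lam w * B.repr x w := by
  conv_lhs => rw [← B.sum_repr x]
  simp only [map_sum, map_smul, hB, Finsupp.coe_finsetSum, Finset.sum_apply, Finsupp.smul_apply,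
    Basis.repr_self, Finsupp.single_apply, smul_eq_mul, mul_ite, mul_one, mul_zero,
    Finset.sum_ite_eq', Finset.mem_univ, if_true]
  ring

open scoped Classical in
/-- Number of twists of an eigenvalue met by a power of the tame character. -/
def hitCount (p : ℕ) [Fact p.Prime] [Algebra (ZMod p) k] (ι : k →+* Res p) (τ : GQ) (μ : k)
    (m : ℕ) : ℕ :=
  ((Finset.range (finrank (ZMod p) k)).filter fun i => ι μ ^ p ^ i = thetaBar p τ ^ m).card

include hρ

/-- One step of the filtration. -/
theorem natCard_deep_le (T : AddSubgroup (GQ → W)) [Finite T] (hT : ∀ c ∈ T, IsBddCoc p ρ c)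
    (ι : k →+* Res p) (hτ : τ ∈ inG p) (hτprim : IsPrimitiveRoot (theta p τ) (e₀ p))
    (hB : ∀ w, ρ τ (B w) = lam w • B w) {n m : ℕ} (hn : 1 ≤ n) (hnN : n < p * (p + 1))
    (hpn : ¬ p ∣ n) (hnm : n + m = e₀ p + (p + 1)) :
    Nat.card (deep p T n) ≤
      Nat.card (deep p T (n + 1)) * p ^ ∑ w, hitCount p ι τ (lam w) m := by
  classical
  haveI : Finite (deep p T n) := Finite.of_injective
    (fun c : deep p T n => (⟨c.1, c.2.1⟩ : T)) fun a b h =>
      Subtype.ext (congrArg (fun c : T => (c : GQ → W)) h)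
  haveI : Finite (deep p T (n + 1)) := Finite.of_injective
    (fun c : deep p T (n + 1) => (⟨c.1, c.2.1⟩ : T)) fun a b h =>
      Subtype.ext (congrArg (fun c : T => (c : GQ → W)) h)
  -- the slot map
  let S : deep p T n →+ ((W →+ ZMod p) → Res p) :=
    AddMonoidHom.mk' (fun c ℓ => slot p (ℓ ∘ (c : GQ → W)) n) fun c c' => by
      funext ℓ
      rw [Pi.add_apply, ← slot_add hn hnN hpn (c.2.2 hn ℓ) (c'.2.2 hn ℓ)]
      congr 1
      funext g
      exact map_add ℓ _ _
  have hker : Nat.card S.ker ≤ Nat.card (deep p T (n + 1)) := by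
    refine Nat.card_le_card_of_injective
      (fun c => (⟨(c : deep p T n).1, (c : deep p T n).2.1, fun _ ℓ =>
        ((c : deep p T n).2.2 hn ℓ).succ hn hnN (Or.inr (congrFun c.2 ℓ))⟩ : deep p T (n + 1)))
      fun a b h => ?_
    exact Subtype.ext (Subtype.ext (congrArg (fun c : deep p T (n + 1) => (c : GQ → W)) h))
  have hcard : Nat.card (deep p T n) = Nat.card S.ker * Nat.card S.range := by
    rw [AddSubgroup.card_eq_card_quotient_mul_card_addSubgroup S.ker,
      Nat.card_congr (QuotientAddGroup.quotientKerEquivRange S).toEquiv, mul_comm]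
  rw [hcard]
  refine Nat.mul_le_mul hker ?_
  -- actions of inertia and Frobenius
  haveI : NeZero p := ⟨hp.out.ne_zero⟩
  have hcyc : ∀ g : GQ, ∃ a : ZMod p, g (zp p) = zp p ^ a.val := fun g => by
    obtain ⟨i, hi, he⟩ := (zp_spec p).eq_pow_of_pow_eq_one (ξ := g (zp p))
      (by rw [← map_pow, (zp_spec p).pow_eq_one, map_one])
    exact ⟨(i : ZMod p), by rw [ZMod.val_natCast_of_lt hi, he]⟩
  obtain ⟨a, ha⟩ := hcyc τ
  obtain ⟨φ, hφ, hφrad, hfrob⟩ := exists_frobenius_rad p
  obtain ⟨a', ha'⟩ := hcyc φ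
  have ha'0 : a' ≠ 0 := fun h0 => by
    rw [h0, ZMod.val_zero, pow_zero] at ha'
    exact (zp_spec p).ne_one hp.out.one_lt (φ.injective (ha'.trans (map_one φ).symm))
  have hτD := inG_le_decG p hτ
  have hθ1 := (nrm_root p (e₀_pos p) (theta_pow p τ)).le
  have haθ : thetaBar p τ ^ (p + 1) = (a.val : Res p) := by
    have h1 := cyclo_congr p (zp_spec p) hτ ha
    have h2 : nrm p (theta p τ ^ (p + 1)) ≤ 1 := by
      rw [Flat.nrm_pow]; exact pow_le_one₀ (nrm_nonneg p _) hθ1
    rw [thetaBar, ← res_pow p hθ1, ← res_natCast p]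
    exact ((res_eq_iff p (nrm_natCast_le_one p _) h2).mpr h1).symm
  have htrans : ∀ (g : GQ) (b : ZMod p), g ∈ decG p → g (zp p) = zp p ^ b.val →
      ∀ (c : deep p T n) (ℓ : W →+ ZMod p), ∃ x : QBar, nrm p x ≤ 1 ∧ S c ℓ = res p x ∧
        S c (b.val • ℓ.comp (ρ g⁻¹).toAddMonoidHom) = thetaBar p g ^ n * res p (g x) := by
    intro g b hg hb c ℓ
    refine slot_map hg hb (fun h hh => ?_) hn hnN hpn (c.2.2 hn ℓ)
    have hc := (hT _ c.2.1).conj hρ hg hh
    simp only [Function.comp_apply, AddMonoidHom.smul_apply, AddMonoidHom.coe_comp,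
      LinearMap.toAddMonoidHom_coe, hc, nsmul_eq_mul, ZMod.natCast_val, ZMod.cast_id]
  -- the space of equivariant additive functions
  let X : Submodule (Res p) ((W →+ ZMod p) → Res p) :=
    { carrier := {r | (∀ ℓ ℓ', r (ℓ + ℓ') = r ℓ + r ℓ') ∧ ∀ ℓ,
        thetaBar p τ ^ (p + 1) * r (ℓ.comp (ρ τ⁻¹).toAddMonoidHom) = thetaBar p τ ^ n * r ℓ}
      zero_mem' := ⟨fun _ _ => by simp, fun _ => by simp⟩
      add_mem' := fun {u v} hu hv => ⟨fun ℓ ℓ' => by
        simp only [Pi.add_apply, hu.1, hv.1]; abel, fun ℓ => by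
        simp only [Pi.add_apply, mul_add, hu.2, hv.2]⟩
      smul_mem' := fun c u hu => ⟨fun ℓ ℓ' => by
        simp only [Pi.smul_apply, hu.1, smul_add], fun ℓ => by
        simp only [Pi.smul_apply, smul_eq_mul, mul_left_comm _ c, hu.2]⟩ }
  let ψ : (W →+ ZMod p) → (W →+ ZMod p) := fun ℓ => (a'⁻¹).val • ℓ.comp (ρ φ).toAddMonoidHom
  let F : ((W →+ ZMod p) → Res p) → ((W →+ ZMod p) → Res p) := fun r ℓ => r (ψ ℓ) ^ p
  have hG : ∀ r ∈ S.range, r ∈ X ∧ F r = r := by
    rintro _ ⟨c, rfl⟩
    have hadd : ∀ ℓ ℓ', S c (ℓ + ℓ') = S c ℓ + S c ℓ' := fun ℓ ℓ' =>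
      slot_add hn hnN hpn (c.2.2 hn ℓ) (c.2.2 hn ℓ')
    let Sc : (W →+ ZMod p) →+ Res p := AddMonoidHom.mk' (S c) hadd
    refine ⟨⟨hadd, fun ℓ => ?_⟩, funext fun ℓ => ?_⟩
    · obtain ⟨x, hx, h1, h2⟩ := htrans τ a hτD ha c ℓ
      rw [res_map_inG hτ hx, ← h1] at h2
      rw [← h2, haθ]
      show (a.val : Res p) * Sc _ = Sc _
      rw [map_nsmul, nsmul_eq_mul]
    · obtain ⟨x, hx, h1, h2⟩ := htrans φ a' hφ ha' c (ψ ℓ)
      have hθφ : thetaBar p φ = 1 := by
        rw [thetaBar, theta, hφrad, div_self (rad_ne_zero p), res_one]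
      rw [hθφ, one_pow, one_mul, res_map_frobenius hφ hfrob hx, ← h1] at h2
      show S c (ψ ℓ) ^ p = S c ℓ
      rw [← h2]
      refine congrArg (S c) (AddMonoidHom.ext fun y => ?_)
      have hy : ρ φ (ρ φ⁻¹ y) = y := hρ.apply_inv hφ y
      simp only [ψ, AddMonoidHom.smul_apply, AddMonoidHom.coe_comp, LinearMap.toAddMonoidHom_coe,
        Function.comp_apply, hy, nsmul_eq_mul, ZMod.natCast_val, ZMod.cast_id]
      rw [← mul_assoc, mul_inv_cancel₀ ha'0, one_mul]
  -- the coordinates
  let Xw : η → Submodule (Res p) (k → Res p) := fun w =>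
    { carrier := {f | (∀ b b', f (b + b') = f b + f b') ∧
        ∀ b, f (lam w * b) = thetaBar p τ ^ m * f b}
      zero_mem' := ⟨fun _ _ => by simp, fun _ => by simp⟩
      add_mem' := fun {u v} hu hv => ⟨fun b b' => by
        simp only [Pi.add_apply, hu.1, hv.1]; abel, fun b => by
        simp only [Pi.add_apply, mul_add, hu.2, hv.2]⟩
      smul_mem' := fun c u hu => ⟨fun b b' => by
        simp only [Pi.smul_apply, hu.1, smul_add], fun b => by
        simp only [Pi.smul_apply, smul_eq_mul, mul_left_comm _ c, hu.2]⟩ }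
  have heig : ∀ w, FiniteDimensional (Res p) (Xw w) ∧
      finrank (Res p) (Xw w) ≤ hitCount p ι τ (lam w) m := fun w =>
    finrank_eigen_le ι (lam w) _ (Xw w) fun f hf => hf
  haveI : ∀ w, FiniteDimensional (Res p) (Xw w) := fun w => (heig w).1
  have hθ0 : thetaBar p τ ≠ 0 := (isPrimitiveRoot_thetaBar p hτprim).ne_zero (e₀_pos p).ne'
  let Φ : X →ₗ[Res p] ((w : η) → Xw w) :=
    { toFun := fun r w => ⟨fun b => r.1 (coordFn p B w b),
        fun b b' => by show r.1 (coordFn p B w (b + b')) = _; rw [coordFn_add]; exact r.2.1 _ _, fun b => by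
          have h1 := r.2.2 (coordFn p B w (lam w * b))
          have h2 : (coordFn p B w (lam w * b)).comp (ρ τ⁻¹).toAddMonoidHom = coordFn p B w b := by
            refine AddMonoidHom.ext fun y => ?_
            have hy : ρ τ (ρ τ⁻¹ y) = y := hρ.apply_inv hτD y
            show coordFn p B w (lam w * b) (ρ τ⁻¹ y) = _
            rw [coordFn_apply, coordFn_apply]
            congr 1
            conv_rhs => rw [← hy, repr_eigen hB]
            ring
          rw [h2] at h1
          refine mul_left_cancel₀ (pow_ne_zero n hθ0) ?_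
          rw [← h1, ← mul_assoc, ← pow_add, hnm, pow_add _ (e₀ p),
            (isPrimitiveRoot_thetaBar p hτprim).pow_eq_one, one_mul]⟩
      map_add' := fun _ _ => rfl
      map_smul' := fun _ _ => rfl }
  have hΦ : Function.Injective Φ := by
    rintro ⟨r, hr⟩ ⟨r', hr'⟩ h
    refine Subtype.ext (funext fun ℓ => ?_)
    obtain ⟨b, rfl⟩ := exists_coordFn B ℓ
    show AddMonoidHom.mk' r hr.1 (∑ w, coordFn p B w (b w)) =
      AddMonoidHom.mk' r' hr'.1 (∑ w, coordFn p B w (b w))
    rw [map_sum, map_sum]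
    exact Finset.sum_congr rfl fun w _ =>
      congrFun (congrArg (fun f : (w : η) → Xw w => ((f w : Xw w) : k → Res p)) h) (b w)
  haveI : FiniteDimensional (Res p) X := FiniteDimensional.of_injective Φ hΦ
  refine (natCard_fixed_le X F (fun u v => ?_) (fun c v => ?_) S.range hG).trans
    (Nat.pow_le_pow_right hp.out.pos ?_)
  · funext ℓ
    exact add_pow_char (u (ψ ℓ)) (v (ψ ℓ)) p
  · funext ℓ
    simp only [F, Pi.smul_apply, smul_eq_mul, mul_pow]
  · refine (LinearMap.finrank_le_finrank_of_injective hΦ).trans ?_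
    rw [Module.finrank_pi_fintype]
    exact Finset.sum_le_sum fun w _ => (heig w).2

/-- Cocycles with deep radicals are determined by a vector. -/
theorem natCard_deep_top (T : AddSubgroup (GQ → W)) [Finite T] [Finite W]
    (hT : ∀ c ∈ T, IsBddCoc p ρ c) (hτ : τ ∈ inG p)
    (hgen : ∀ g ∈ inG p, ∃ i : ℕ, (τ ^ i)⁻¹ * g ∈ tame p)
    (hB : ∀ w, ρ τ (B w) = lam w • B w) :
    Nat.card (deep p T (p * (p + 1))) ≤ Nat.card W := by
  classical
  haveI : CharP k p := charP_of_injective_algebraMap (algebraMap (ZMod p) k).injective p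
  have hτD := inG_le_decG p hτ
  obtain ⟨φ, hφ, hφrad, hfrob⟩ := exists_frobenius_rad p
  set N := p * (p + 1)
  have hN : 1 ≤ N := Nat.mul_pos hp.out.pos (Nat.succ_pos p)
  -- the classes are trivial on tame inertia
  have hzero : ∀ c : deep p T N, ∀ g ∈ tame p, (c : GQ → W) g = 0 := by
    intro c g hg
    refine B.ext_elem fun w => ?_
    by_contra hne
    rw [map_zero, Finsupp.coe_zero, Pi.zero_apply] at hne
    haveI : FiniteDimensional (ZMod p) k := Module.Finite.of_finite
    obtain ⟨b, hb⟩ : ∃ b : k, Algebra.trace (ZMod p) k (b * B.repr ((c : GQ → W) g) w) ≠ 0 := by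
      by_contra hall
      rw [not_exists] at hall
      exact hne ((traceForm_nondegenerate (ZMod p) k).2 _ fun b => by
        rw [Algebra.traceForm_apply]; exact not_not.mp (hall b))
    obtain ⟨α, hα, hdeep⟩ := c.2.2 hN (coordFn p B w b)
    exact hb (hα.eq_zero_of_deep hdeep hg)
  let V : deep p T N →+ (η → k) := AddMonoidHom.mk'
    (fun c w => if lam w = 1 then B.repr ((c : GQ → W) φ) w else B.repr ((c : GQ → W) τ) w)
    fun c c' => by
      funext w
      simp only [Pi.add_apply, AddSubgroup.coe_add, map_add, Finsupp.coe_add]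
      split_ifs <;> rfl
  have hV : Function.Injective V := by
    refine (injective_iff_map_eq_zero V).mpr fun c hc => ?_
    have hcoc := hT _ c.2.1
    set d : GQ → W := (c : GQ → W) with hd
    have hpow : ∀ (g : GQ), g ∈ decG p → ∀ (w : η) (μ : k),
        (∀ x, B.repr (ρ g x) w = μ * B.repr x w) → ∀ i : ℕ,
        B.repr (d (g ^ i)) w = (∑ j ∈ Finset.range i, μ ^ j) * B.repr (d g) w := by
      intro g hg w μ hμ i
      induction i with
      | zero => rw [pow_zero, hcoc.one, map_zero]; simp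
      | succ i ih =>
        rw [pow_succ', hcoc.add g hg _ ((decG p).pow_mem hg i), map_add, Finsupp.coe_add,
          Pi.add_apply, hμ, ih, geom_sum_succ]
        ring
    have hzero' : ∀ g ∈ tame p, d g = 0 := hzero c
    have hμτ : ∀ w x, B.repr (ρ τ x) w = lam w * B.repr x w := fun w x => repr_eigen hB x w
    have hτpow : τ ^ e₀ p ∈ tame p := by
      refine (theta_eq_one_iff p ((inG p).pow_mem hτ _)).mp ?_
      have hpw : ∀ i : ℕ, theta p (τ ^ i) = theta p τ ^ i := fun i => by
        induction i with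
        | zero => rw [pow_zero, pow_zero, theta_one]
        | succ i ih => rw [pow_succ', pow_succ', theta_mul p hτ, ih]
      rw [hpw, theta_pow]
    have hdτ : d τ = 0 := by
      refine B.ext_elem fun w => ?_
      rw [map_zero, Finsupp.coe_zero, Pi.zero_apply]
      by_cases hw : lam w = 1
      · have h1 := hpow τ hτD w (lam w) (hμτ w) (e₀ p)
        rw [hzero' _ hτpow, map_zero, Finsupp.coe_zero, Pi.zero_apply, hw] at h1
        simp only [one_pow, Finset.sum_const, Finset.card_range, nsmul_one] at h1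
        exact (mul_eq_zero.mp h1.symm).resolve_left fun h0 =>
          not_dvd_e₀ p ((CharP.cast_eq_zero_iff k p _).mp h0)
      · have h1 := congrFun hc w
        simpa [V, hw] using h1
    have hτi : ∀ i : ℕ, d (τ ^ i) = 0 := fun i => by
      refine B.ext_elem fun w => ?_
      rw [hpow τ hτD w (lam w) (hμτ w) i, hdτ, map_zero]
      simp
    have hinert : ∀ g ∈ inG p, d g = 0 := by
      intro g hg
      obtain ⟨i, hi⟩ := hgen g hg
      rw [show g = τ ^ i * ((τ ^ i)⁻¹ * g) by group,
        hcoc.add _ ((decG p).pow_mem hτD i) _ (mem_decG_of_mem_tame hi), hzero' _ hi, hτi,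
        map_zero, add_zero]
    have hdφ : d φ = 0 := by
      refine B.ext_elem fun w => ?_
      rw [map_zero, Finsupp.coe_zero, Pi.zero_apply]
      by_cases hw : lam w = 1
      · have h1 := congrFun hc w
        simpa [V, hw] using h1
      · -- the Frobenius relation
        set s := (τ ^ p)⁻¹ * (φ * τ * φ⁻¹)
        have hconjI : φ * τ * φ⁻¹ ∈ inG p := by
          have := conj_mem_inG (p := p) ((decG p).inv_mem hφ) hτ
          rwa [inv_inv] at this
        have hs : s ∈ tame p := by
          refine (mem_tame p).mpr ⟨(inG p).mul_mem ((inG p).inv_mem ((inG p).pow_mem hτ p))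
            hconjI, ?_⟩
          have hφ' : φ⁻¹ (rad p) = rad p := by
            conv_lhs => rw [← hφrad]
            rw [← AlgEquiv.mul_apply, inv_mul_cancel, AlgEquiv.one_apply]
          have hpw : ∀ i : ℕ, (τ ^ i) (rad p) = theta p τ ^ i * rad p := fun i => by
            induction i with
            | zero => rw [pow_zero, pow_zero, one_mul, AlgEquiv.one_apply]
            | succ i ih =>
              rw [pow_succ', AlgEquiv.mul_apply, ih, map_mul, map_pow, map_theta p hτ,
                map_rad p τ, pow_succ, mul_assoc]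
          have h1 : (φ * τ * φ⁻¹) (rad p) = (τ ^ p) (rad p) := by
            rw [hpw, AlgEquiv.mul_apply, AlgEquiv.mul_apply, hφ', map_rad p τ, map_mul, hφrad,
              map_root_of_frobenius p hfrob (e₀_pos p) (theta_pow p τ) (not_dvd_e₀ p)]
          rw [AlgEquiv.mul_apply, h1, ← AlgEquiv.mul_apply, inv_mul_cancel, AlgEquiv.one_apply]
        have h1 : φ * τ = τ ^ p * (s * φ) := by simp only [s]; group
        have h2 := congrArg d h1
        rw [hcoc.add φ hφ τ hτD, hdτ, map_zero, add_zero,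
          hcoc.add _ ((decG p).pow_mem hτD p) _ ((decG p).mul_mem (mem_decG_of_mem_tame hs) hφ),
          hτi, zero_add, hcoc.add s (mem_decG_of_mem_tame hs) φ hφ, hzero' s hs, zero_add,
          hρ.one_tame s hs, Module.End.one_apply] at h2
        have hμp : ∀ i x, B.repr (ρ (τ ^ i) x) w = lam w ^ i * B.repr x w := fun i => by
          induction i with
          | zero => intro x; rw [pow_zero, hρ.one_tame 1 (tame p).one_mem, Module.End.one_apply, pow_zero, one_mul]
          | succ i ih =>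
            intro x
            rw [pow_succ', hρ.mul τ hτD _ ((decG p).pow_mem hτD i), Module.End.mul_apply, hμτ, ih, pow_succ']
            ring
        have h3 := congrArg (fun x => B.repr x w) h2
        simp only [hμp] at h3
        rw [← sub_eq_zero, ← one_sub_mul] at h3
        refine (mul_eq_zero.mp h3).resolve_left fun h0 => hw ?_
        rw [sub_eq_zero] at h0
        have : (lam w - 1) ^ p = 0 := by rw [sub_pow_char, ← h0, one_pow, sub_self]
        exact sub_eq_zero.mp (pow_eq_zero_iff hp.out.ne_zero |>.mp this)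
    refine Subtype.ext (funext fun g => ?_)
    show d g = 0
    by_cases hg : g ∈ decG p
    swap
    · exact hcoc.off g hg
    obtain ⟨L, hLf, hLn, hL⟩ := hcoc.level
    obtain ⟨i, h, t, hh, hhD, ht, rfl⟩ := exists_frobenius_decomp hφ hfrob hg L
    have hφi : d (φ ^ i) = 0 := by
      induction i with
      | zero => rw [pow_zero]; exact hcoc.one
      | succ i ih =>
        rw [pow_succ', hcoc.add φ hφ _ ((decG p).pow_mem hφ i), hdφ,
          ih ((decG p).mul_mem ((decG p).mul_mem ((decG p).pow_mem hφ i) hhD)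
            (inG_le_decG p ht)), map_zero, add_zero]
    rw [hcoc.add _ ((decG p).mul_mem ((decG p).pow_mem hφ i) hhD) t (inG_le_decG p ht),
      hinert t ht, map_zero, add_zero, hcoc.add _ ((decG p).pow_mem hφ i) h hhD, hφi,
      hL h hh hhD, map_zero, add_zero]
  calc Nat.card (deep p T N) ≤ Nat.card (η → k) :=
        Nat.card_le_card_of_injective V hV
    _ = Nat.card W := (Nat.card_congr B.equivFun.toEquiv).symm

/-- The count. -/
theorem natCard_le_of_isBddCoc (T : AddSubgroup (GQ → W)) [Finite T] [Finite W]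
    (hT : ∀ c ∈ T, IsBddCoc p ρ c) (ι : k →+* Res p) (hτ : τ ∈ inG p)
    (hτprim : IsPrimitiveRoot (theta p τ) (e₀ p))
    (hgen : ∀ g ∈ inG p, ∃ i : ℕ, (τ ^ i)⁻¹ * g ∈ tame p)
    (hB : ∀ w, ρ τ (B w) = lam w • B w) :
    Nat.card T ≤ Nat.card W *
      p ^ ∑ j ∈ (Finset.range (p + 1)).erase 1, ∑ w, hitCount p ι τ (lam w) (p + 1 - j) := by
  classical
  have hN : e₀ p + (p + 1) = p * (p + 1) := by
    rw [e₀_eq]
    obtain ⟨r, hr⟩ : ∃ r, p = r + 1 := ⟨p - 1, by have := hp.out.pos; omega⟩
    rw [hr, Nat.add_sub_cancel]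
    ring
  set d : ℕ → ℕ := fun j =>
    if j = 1 then 0 else ∑ w, hitCount p ι τ (lam w) (p + 1 - j)
  have hstep : ∀ i ≤ p + 1, Nat.card T ≤
      Nat.card (deep p T (e₀ p + i)) * p ^ ∑ j ∈ Finset.range i, d j := by
    intro i
    induction i with
    | zero =>
      intro _
      rw [Finset.range_zero, Finset.sum_empty, pow_zero, mul_one, add_zero]
      haveI : Finite (deep p T (e₀ p)) := Finite.of_injective
        (fun c : deep p T (e₀ p) => (⟨c.1, c.2.1⟩ : T)) fun a b h =>
          Subtype.ext (congrArg (fun c : T => (c : GQ → W)) h)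
      exact Nat.card_le_card_of_injective
        (fun c : T => (⟨c.1, c.2, fun _ ℓ => (hT _ c.2).hasDeep_e₀ hρ ℓ⟩ : deep p T (e₀ p)))
        fun a b h => Subtype.ext (congrArg (fun c : deep p T (e₀ p) => (c : GQ → W)) h)
    | succ i ih =>
      intro hi
      have h1 : 1 ≤ e₀ p + i := le_add_right (e₀_pos p)
      have h2 : e₀ p + i < p * (p + 1) := by omega
      refine (ih (Nat.le_of_succ_le hi)).trans ?_
      rw [Finset.sum_range_succ, pow_add, mul_comm (p ^ ∑ j ∈ Finset.range i, d j),
        ← mul_assoc, ← add_assoc]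
      refine Nat.mul_le_mul_right _ ?_
      have hdvd : p ∣ e₀ p + i ↔ i = 1 := by
        rw [e₀]
        have hsq : 1 ≤ p ^ 2 := Nat.one_le_pow 2 p hp.out.pos
        constructor
        · intro h
          rcases Nat.eq_zero_or_pos i with rfl | hi0
          · exact absurd (by simpa [e₀] using h) (not_dvd_e₀ p)
          · have h4 : p ∣ i - 1 := by
              have h5 : p ∣ p ^ 2 + (i - 1) := by rwa [show p ^ 2 + (i - 1) = p ^ 2 - 1 + i by omega]
              exact (Nat.dvd_add_right (dvd_pow_self p two_ne_zero)).mp h5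
            rcases Nat.eq_zero_or_pos (i - 1) with h6 | h6
            · omega
            · have := Nat.le_of_dvd h6 h4
              omega
        · rintro rfl
          rw [Nat.sub_add_cancel hsq]
          exact dvd_pow_self p two_ne_zero
      by_cases hj : i = 1
      · rw [show d i = 0 from if_pos hj, pow_zero, mul_one]
        haveI : Finite (deep p T (e₀ p + i + 1)) := Finite.of_injective
          (fun c : deep p T (e₀ p + i + 1) => (⟨c.1, c.2.1⟩ : T)) fun a b h =>
            Subtype.ext (congrArg (fun c : T => (c : GQ → W)) h)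
        exact Nat.card_le_card_of_injective (fun c : deep p T (e₀ p + i) =>
          (⟨c.1, c.2.1, fun _ ℓ => (c.2.2 h1 ℓ).succ h1 h2 (Or.inl (hdvd.mpr hj))⟩ :
            deep p T (e₀ p + i + 1)))
          fun a b h => Subtype.ext (congrArg (fun c : deep p T (e₀ p + i + 1) => (c : GQ → W)) h)
      · rw [show d i = _ from if_neg hj]
        exact natCard_deep_le hρ T hT ι hτ hτprim hB h1 h2 (mt hdvd.mp hj) (by omega)
  refine (hstep (p + 1) le_rfl).trans ?_
  rw [hN]
  refine Nat.mul_le_mul (natCard_deep_top hρ T hT hτ hgen hB) (le_of_eq ?_)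
  congr 1
  rw [← Finset.sum_erase (Finset.range (p + 1)) (f := d) (a := 1) (if_pos rfl)]
  exact Finset.sum_congr rfl fun j hj => if_neg (Finset.ne_of_mem_erase hj)

end Fermat.Agent.CFT.Flat
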