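import Fermat.Agent.CFT.Flat.Inertia

/-!
# Expansions in a uniformiser
-/

set_option autoImplicit false
set_option linter.style.haveILetI false
set_option linter.unusedSectionVars false

noncomputable section

namespace Fermat.Agent.CFT.Flat

open Fermat.Agent.Arith Polynomial

variable (p : ℕ) [hp : Fact p.Prime]

/-- Elements fixed by inertia and integral at the place. -/
def intI : Subring QBar where
  carrier := {x | (∀ g ∈ inG p, g x = x) ∧ nrm p x ≤ 1}
  zero_mem' := ⟨fun g _ => map_zero g, by simp⟩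
  one_mem' := ⟨fun g _ => map_one g, by simp⟩
  add_mem' {a b} ha hb := ⟨fun g hg => by rw [map_add, ha.1 g hg, hb.1 g hg],
    nrm_add_le_of_le p ha.2 hb.2⟩
  neg_mem' {a} ha := ⟨fun g hg => by rw [map_neg, ha.1 g hg], by rw [nrm_neg]; exact ha.2⟩
  mul_mem' {a b} ha hb := ⟨fun g hg => by rw [map_mul, ha.1 g hg, hb.1 g hg], by
    rw [nrm_mul]; exact mul_le_one₀ ha.2 (nrm_nonneg p b) hb.2⟩

variable {p}

theorem map_aeval_intI {g : GQ} (hg : g ∈ inG p) (P : (intI p)[X]) (x : QBar) :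
    g (aeval x P) = aeval (g x) P := by
  rw [aeval_def, aeval_def, eval₂_eq_sum_range, eval₂_eq_sum_range, map_sum]
  refine Finset.sum_congr rfl fun i _ => ?_
  rw [map_mul, map_pow]
  congr 1
  exact (P.coeff i).2.1 g hg

theorem nrm_aeval_le_one (P : (intI p)[X]) {x : QBar} (hx : nrm p x ≤ 1) :
    nrm p (aeval x P) ≤ 1 := by
  rw [aeval_def, eval₂_eq_sum_range]
  refine nrm_sum_le p _ _ zero_le_one fun i _ => ?_
  rw [nrm_mul, nrm_pow]
  exact mul_le_one₀ (P.coeff i).2.2 (pow_nonneg (nrm_nonneg p x) i)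
    (pow_le_one₀ (nrm_nonneg p x) hx)

theorem nrm_aeval_sub_le (P : (intI p)[X]) {x y : QBar} (hx : nrm p x ≤ 1) (hy : nrm p y ≤ 1) :
    nrm p (aeval x P - aeval y P) ≤ nrm p (x - y) := by
  induction P using Polynomial.induction_on with
  | C a => rw [aeval_C, aeval_C, sub_self, nrm_zero]; exact nrm_nonneg p _
  | add f g hf hg =>
    rw [map_add, map_add, add_sub_add_comm]
    exact nrm_add_le_of_le p hf hg
  | monomial n a _ =>
    obtain ⟨c, hc⟩ : x - y ∣ x ^ (n + 1) - y ^ (n + 1) := sub_dvd_pow_sub_pow x y (n + 1)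
    simp only [map_mul, aeval_C, aeval_X_pow]
    rw [← mul_sub, nrm_mul]
    refine (mul_le_of_le_one_left (nrm_nonneg p _) a.2.2).trans ?_
    rw [← geom_sum₂_mul, nrm_mul]
    refine mul_le_of_le_one_left (nrm_nonneg p _) (nrm_sum_le p _ _ zero_le_one fun i _ => ?_)
    rw [nrm_mul, nrm_pow, nrm_pow]
    exact mul_le_one₀ (pow_le_one₀ (nrm_nonneg p x) hx) (pow_nonneg (nrm_nonneg p y) _)
      (pow_le_one₀ (nrm_nonneg p y) hy)

/-- A uniformiser for a subgroup of inertia of finite level. -/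
structure IsUnif (H : Subgroup GQ) (π : QBar) : Prop where
  level : IsLevel p H
  fixed : ∀ g ∈ H, g π = π
  pow_eq : nrm p π ^ H.relIndex (inG p) = (p : ℝ)⁻¹

theorem IsLevel.exists_unif {H : Subgroup GQ} (h : IsLevel p H) : ∃ π, IsUnif (p := p) H π := by
  obtain ⟨π, hπ, hn⟩ := h.exists_uniformizer
  exact ⟨π, h, hπ, hn⟩

section Unif

variable {H : Subgroup GQ} {π : QBar} (u : IsUnif (p := p) H π)

include u

theorem IsUnif.pos : 0 < nrm p π := by
  refine (nrm_nonneg p π).lt_of_ne fun h => ?_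
  have := u.pow_eq
  rw [← h, zero_pow u.level.relIndex_ne_zero] at this
  exact (inv_cast_pos p).ne this

theorem IsUnif.ne_zero : π ≠ 0 := fun h => u.pos.ne' (by rw [h, nrm_zero])

theorem IsUnif.lt_one : nrm p π < 1 := by
  by_contra h
  have := one_le_pow₀ (n := H.relIndex (inG p)) (not_lt.mp h)
  rw [u.pow_eq] at this
  exact absurd this (not_le.mpr (inv_cast_lt_one p))

theorem IsUnif.exists_zpow {x : QBar} (hx : x ≠ 0) (hfix : ∀ g ∈ H, g x = x) :
    ∃ k : ℤ, nrm p x = nrm p π ^ k := by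
  obtain ⟨k, hk⟩ := u.level.nrm_pow_relIndex hx hfix
  refine ⟨k, (pow_left_inj₀ (nrm_nonneg p x) (zpow_nonneg (nrm_nonneg p π) k)
    u.level.relIndex_ne_zero).mp ?_⟩
  rw [hk, ← u.pow_eq, ← zpow_natCast, ← zpow_natCast, ← zpow_mul, ← zpow_mul, mul_comm]

theorem IsUnif.nrm_le_of_lt {x : QBar} (hfix : ∀ g ∈ H, g x = x) {k : ℕ}
    (h : nrm p x < nrm p π ^ k) : nrm p x ≤ nrm p π ^ (k + 1) := by
  rcases eq_or_ne x 0 with rfl | hx
  · rw [nrm_zero]; exact pow_nonneg (nrm_nonneg p π) _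
  obtain ⟨j, hj⟩ := u.exists_zpow hx hfix
  rw [hj, ← zpow_natCast, zpow_lt_zpow_iff_right_of_lt_one₀ u.pos u.lt_one] at h
  rw [hj, ← zpow_natCast, zpow_le_zpow_iff_right_of_lt_one₀ u.pos u.lt_one]
  push_cast
  omega

theorem IsUnif.fixer_eq : fixer p π = H := by
  have hle : H ≤ fixer p π := fun g hg => (mem_fixer p).mpr ⟨u.level.le hg, u.fixed g hg⟩
  set m := (fixer p π).relIndex (inG p)
  obtain ⟨k, hk⟩ := (isLevel_fixer π).nrm_pow_relIndex u.ne_zero
    fun g hg => ((mem_fixer p).mp hg).2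
  have hk' : nrm p π ^ (m : ℤ) = nrm p π ^ ((H.relIndex (inG p) : ℤ) * k) := by
    rw [zpow_mul, zpow_natCast, zpow_natCast, u.pow_eq]; exact hk
  have hmk := (zpow_right_injective₀ u.pos u.lt_one.ne) hk'
  have hmul := Subgroup.relIndex_mul_relIndex H (fixer p π) (inG p) hle (isLevel_fixer π).le
  have hdvd : H.relIndex (inG p) ∣ m := Int.natCast_dvd_natCast.mp ⟨k, hmk⟩
  have hdvd' : m ∣ H.relIndex (inG p) := ⟨_, by rw [← hmul, mul_comm]⟩
  have heq := Nat.dvd_antisymm hdvd' hdvd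
  have hm0 : m ≠ 0 := (isLevel_fixer π).relIndex_ne_zero
  have h1 : H.relIndex (fixer p π) = 1 := by
    have : H.relIndex (fixer p π) * m = 1 * m := by rw [one_mul, hmul, heq]
    exact mul_right_cancel₀ hm0 this
  exact le_antisymm (Subgroup.relIndex_eq_one.mp h1) hle

theorem IsUnif.card_orb_eq : (orb p π).card = H.relIndex (inG p) := by
  rw [card_orb, u.fixer_eq]

/-- The Eisenstein polynomial of a uniformiser. -/
def IsUnif.poly (u : IsUnif (p := p) H π) : (intI p)[X] :=
  (orbPoly (p := p) π).toSubring (intI p) (by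
    intro c hc
    rw [Finset.mem_coe, mem_coeffs_iff] at hc
    obtain ⟨i, -, rfl⟩ := hc
    refine ⟨fun g hg => coeff_orbPoly_fixed π hg i, ?_⟩
    rcases lt_trichotomy i (orb p π).card with h | h | h
    · exact (nrm_coeff_orbPoly_le u.lt_one h).trans (inv_cast_lt_one p).le
    · rw [h, ← natDegree_orbPoly, (monic_orbPoly π).coeff_natDegree, nrm_one]
    · rw [coeff_eq_zero_of_natDegree_lt (by rwa [natDegree_orbPoly]), nrm_zero]
      exact zero_le_one)

theorem IsUnif.monic_poly : u.poly.Monic := (monic_toSubring _ _ _).mpr (monic_orbPoly π)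

theorem IsUnif.natDegree_poly : u.poly.natDegree = H.relIndex (inG p) := by
  refine (natDegree_toSubring _ _ _).trans ?_
  rw [natDegree_orbPoly, u.card_orb_eq]

theorem IsUnif.aeval_poly (x : QBar) : aeval x u.poly = (orbPoly (p := p) π).eval x := by
  rw [aeval_def, eval₂_eq_eval_map]
  congr 1
  exact map_toSubring _ _ _

theorem IsUnif.coe_coeff_poly (i : ℕ) :
    ((u.poly.coeff i : intI p) : QBar) = (orbPoly (p := p) π).coeff i :=
  coeff_toSubring _ _ _

/-- The absolute value of a short combination of powers is the largest term. -/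
theorem IsUnif.nrm_term_le {x : QBar} (hx : nrm p x = nrm p π) (R : (intI p)[X])
    (hR : R.natDegree < H.relIndex (inG p)) (i : ℕ) :
    nrm p ((R.coeff i : QBar) * x ^ i) ≤ nrm p (aeval x R) := by
  classical
  set n := H.relIndex (inG p)
  rcases le_or_gt n i with hi | hi
  · rw [coeff_eq_zero_of_natDegree_lt (hR.trans_le hi), ZeroMemClass.coe_zero, zero_mul, nrm_zero]
    exact nrm_nonneg p _
  obtain ⟨j, hj, hmax⟩ := (Finset.range n).exists_max_image
    (fun i => nrm p ((R.coeff i : QBar) * x ^ i)) ⟨i, Finset.mem_range.mpr hi⟩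
  refine (hmax i (Finset.mem_range.mpr hi)).trans ?_
  rcases eq_or_ne (R.coeff j : QBar) 0 with h0 | h0
  · rw [h0, zero_mul, nrm_zero]; exact nrm_nonneg p _
  rw [aeval_def, eval₂_eq_sum_range' _ hR, ← Finset.add_sum_erase _ _ hj]
  refine le_of_eq (nrm_add_eq_of_lt p ?_).symm
  have hpos : 0 < nrm p ((R.coeff j : QBar) * x ^ j) := by
    rw [nrm_mul, nrm_pow, hx]
    exact mul_pos (nrm_pos p h0) (pow_pos u.pos j)
  refine Finset.sum_induction _ (fun y => nrm p y < nrm p ((R.coeff j : QBar) * x ^ j))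
    (fun _ _ ha hb => nrm_add_lt_of_lt p ha hb) (by simpa using hpos) fun k hk => ?_
  obtain ⟨hkj, hkn⟩ := Finset.mem_erase.mp hk
  refine lt_of_le_of_ne (hmax k hkn) fun heq => hkj ?_
  rcases eq_or_ne (R.coeff k : QBar) 0 with hk0 | hk0
  · change nrm p ((R.coeff k : QBar) * x ^ k) = _ at heq
    rw [hk0, zero_mul, nrm_zero] at heq
    exact absurd heq hpos.ne
  -- exponents are distinct modulo `n`
  obtain ⟨a, ha⟩ := isLevel_inG.nrm_pow_relIndex hk0 (R.coeff k).2.1
  obtain ⟨b, hb⟩ := isLevel_inG.nrm_pow_relIndex h0 (R.coeff j).2.1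
  rw [Subgroup.relIndex_self, pow_one, ← u.pow_eq, ← zpow_natCast, ← zpow_mul] at ha hb
  change nrm p ((R.coeff k : QBar) * x ^ k) = _ at heq
  rw [nrm_mul, nrm_mul, nrm_pow, nrm_pow, hx, ha, hb, ← zpow_natCast, ← zpow_natCast,
    ← zpow_add₀ u.pos.ne', ← zpow_add₀ u.pos.ne'] at heq
  have h1 := zpow_right_injective₀ u.pos u.lt_one.ne heq
  have hkn' := Finset.mem_range.mp hkn
  have hjn := Finset.mem_range.mp hj
  have h2 : ((k : ℤ) % n) = ((j : ℤ) % n) := by
    rw [← Int.add_mul_emod_self_left (k : ℤ) (n : ℤ) a, ← Int.add_mul_emod_self_left (j : ℤ) n b,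
      add_comm (k : ℤ), add_comm (j : ℤ), h1]
  rw [Int.emod_eq_of_lt (Int.natCast_nonneg k) (by exact_mod_cast hkn'),
    Int.emod_eq_of_lt (Int.natCast_nonneg j) (by exact_mod_cast hjn)] at h2
  exact_mod_cast h2

/-- Values of a polynomial at two approximate roots of the Eisenstein polynomial. -/
theorem IsUnif.transfer (P : (intI p)[X]) {x y : QBar} (hx : nrm p x = nrm p π)
    (hy : nrm p y = nrm p π) :
    nrm p (aeval x P) ≤
      max (nrm p (aeval y P)) (max (nrm p (aeval x u.poly)) (nrm p (aeval y u.poly))) := by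
  set G := u.poly
  set R := P %ₘ G
  have hdec : P = R + G * (P /ₘ G) := (modByMonic_add_div P G).symm
  have hdeg : R.natDegree < H.relIndex (inG p) := by
    rw [← u.natDegree_poly]
    refine natDegree_modByMonic_lt P u.monic_poly fun h1 => ?_
    have := u.natDegree_poly
    rw [show u.poly = 1 from h1, natDegree_one] at this
    exact u.level.relIndex_ne_zero this.symm
  have hQ : ∀ z : QBar, nrm p z = nrm p π → nrm p (aeval z G * aeval z (P /ₘ G)) ≤
      nrm p (aeval z G) := fun z hz => by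
    rw [nrm_mul]
    exact mul_le_of_le_one_right (nrm_nonneg p _) (nrm_aeval_le_one _ (hz.le.trans u.lt_one.le))
  have hRy : nrm p (aeval y R) ≤ max (nrm p (aeval y P)) (nrm p (aeval y G)) := by
    have h1 := congrArg (aeval y) hdec
    rw [map_add, map_mul] at h1
    rw [show aeval y R = aeval y P - aeval y G * aeval y (P /ₘ G) by rw [h1]; ring]
    exact (nrm_sub_le p _ _).trans (max_le_max le_rfl (hQ y hy))
  have hRx : nrm p (aeval x R) ≤ nrm p (aeval y R) := by
    rw [aeval_def, eval₂_eq_sum_range' _ hdeg]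
    refine nrm_sum_le p _ _ (nrm_nonneg p _) fun i _ => ?_
    refine le_of_eq_of_le ?_ (u.nrm_term_le hy R hdeg i)
    show nrm p ((R.coeff i : QBar) * x ^ i) = _
    rw [nrm_mul, nrm_mul, nrm_pow, nrm_pow, hx, hy]
  rw [show aeval x P = aeval x R + aeval x G * aeval x (P /ₘ G) by
    rw [← map_mul, ← map_add, ← hdec]]
  refine (nrm_add_le p _ _).trans (max_le (hRx.trans ?_) ((hQ x hx).trans ?_))
  · exact hRy.trans (max_le_max le_rfl (le_max_right _ _))
  · exact (le_max_left _ _).trans (le_max_right _ _)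

/-- Digit expansions. -/
theorem IsUnif.exists_digits : ∀ (N : ℕ) {y : QBar}, (∀ g ∈ H, g y = y) → nrm p y ≤ 1 →
    ∃ P : (intI p)[X], nrm p (y - aeval π P) ≤ nrm p π ^ N := by
  intro N
  induction N with
  | zero =>
    intro y _ hy
    exact ⟨0, by rw [map_zero, sub_zero, pow_zero]; exact hy⟩
  | succ N ih =>
    intro y hfix hy
    -- remove the residue
    obtain ⟨c, hc⟩ : ∃ c : intI p, nrm p (y - c) < 1 := by
      rcases hy.lt_or_eq with h | h
      · exact ⟨0, by rw [ZeroMemClass.coe_zero, sub_zero]; exact h⟩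
      · obtain ⟨ζ, m, hm, hpm, hζ, hlt⟩ := exists_rootOfUnity p h
        exact ⟨⟨ζ, fun g hg => inG_fix_root p hg hζ hpm, (nrm_root p hm hζ).le⟩, hlt⟩
    have hfix' : ∀ g ∈ H, g ((y - c) / π) = (y - c) / π := fun g hg => by
      rw [map_div₀, map_sub, hfix g hg, c.2.1 g (u.level.le hg), u.fixed g hg]
    have hle' : nrm p ((y - c) / π) ≤ 1 := by
      rw [nrm_div, div_le_one u.pos]
      have := u.nrm_le_of_lt (k := 0) (x := y - c) (fun g hg => by
        rw [map_sub, hfix g hg, c.2.1 g (u.level.le hg)]) (by rwa [pow_zero])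
      rwa [zero_add, pow_one] at this
    obtain ⟨P, hP⟩ := ih hfix' hle'
    refine ⟨C c + X * P, ?_⟩
    rw [map_add, map_mul, aeval_X, aeval_C,
      show y - (algebraMap (intI p) QBar c + π * aeval π P) = π * ((y - c) / π - aeval π P) by
        rw [mul_sub, mul_div_cancel₀ _ u.ne_zero]
        show y - ((c : QBar) + _) = _
        ring, nrm_mul, pow_succ']
    exact mul_le_mul_of_nonneg_left hP u.pos.le

/-- Expansions to any positive precision. -/
theorem IsUnif.exists_approx {y : QBar} (hfix : ∀ g ∈ H, g y = y) (hy : nrm p y ≤ 1) {ε : ℝ}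
    (hε : 0 < ε) : ∃ P : (intI p)[X], nrm p (y - aeval π P) ≤ ε := by
  obtain ⟨N, hN⟩ := exists_pow_lt_of_lt_one hε u.lt_one
  obtain ⟨P, hP⟩ := u.exists_digits N hfix hy
  exact ⟨P, hP.trans hN.le⟩

end Unif

end Fermat.Agent.CFT.Flat
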