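import Fermat.Agent.CFT.Flat.Lattice

/-!
# Lifting approximate points

An approximate point of a Galois order modulo `p a` lifts to a point modulo `a` when the valuation
of `a` exceeds `1 / (p - 1)`.
-/

set_option autoImplicit false
set_option linter.style.haveILetI false
set_option linter.unusedSectionVars false

noncomputable section

namespace Fermat.Agent.CFT.Flat

open Fermat.Agent.Arith Fermat.Agent.FiniteFlat AddMonoidAlgebra
open scoped AddMonoidAlgebra

variable {p : ℕ} [hp : Fact p.Prime] {M : Type} [AddCommGroup M] [Fintype M]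
  [DistribMulAction GQ M] (O : GalOrder p M)

theorem ev_map {N : Type} [AddCommGroup N] [Fintype N] (f : M →+ N) (h : N → QBar)
    (μ : QBar[M]) : ev h (mapDomainRingHom QBar f μ) = ev (h ∘ f) μ := by
  induction μ using AddMonoidAlgebra.induction_linear with
  | zero => simp
  | add x y hx hy => simp only [map_add, hx, hy]
  | single m c => simp [AddMonoidAlgebra.mapDomain_single]

/-- The diagonal embedding of measures. -/
def diagHom : QBar[M] →+* QBar[M × M] :=
  mapDomainRingHom QBar ((AddMonoidHom.id M).prod (AddMonoidHom.id M))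

/-- The first embedding of measures. -/
def fstHom : QBar[M] →+* QBar[M × M] := mapDomainRingHom QBar (AddMonoidHom.inl M M)

/-- The second embedding of measures. -/
def sndHom : QBar[M] →+* QBar[M × M] := mapDomainRingHom QBar (AddMonoidHom.inr M M)

/-- The function `(x, y) ↦ a x * b y`. -/
def outer (a b : M → QBar) : M × M → QBar := fun z => a z.1 * b z.2

theorem ev_diag (a b : M → QBar) (μ : QBar[M]) :
    ev (outer a b) (diagHom μ) = ev (a * b) μ := ev_map _ _ μ

theorem ev_fst_mul_snd (a b : M → QBar) (μ ν : QBar[M]) :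
    ev (outer a b) (fstHom μ * sndHom ν) = ev a μ * ev b ν := by
  induction μ using AddMonoidAlgebra.induction_linear with
  | zero => simp
  | add x y hx hy => simp only [map_add, add_mul, hx, hy]
  | single m c =>
    induction ν using AddMonoidAlgebra.induction_linear with
    | zero => simp
    | add x y hx hy => simp only [map_add, mul_add, hx, hy]
    | single m' c' =>
      simp [fstHom, sndHom, outer, AddMonoidAlgebra.mapDomain_single]
      ring

/-- A bound on the products of functions of the order is a bound on the product order. -/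
theorem le_prod_of_outer {μ : QBar[M × M]} {r : ℝ}
    (h : ∀ a ∈ O.H, ∀ b ∈ O.H, nrm p (ev (outer a b) μ) ≤ r) : Le (O.prod O) μ r := by
  set T : Set (M × M → QBar) := {f | ∃ a ∈ O.H, ∃ b ∈ O.H, f = outer a b} with hT
  let Sm : Submonoid (M × M → QBar) :=
    { carrier := T
      one_mem' := ⟨1, O.H.one_mem, 1, O.H.one_mem, funext fun z => (mul_one (1 : QBar)).symm⟩
      mul_mem' := by
        rintro _ _ ⟨a, ha, b, hb, rfl⟩ ⟨a', ha', b', hb', rfl⟩
        exact ⟨a * a', O.H.mul_mem ha ha', b * b', O.H.mul_mem hb hb',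
          funext fun z => mul_mul_mul_comm (a z.1) (b z.2) (a' z.1) (b' z.2)⟩ }
  have hle : (O.prod O).H ≤ Algebra.adjoin (Zl p) T := by
    refine sup_le ?_ ?_
    · rintro _ ⟨a, ha, rfl⟩
      exact Algebra.subset_adjoin ⟨a, ha, 1, O.H.one_mem, funext fun z => (mul_one (a z.1)).symm⟩
    · rintro _ ⟨b, hb, rfl⟩
      exact Algebra.subset_adjoin ⟨1, O.H.one_mem, b, hb, funext fun z => (one_mul (b z.2)).symm⟩
  intro f hf
  have hf' : f ∈ Submodule.span (Zl p) T := by
    have h1 : f ∈ Subalgebra.toSubmodule (Algebra.adjoin (Zl p) T) := hle hf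
    rw [Algebra.adjoin_eq_span] at h1
    have h2 : (Submonoid.closure T : Set (M × M → QBar)) = T :=
      congrArg (fun t : Submonoid (M × M → QBar) => (t : Set (M × M → QBar)))
        (Submonoid.closure_eq Sm)
    rwa [h2] at h1
  have hr : 0 ≤ r := (nrm_nonneg p _).trans (h 1 O.H.one_mem 1 O.H.one_mem)
  clear hf
  induction hf' using Submodule.span_induction with
  | mem x hx => obtain ⟨a, ha, b, hb, rfl⟩ := hx; exact h a ha b hb
  | zero => rw [ev_zero_fun, nrm_zero]; exact hr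
  | add x y _ _ hx hy =>
    rw [ev_add_fun]
    exact nrm_add_le_of_le p hx hy
  | smul c x _ hx =>
    rw [show c • x = ((c : ℚ) : QBar) • x from funext fun m => zl_smul _ _, ev_smul_fun, nrm_mul]
    exact (mul_le_mul (nrm_zl_le_one p c) hx (nrm_nonneg p _) zero_le_one).trans (one_mul r).le

variable {O}

theorem Le.diag {μ : QBar[M]} {r : ℝ} (h : Le O μ r) : Le (O.prod O) (diagHom μ) r :=
  le_prod_of_outer O fun a ha b hb => by rw [ev_diag]; exact h _ (O.H.mul_mem ha hb)

theorem Le.fst_mul_snd {μ ν : QBar[M]} {r s : ℝ} (h : Le O μ r) (h' : Le O ν s) :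
    Le (O.prod O) (fstHom μ * sndHom ν) (r * s) :=
  le_prod_of_outer O fun a ha b hb => by
    rw [ev_fst_mul_snd, nrm_mul]
    exact mul_le_mul (h a ha) (h' b hb) (nrm_nonneg p _) h.nonneg

theorem Le.snd {μ : QBar[M]} {r : ℝ} (h : Le O μ r) : Le (O.prod O) (sndHom μ) r := by
  simpa using (le_one_measure (O := O)).fst_mul_snd h

variable (O)

/-- Multiplicativity defect. -/
def Defect (μ : QBar[M]) (ρ : ℝ) : Prop :=
  ∀ a ∈ O.H, ∀ b ∈ O.H, nrm p (ev (a * b) μ - ev a μ * ev b μ) ≤ ρ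

variable {O}

theorem defect_iff {μ : QBar[M]} {ρ : ℝ} (hρ : Defect O μ ρ) :
    Le (O.prod O) (diagHom μ - fstHom μ * sndHom μ) ρ :=
  le_prod_of_outer O fun a ha b hb => by
    rw [map_sub, ev_diag, ev_fst_mul_snd]; exact hρ a ha b hb

/-- The functions `h ∘ (k • ·)` belong to the order. -/
theorem comp_nsmul_mem {h : M → QBar} (hh : h ∈ O.H) :
    ∀ k : ℕ, (fun x => h (k • x)) ∈ O.H := by
  intro k
  induction k generalizing h with
  | zero =>
    obtain ⟨c, hc⟩ := O.exists_zl_of_equivariant_zero hh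
    have : (fun x : M => h (0 • x)) = c • (1 : M → QBar) := funext fun x => by
      rw [zero_nsmul, ← hc, Pi.smul_apply, Pi.one_apply, zl_smul, mul_one]
    rw [this]
    exact O.H.smul_mem O.H.one_mem c
  | succ k ih =>
    obtain ⟨n, a, b, ha, hb, hab⟩ := O.comul h hh
    have : (fun x : M => h ((k + 1) • x)) = ∑ i, (fun x => a i (k • x)) * b i := funext fun x => by
      simp only [succ_nsmul, hab, Finset.sum_apply, Pi.mul_apply]
    rw [this]
    exact O.H.sum_mem fun i _ => O.H.mul_mem (ih (ha i)) (hb i)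

/-- An approximate point has `p`-th power close to one. -/
theorem le_pow_sub_one (hkill : ∀ m : M, p • m = 0) {μ : QBar[M]} {ρ : ℝ} (hμ : Le O μ 1)
    (hD : Defect O μ ρ) (h1 : nrm p (ev 1 μ - 1) ≤ ρ) : Le O (μ ^ p - 1) ρ := by
  have hρ : 0 ≤ ρ := (nrm_nonneg p _).trans h1
  have key : ∀ k, ∀ h ∈ O.H, nrm p (ev h (μ ^ k) - ev (fun x => h (k • x)) μ) ≤ ρ := by
    intro k
    induction k with
    | zero =>
      intro h hh
      rw [pow_zero, ev_one, show (fun x : M => h (0 • x)) = h 0 • (1 : M → QBar) from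
        funext fun x => by simp, ev_smul_fun, ← mul_one_sub, nrm_mul, nrm_sub_comm]
      exact (mul_le_of_le_one_left (nrm_nonneg p _) (nrm_apply_le_one O hh 0)).trans h1
    | succ k ih =>
      intro h hh
      obtain ⟨n, a, b, ha, hb, hab⟩ := O.comul h hh
      rw [pow_succ, ev_mul hab, show (fun x : M => h ((k + 1) • x)) =
        ∑ i, (fun x => a i (k • x)) * b i from funext fun x => by
          simp only [succ_nsmul, hab, Finset.sum_apply, Pi.mul_apply], ev_sum_fun,
        ← Finset.sum_sub_distrib]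
      refine nrm_sum_le p _ _ hρ fun i _ => ?_
      rw [show ev (a i) (μ ^ k) * ev (b i) μ - ev ((fun x => a i (k • x)) * b i) μ =
        (ev (a i) (μ ^ k) - ev (fun x => a i (k • x)) μ) * ev (b i) μ -
          (ev ((fun x => a i (k • x)) * b i) μ - ev (fun x => a i (k • x)) μ * ev (b i) μ) by ring]
      refine nrm_sub_le_of_le p ?_ (hD _ (comp_nsmul_mem (ha i) k) _ (hb i))
      rw [nrm_mul]
      exact (mul_le_of_le_one_right (nrm_nonneg p _) (hμ _ (hb i))).trans (ih _ (ha i))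
  intro h hh
  have hp' := key p h hh
  rw [show (fun x : M => h (p • x)) = h 0 • (1 : M → QBar) from
    funext fun x => by simp [hkill], ev_smul_fun] at hp'
  rw [map_sub, ev_one, show ev h (μ ^ p) - h 0 =
    (ev h (μ ^ p) - h 0 * ev 1 μ) + h 0 * (ev 1 μ - 1) by ring]
  refine nrm_add_le_of_le p hp' ?_
  rw [nrm_mul]
  exact (mul_le_of_le_one_left (nrm_nonneg p _) (nrm_apply_le_one O hh 0)).trans h1

/-- Improving a `p`-th root of one. -/
theorem exists_step {μ : QBar[M]} {r r₀ : ℝ} (hr₀ : r₀ ≤ 1) (hrr : r ≤ r₀) (hμ : Le O μ 1)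
    (h : Le O (μ ^ p - 1) ((p : ℝ)⁻¹ * r)) :
    ∃ μ' : QBar[M], Le O μ' 1 ∧ Le O (μ' - μ) r ∧
      Le O (μ' ^ p - 1) ((p : ℝ)⁻¹ * (r * max r₀ ((p : ℝ) * r₀ ^ (p - 1)))) := by
  have hp0 : (0 : ℝ) < p := zero_lt_one.trans (one_lt_cast p)
  have hpQ : (p : QBar) ≠ 0 := Nat.cast_ne_zero.mpr hp.out.ne_zero
  have hr : 0 ≤ r := nonneg_of_mul_nonneg_right h.nonneg (inv_cast_pos p)
  set c := max r₀ ((p : ℝ) * r₀ ^ (p - 1)) with hc
  set Z := (p : QBar)⁻¹ • (μ ^ p - 1) with hZdef
  have hZ : Le O Z r := by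
    refine (h.smul (c := (p : QBar)⁻¹) (s := (p : ℝ))
      (by rw [nrm_inv, nrm_natCast_self, inv_inv])).mono ?_
    rw [← mul_assoc, mul_inv_cancel₀ hp0.ne', one_mul]
  have hμp : μ ^ p = 1 + (p : QBar) • Z := by
    rw [hZdef, smul_smul, mul_inv_cancel₀ hpQ, one_smul]
    abel
  have hR := le_pow_remainder O (le_one_measure (O := O)) hZ.neg (hrr.trans hr₀)
  simp only [one_pow, one_mul, ← sub_eq_add_neg] at hR
  set R := (1 - Z) ^ p - 1 - (p : QBar) • -Z with hRdef
  have h1Z : (1 - Z) ^ p = 1 - (p : QBar) • Z + R := by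
    rw [hRdef, smul_neg]; abel
  have hb1 : r ^ 2 ≤ r * c := by
    rw [sq]; exact mul_le_mul_of_nonneg_left (hrr.trans (le_max_left _ _)) hr
  have hb2 : r ^ p ≤ (p : ℝ)⁻¹ * (r * c) := by
    rw [← Nat.sub_add_cancel hp.out.one_le, pow_succ, Nat.sub_add_cancel hp.out.one_le,
      mul_left_comm, mul_comm (r ^ (p - 1)) r]
    refine mul_le_mul_of_nonneg_left ?_ hr
    rw [le_inv_mul_iff₀ hp0]
    exact (mul_le_mul_of_nonneg_left (pow_le_pow_left₀ hr hrr _) hp0.le).trans (le_max_right _ _)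
  refine ⟨μ * (1 - Z), hμ.mul_le_left (le_one_measure.sub (hZ.mono (hrr.trans hr₀))), ?_, ?_⟩
  · rw [mul_sub, mul_one, sub_sub_cancel_left]
    exact (hμ.mul_le_left hZ).neg
  rw [mul_pow, h1Z, show μ ^ p * (1 - (p : QBar) • Z + R) - 1 =
      -((p : QBar) • ((p : QBar) • (Z * Z))) + μ ^ p * R by
    rw [mul_add, hμp, mul_sub, mul_one, add_mul, one_mul, smul_mul_assoc, mul_smul_comm]
    abel]
  refine ((((hZ.mul hZ).smul (nrm_natCast_self p).le).smul (nrm_natCast_self p).le).mono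
    ?_).neg.add (((hμ.pow_one' p).mul_le_left hR).mono (max_le ?_ hb2))
  · rw [← sq]
    refine mul_le_mul_of_nonneg_left ?_ (inv_cast_pos p).le
    exact (mul_le_of_le_one_left (sq_nonneg r) (inv_cast_lt_one p).le).trans hb1
  · exact mul_le_mul_of_nonneg_left hb1 (inv_cast_pos p).le

/-- A nearly multiplicative measure is close to a point. -/
theorem exists_point_of_small_defect {μ : QBar[M]} (_hμ : Le O μ 1) {r : ℝ} (hr : 0 < r)
    (h1 : nrm p (ev 1 μ - 1) < 1)
    (hD : ∀ δ : ℝ, 0 < δ → ∃ ν, Le O ν 1 ∧ Le O (ν - μ) r ∧ Defect O ν δ) (hr1 : r < 1) :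
    ∃ m, ∀ h ∈ O.H, nrm p (h m - ev h μ) ≤ r := by
  classical
  have hsp : ∀ m : M, ∃ c : Module.Free.ChooseBasisIndex (Zl p) O.H → QBar,
      (Pi.single m 1 : M → QBar) = ∑ i, c i • ((O.basis i : O.H) : M → QBar) := by
    intro m
    have hmem : (Pi.single m 1 : M → QBar) ∈ Submodule.span QBar
        (Set.range fun i => ((O.basis i : O.H) : M → QBar)) := by
      refine (Submodule.span_le.mpr ?_) (O.span_eq_top.symm ▸ Submodule.mem_top :
        (Pi.single m 1 : M → QBar) ∈ Submodule.span QBar (O.H : Set (M → QBar)))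
      intro f hf
      have := congrArg (fun g : O.H => (g : M → QBar)) (O.basis.sum_repr ⟨f, hf⟩)
      simp only [AddSubmonoidClass.coe_finsetSum, SetLike.val_smul] at this
      rw [SetLike.mem_coe, ← this]
      exact Submodule.sum_mem _ fun i _ => Submodule.smul_of_tower_mem _ _
        (Submodule.subset_span (Set.mem_range_self i))
    obtain ⟨c, hc⟩ := (Submodule.mem_span_range_iff_exists_fun QBar).mp hmem
    exact ⟨c, hc.symm⟩
  choose c hc using hsp
  set D : ℝ := 1 + ∑ m, ∑ i, nrm p (c m i) with hDdef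
  have hD1 : 1 ≤ D := le_add_of_nonneg_right
    (Finset.sum_nonneg fun m _ => Finset.sum_nonneg fun i _ => nrm_nonneg p _)
  have hcD : ∀ m i, nrm p (c m i) ≤ D := fun m i => by
    refine le_add_of_nonneg_of_le zero_le_one ?_
    exact (Finset.single_le_sum (f := fun i => nrm p (c m i)) (fun i _ => nrm_nonneg p _)
      (Finset.mem_univ i)).trans (Finset.single_le_sum (f := fun m => ∑ i, nrm p (c m i))
        (fun m _ => Finset.sum_nonneg fun i _ => nrm_nonneg p _) (Finset.mem_univ m))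
  have hD0 : 0 < D := zero_lt_one.trans_le hD1
  obtain ⟨ν, hν, hνμ, hνD⟩ := hD (r / (D * D)) (div_pos hr (mul_pos hD0 hD0))
  have hδr : r / (D * D) ≤ r :=
    div_le_self hr.le (one_le_mul_of_one_le_of_one_le hD1 hD1)
  set x : M → QBar := fun m => ev (Pi.single m 1) ν with hx
  have hxx : ∀ m m', nrm p (ev (Pi.single m 1 * Pi.single m' 1 : M → QBar) ν - x m * x m') ≤ r := by
    intro m m'
    simp only [hx, hc m, hc m', Finset.sum_mul, Finset.mul_sum, ev_sum_fun, smul_mul_smul_comm,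
      ev_smul_fun, ← Finset.sum_sub_distrib]
    refine nrm_sum_le p _ _ hr.le fun i _ => nrm_sum_le p _ _ hr.le fun j _ => ?_
    rw [mul_mul_mul_comm, ← mul_sub, nrm_mul]
    refine (mul_le_mul ?_ (hνD _ (SetLike.coe_mem _) _ (SetLike.coe_mem _)) (nrm_nonneg p _)
      (mul_nonneg hD0.le hD0.le)).trans (le_of_eq (mul_div_cancel₀ r (mul_pos hD0 hD0).ne'))
    rw [nrm_mul]
    exact mul_le_mul (hcD _ _) (hcD _ _) (nrm_nonneg p _) hD0.le
  have hsum : ∑ m, x m = ev 1 ν := by
    rw [hx, ← ev_sum_fun]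
    congr 2
    funext y
    simp [Finset.sum_apply, Pi.single_apply]
  have he : nrm p (ev 1 ν - 1) < 1 := by
    rw [show ev 1 ν - 1 = ev 1 (ν - μ) + (ev 1 μ - 1) by rw [map_sub]; ring]
    exact nrm_add_lt_of_lt p ((hνμ 1 O.H.one_mem).trans_lt hr1) h1
  obtain ⟨m, hm⟩ : ∃ m, 1 ≤ nrm p (x m) := by
    by_contra! hall
    have h2 : nrm p (ev 1 ν) < 1 := hsum ▸ (mem_nonunits_iff p).mp
      (sum_mem fun m _ => (mem_nonunits_iff p).mpr (hall m))
    have := nrm_sub_lt_of_lt p h2 he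
    rw [sub_sub_cancel, nrm_one] at this
    exact lt_irrefl 1 this
  have hmm := hxx m m
  rw [show (Pi.single m 1 * Pi.single m 1 : M → QBar) = Pi.single m 1 by
    rw [← Pi.single_mul, one_mul]] at hmm
  have hxm : nrm p (x m) = 1 := by
    refine le_antisymm (not_lt.mp fun hlt => ?_) hm
    have h2 : nrm p (x m) < nrm p (x m * x m) := by
      rw [nrm_mul]; exact lt_mul_self hlt
    change nrm p (x m - x m * x m) ≤ r at hmm
    rw [nrm_sub_comm, sub_eq_add_neg, nrm_add_eq_of_lt p (by rwa [nrm_neg]), nrm_mul] at hmm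
    exact absurd ((one_le_mul_of_one_le_of_one_le hm hm).trans hmm) (not_le.mpr hr1)
  have hone : nrm p (1 - x m) ≤ r := by
    change nrm p (x m - x m * x m) ≤ r at hmm
    rwa [← mul_one_sub, nrm_mul, hxm, one_mul] at hmm
  have hother : ∀ m', m' ≠ m → nrm p (x m') ≤ r := fun m' hne => by
    have := hxx m m'
    rw [show (Pi.single m 1 * Pi.single m' 1 : M → QBar) = 0 from funext fun y => by
      rcases eq_or_ne y m with rfl | hy
      · simp [Pi.single_eq_of_ne hne.symm]
      · simp [Pi.single_eq_of_ne hy], ev_zero_fun, zero_sub, nrm_neg, nrm_mul, hxm, one_mul] at this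
    exact this
  refine ⟨m, fun h hh => ?_⟩
  have hev : ev h ν = ∑ y, h y * x y := by
    rw [show h = ∑ y, h y • (Pi.single y 1 : M → QBar) from funext fun z => by
      simp [Finset.sum_apply, Pi.single_apply]]
    rw [ev_sum_fun]
    refine Finset.sum_congr rfl fun y _ => ?_
    rw [ev_smul_fun]
    congr 1
    simp [Finset.sum_apply, Pi.single_apply]
  rw [show h m - ev h μ = (h m - ev h ν) + ev h (ν - μ) by rw [map_sub]; ring]
  refine nrm_add_le_of_le p ?_ (hνμ h hh)
  rw [hev, ← Finset.add_sum_erase _ _ (Finset.mem_univ m), ← sub_sub, ← mul_one_sub]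
  refine nrm_sub_le_of_le p ?_ (nrm_sum_le p _ _ hr.le fun y hy => ?_)
  · rw [nrm_mul]
    exact (mul_le_of_le_one_left (nrm_nonneg p _) (nrm_apply_le_one O hh m)).trans hone
  · rw [nrm_mul]
    exact (mul_le_of_le_one_left (nrm_nonneg p _) (nrm_apply_le_one O hh y)).trans
      (hother y (Finset.mem_erase.mp hy).1)

/-- Lifting of approximate points. -/
theorem exists_point_near (hkill : ∀ m : M, p • m = 0) {μ : QBar[M]} {ρ : ℝ} (hμ : Le O μ 1)
    (hD : Defect O μ ρ) (h1 : nrm p (ev 1 μ - 1) ≤ ρ) (hρ0 : 0 < ρ)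
    (hρ : ((p : ℝ) * ρ) ^ (p - 1) < (p : ℝ)⁻¹) :
    ∃ m, ∀ h ∈ O.H, nrm p (h m - ev h μ) ≤ (p : ℝ) * ρ := by
  have hp0 : (0 : ℝ) < p := zero_lt_one.trans (one_lt_cast p)
  set r₀ := (p : ℝ) * ρ with hr₀
  have hr1 : r₀ < 1 := lt_one_of_pow_lt hρ
  have hr0 : 0 < r₀ := mul_pos hp0 hρ0
  have hρr : ρ ≤ r₀ := le_mul_of_one_le_left hρ0.le (one_lt_cast p).le
  set c := max r₀ ((p : ℝ) * r₀ ^ (p - 1)) with hc
  have hc1 : c < 1 := max_lt hr1 (by rwa [← lt_div_iff₀' hp0, one_div])
  have hc0 : 0 ≤ c := hr0.le.trans (le_max_left _ _)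
  have hiter : ∀ n : ℕ, ∃ ν : QBar[M], Le O ν 1 ∧ Le O (ν - μ) r₀ ∧
      Le O (ν ^ p - 1) ((p : ℝ)⁻¹ * (r₀ * c ^ n)) := by
    intro n
    induction n with
    | zero =>
      refine ⟨μ, hμ, (sub_self μ).symm ▸ le_zero_measure hr0.le, ?_⟩
      rw [pow_zero, mul_one, hr₀, ← mul_assoc, inv_mul_cancel₀ hp0.ne', one_mul]
      exact le_pow_sub_one hkill hμ hD h1
    | succ n ih =>
      obtain ⟨ν, hν, hνμ, hνp⟩ := ih
      have hle : r₀ * c ^ n ≤ r₀ := mul_le_of_le_one_right hr0.le (pow_le_one₀ hc0 hc1.le)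
      obtain ⟨ν', hν', hνν, hνp'⟩ := exists_step hr1.le hle hν hνp
      refine ⟨ν', hν', ?_, ?_⟩
      · rw [← sub_add_sub_cancel ν' ν μ]
        exact (hνν.mono hle).add hνμ
      · rw [pow_succ, ← mul_assoc r₀]
        exact hνp'
  refine exists_point_of_small_defect hμ hr0 (h1.trans_lt (hρr.trans_lt hr1)) (fun δ hδ => ?_) hr1
  obtain ⟨n, hn⟩ := exists_pow_lt_of_lt_one (div_pos hδ hr0) hc1
  obtain ⟨ν, hν, hνμ, hνp⟩ := hiter n
  refine ⟨ν, hν, hνμ, fun a ha b hb => ?_⟩
  -- compare the two `p`-th roots of one in the square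
  set η := (p : ℝ)⁻¹ * (r₀ * c ^ n) with hη
  have hη1 : η < 1 := by
    refine lt_of_le_of_lt ?_ hr1
    exact (mul_le_of_le_one_left (mul_nonneg hr0.le (pow_nonneg hc0 n))
      (inv_cast_lt_one p).le).trans (mul_le_of_le_one_right hr0.le (pow_le_one₀ hc0 hc1.le))
  have hB : Le (O.prod O) (fstHom ν * sndHom ν) 1 := (hν.fst_mul_snd hν).mono (one_mul 1).le
  have hA : Le (O.prod O) (diagHom ν ^ p - 1) η := by
    rw [← map_pow, ← map_one diagHom, ← map_sub]; exact hνp.diag
  have hB' : Le (O.prod O) ((fstHom ν * sndHom ν) ^ p - 1) η := by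
    rw [mul_pow, ← map_pow, ← map_pow, show fstHom (ν ^ p) * sndHom (ν ^ p) - 1 =
      fstHom (ν ^ p - 1) * sndHom (ν ^ p) + sndHom (ν ^ p - 1) by
        rw [map_sub, map_sub, map_one, map_one]; ring]
    exact (((hνp.fst_mul_snd (hν.pow_one' p))).mono (mul_one η).le).add hνp.snd
  have hy : Le (O.prod O) (diagHom ν - fstHom ν * sndHom ν) r₀ := by
    rw [show diagHom ν - fstHom ν * sndHom ν = diagHom (ν - μ) +
        (diagHom μ - fstHom μ * sndHom μ) +
        -(fstHom (ν - μ) * sndHom ν + fstHom μ * sndHom (ν - μ)) by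
      rw [map_sub, map_sub, map_sub]; ring]
    exact (hνμ.diag.add ((defect_iff hD).mono hρr)).add
      (((hνμ.fst_mul_snd hν).mono (mul_one r₀).le).add
        ((hμ.fst_mul_snd hνμ).mono (one_mul r₀).le)).neg
  have hclose := close (O.prod O) hB hB' hη1
    (A := diagHom ν) (ε := η) (by rw [← sub_sub_sub_cancel_right _ _ (1 : QBar[M × M])]
                                  exact hA.sub hB') hy hρ
  have h2 := hclose (outer a b) (by
    show outer a b ∈ (O.prod O).H
    exact (O.H.map (GalOrder.precomp p Prod.fst) ⊔ O.H.map (GalOrder.precomp p Prod.snd)).mul_mem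
      (SetLike.le_def.mp le_sup_left ⟨a, ha, rfl⟩) (SetLike.le_def.mp le_sup_right ⟨b, hb, rfl⟩))
  rw [map_sub, ev_diag, ev_fst_mul_snd] at h2
  refine h2.trans ?_
  rw [hη, ← mul_assoc, mul_inv_cancel₀ hp0.ne', one_mul]
  rw [lt_div_iff₀' hr0] at hn
  exact hn.le

end Fermat.Agent.CFT.Flat
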