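import Fermat.Agent.CFT.Flat.Coset
import Fermat.Agent.CFT.Flat.Kummer
import Fermat.Agent.CFT.Tangent.Dual
import Fermat.Agent.RT.Glue.FlatDescent

/-!
# Orders on the points of a first order flat lift

The consequences of flatness used for the tangent bound: the ramification bound, and the
position of the connected part when the residual representation has a stable line.
-/

set_option autoImplicit false
set_option linter.style.haveILetI false
set_option linter.unusedSectionVars false
set_option linter.unusedVariables false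

noncomputable section

namespace Fermat.Agent.CFT.Flat

open Fermat.Agent.Arith Fermat.Agent.Deform Fermat.Agent.FiniteFlat
open Fermat.Agent.CFT.Tangent (fstM sndM inlM epsM dualM_ext fstM_mul sndM_mul fstM_add sndM_add
  fstM_one sndM_one fstM_inlM sndM_inlM fstM_epsM sndM_epsM)
open Matrix

/-- Column vectors acted on through a matrix representation. -/
def MVec {R : Type} [CommRing R] (_m : GQ →* M2 R) : Type := Fin 2 → R

variable {R : Type} [CommRing R] (m : GQ →* M2 R)

instance instAddCommGroupMVec : AddCommGroup (MVec m) := inferInstanceAs (AddCommGroup (Fin 2 → R))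

instance instModuleMVec : Module R (MVec m) := inferInstanceAs (Module R (Fin 2 → R))

instance instFiniteMVec [Finite R] : Finite (MVec m) := inferInstanceAs (Finite (Fin 2 → R))

instance instActionMVec : DistribMulAction GQ (MVec m) where
  smul σ v := ((m σ) *ᵥ (v : Fin 2 → R) :)
  one_smul v := (congrArg (fun A => Matrix.mulVec A (v : Fin 2 → R)) (map_one m)).trans
    (one_mulVec _)
  mul_smul σ τ v := (congrArg (fun A => Matrix.mulVec A (v : Fin 2 → R)) (map_mul m σ τ)).trans
    (mulVec_mulVec _ _ _).symm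
  smul_zero σ := mulVec_zero _
  smul_add σ v w := mulVec_add _ _ _

/-- A column vector. -/
def MVec.mk (v : Fin 2 → R) : MVec m := v

@[simp] theorem MVec.mk_apply (v : Fin 2 → R) (i : Fin 2) : MVec.mk m v i = v i := rfl

@[simp] theorem mvec_add_apply (v w : MVec m) (i : Fin 2) : (v + w) i = v i + w i := rfl

@[simp] theorem mvec_sub_apply (v w : MVec m) (i : Fin 2) : (v - w) i = v i - w i := rfl

@[simp] theorem mvec_zero_apply (i : Fin 2) : (0 : MVec m) i = 0 := rfl

@[simp] theorem mvec_scalar_apply (c : R) (v : MVec m) (i : Fin 2) : (c • v) i = c * v i := rfl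

theorem mvec_smul_apply (σ : GQ) (v : MVec m) (i : Fin 2) :
    (σ • v : MVec m) i = m σ i 0 * v 0 + m σ i 1 * v 1 := by
  exact Fin.sum_univ_two (fun j => m σ i j * v j)

variable {p : ℕ} [hp : Fact p.Prime] {k : Type} [Field k]

theorem mvec_smul_smul (σ : GQ) (c : R) (v : MVec m) : σ • (c • v) = c • (σ • v) :=
  Matrix.mulVec_smul _ c (v : Fin 2 → R)

theorem mvec_ext {v w : MVec m} (h : ∀ i, v i = w i) : v = w := funext h

theorem eq_one_of_fixes {σ : GQ} (h : ∀ v : MVec m, σ • v = v) : m σ = 1 := by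
  classical
  ext i j
  have h1 := congrArg (fun w : MVec m => w i) (h (MVec.mk m fun l => if l = j then (1 : R) else 0))
  simp only [mvec_smul_apply, MVec.mk_apply] at h1
  fin_cases j <;> fin_cases i <;> simpa using h1

theorem nsmul_mvec_eq_zero [CharP k p] {m' : GQ →* M2 (DualNumber k)} (v : MVec m') : p • v = 0 := by
  refine mvec_ext m' fun i => ?_
  show p • (v i : DualNumber k) = 0
  refine TrivSqZeroExt.ext ?_ ?_ <;> simp [CharP.cast_eq_zero]

theorem nsmul_mvec_residual_eq_zero [CharP k p] {r : GQ →* M2 k} (v : MVec r) : p • v = 0 := by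
  refine mvec_ext r fun i => ?_
  show p • (v i : k) = 0
  simp [CharP.cast_eq_zero]

/-- A first order lift with a Galois order on its points. -/
def HasOrderLift (p : ℕ) [Fact p.Prime] (r : GQ →* M2 k) (b : GQ → M2 k) : Prop :=
  ∃ m : GQ →* M2 (DualNumber k), (∀ σ, m σ = (1 + epsM (b σ)) * inlM (r σ)) ∧
    Nonempty (GalOrder p (MVec m))

instance instFiniteDualNumber [Finite k] : Finite (DualNumber k) :=
  inferInstanceAs (Finite (k × k))

variable {r : GQ →* M2 k} {b : GQ → M2 k}

theorem fst_lift {m' : GQ →* M2 (DualNumber k)}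
    (hm : ∀ σ, m' σ = (1 + epsM (b σ)) * inlM (r σ)) (σ : GQ) :
    fstM (m' σ) = r σ ∧ sndM (m' σ) = b σ * r σ := by
  rw [hm]
  simp

/-- Flatness gives an order on the points of the lift. -/
theorem hasOrderLift_of_flat [Finite k] (ρ : GaloisRepAdic (DualNumber k))
    (B : Module.Basis (Fin 2) (DualNumber k) ρ.V) (hflat : ρ.IsFlatAt p)
    (hm : ∀ σ, matOf ρ B σ = (1 + epsM (b σ)) * inlM (r σ)) : HasOrderLift p r b := by
  refine ⟨matOf ρ B, hm, ?_⟩
  haveI : Finite (DualNumber k ⧸ (⊥ : Ideal (DualNumber k))) :=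
    Finite.of_surjective _ Ideal.Quotient.mk_surjective
  obtain ⟨H, i₁, i₂, hfin, -, -, e, hadd, hgal⟩ := hflat.2 ⊥ inferInstance
  letI act : DistribMulAction GQ
      (ρ.V ⧸ ((⊥ : Ideal (DualNumber k)) • (⊤ : Submodule (DualNumber k) ρ.V))) :=
    { smul := fun σ v => ρ.levelAction ⊥ σ v
      one_smul := fun v => by
        obtain ⟨v, rfl⟩ := Submodule.Quotient.mk_surjective _ v
        show Submodule.Quotient.mk (ρ.ρ 1 v) = Submodule.Quotient.mk v
        rw [map_one, Module.End.one_apply]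
      mul_smul := fun σ τ v => by
        obtain ⟨v, rfl⟩ := Submodule.Quotient.mk_surjective _ v
        show Submodule.Quotient.mk (ρ.ρ (σ * τ) v) = Submodule.Quotient.mk (ρ.ρ σ (ρ.ρ τ v))
        rw [map_mul, Module.End.mul_apply]
      smul_zero := fun σ => map_zero (ρ.levelAction ⊥ σ)
      smul_add := fun σ v w => map_add (ρ.levelAction ⊥ σ) v w }
  obtain ⟨O⟩ := RT.Glue.nonempty_galOrder_of_hopf (l := p) e hadd
    fun σ f g h => hgal σ f g h
  let i : MVec (matOf ρ B) →+
      (ρ.V ⧸ ((⊥ : Ideal (DualNumber k)) • (⊤ : Submodule (DualNumber k) ρ.V))) :=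
    AddMonoidHom.mk' (fun v => Submodule.Quotient.mk (B.equivFun.symm v)) fun v w =>
      (congrArg Submodule.Quotient.mk (map_add B.equivFun.symm v w)).trans rfl
  refine ⟨O.restrict i (fun v w h => ?_) fun σ v => ?_⟩
  · have h1 : (B.equivFun.symm v : ρ.V) - B.equivFun.symm w ∈
        (⊥ : Ideal (DualNumber k)) • (⊤ : Submodule (DualNumber k) ρ.V) :=
      (Submodule.Quotient.eq _).mp h
    rw [Submodule.bot_smul, Submodule.mem_bot, sub_eq_zero] at h1
    exact B.equivFun.symm.injective h1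
  · show Submodule.Quotient.mk (B.equivFun.symm (σ • v : MVec (matOf ρ B))) =
      Submodule.Quotient.mk (ρ.ρ σ (B.equivFun.symm v))
    refine congrArg Submodule.Quotient.mk ?_
    apply B.equivFun.injective
    refine (B.equivFun.apply_symm_apply _).trans ?_
    have h1 := LinearMap.toMatrix_mulVec_repr B B (ρ.ρ σ) (B.equivFun.symm v)
    have h2 : ⇑(B.repr (B.equivFun.symm v)) = (v : Fin 2 → DualNumber k) :=
      B.equivFun.apply_symm_apply v
    rw [h2] at h1
    exact h1

/-- Change of frame. -/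
theorem HasOrderLift.conj (h : HasOrderLift p r b) (P : (M2 k)ˣ) :
    HasOrderLift p (conjM P r) fun σ => (↑P⁻¹ : M2 k) * b σ * (P : M2 k) := by
  obtain ⟨m', hm, ⟨O⟩⟩ := h
  let Q : (M2 (DualNumber k))ˣ := ⟨inlM (P : M2 k), inlM (↑P⁻¹ : M2 k),
    dualM_ext (by simp) (by simp), dualM_ext (by simp) (by simp)⟩
  let f : MVec (conjM Q m') → MVec m' := fun v => MVec.mk m'
    fun i => (Q : M2 (DualNumber k)) i 0 * v 0 + (Q : M2 (DualNumber k)) i 1 * v 1
  refine ⟨conjM Q m', fun σ => ?_, ⟨O.restrict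
    (AddMonoidHom.mk' f fun v w => mvec_ext m' fun i => by
      simp only [f, MVec.mk_apply, mvec_add_apply]; ring) ?_ ?_⟩⟩
  · rw [conjM_apply]
    show inlM (↑P⁻¹ : M2 k) * m' σ * inlM (P : M2 k) = _
    rw [hm]
    refine dualM_ext ?_ ?_ <;> simp [conjM_apply, mul_assoc]
  · intro v w h
    have hinv : ∀ (u : MVec (conjM Q m')) (i : Fin 2),
        (↑Q⁻¹ : M2 (DualNumber k)) i 0 * f u 0 + (↑Q⁻¹ : M2 (DualNumber k)) i 1 * f u 1 = u i := by
      intro u
      have key : ∀ i j, (↑Q⁻¹ : M2 (DualNumber k)) i 0 * (Q : M2 (DualNumber k)) 0 j +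
          (↑Q⁻¹ : M2 (DualNumber k)) i 1 * (Q : M2 (DualNumber k)) 1 j =
          (1 : M2 (DualNumber k)) i j := fun i j => by
        have h0 := congrFun (congrFun (Units.inv_mul Q) i) j
        rwa [Matrix.mul_apply, Fin.sum_univ_two] at h0
      simp only [f, MVec.mk_apply]
      refine Fin.forall_fin_two.mpr ⟨?_, ?_⟩
      · linear_combination u 0 * (key 0 0).trans (Matrix.one_apply_eq 0) +
          u 1 * (key 0 1).trans (Matrix.one_apply_ne (by decide))
      · linear_combination u 0 * (key 1 0).trans (Matrix.one_apply_ne (by decide)) +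
          u 1 * (key 1 1).trans (Matrix.one_apply_eq 1)
    exact mvec_ext _ fun i => by
      rw [← hinv v i, ← hinv w i, show f v = f w from h]
  · intro σ v
    refine mvec_ext m' fun i => ?_
    have he : (Q : M2 (DualNumber k)) * conjM Q m' σ = m' σ * (Q : M2 (DualNumber k)) := by
      rw [conjM_apply, ← mul_assoc, Units.mul_inv_cancel_left]
    have h0 := congrFun (congrFun he i) 0
    have h1 := congrFun (congrFun he i) 1
    rw [Matrix.mul_apply, Matrix.mul_apply, Fin.sum_univ_two, Fin.sum_univ_two] at h0 h1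
    show f (σ • v : MVec (conjM Q m')) i = (σ • (f v) : MVec m') i
    simp only [f, MVec.mk_apply, mvec_smul_apply]
    linear_combination v 0 * h0 + v 1 * h1

/-- The residual representation inside a lift. -/
def epsHom {m' : GQ →* M2 (DualNumber k)} (hm : ∀ σ, fstM (m' σ) = r σ) :
    {i : MVec r →+ MVec m' // Function.Injective i ∧ ∀ (σ : GQ) v, i (σ • v) = σ • i v} :=
  ⟨AddMonoidHom.mk' (fun v : MVec r => MVec.mk m' fun i => TrivSqZeroExt.inr (v i))
      fun v w => mvec_ext m' fun i => TrivSqZeroExt.inr_add k (v i) (w i),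
    fun v w h => mvec_ext r fun i => TrivSqZeroExt.inr_injective (congrArg (fun u : MVec m' => u i) h),
    fun σ v => mvec_ext m' fun i => by
      show TrivSqZeroExt.inr ((σ • v : MVec r) i) =
        (σ • (MVec.mk m' fun j => TrivSqZeroExt.inr (v j)) : MVec m') i
      rw [mvec_smul_apply, mvec_smul_apply, ← hm σ]
      simp only [MVec.mk_apply]
      refine TrivSqZeroExt.ext ?_ ?_ <;> simp [mul_comm]⟩

/-- The order on the residual representation. -/
theorem HasOrderLift.residual (h : HasOrderLift p r b) : Nonempty (GalOrder p (MVec r)) := by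
  obtain ⟨m', hm, ⟨O⟩⟩ := h
  obtain ⟨i, hi, hσ⟩ := epsHom (m' := m') fun σ => (fst_lift hm σ).1
  exact ⟨O.restrict i hi hσ⟩

/-- The ramification bound. -/
theorem HasOrderLift.exists_bdd [Finite k] [CharP k p] (h : HasOrderLift p r b) :
    ∃ H : Subgroup GQ, IsLevel p H ∧ H ≤ tame p ∧ IsBdd p H ∧ ∀ g ∈ H, r g = 1 ∧ b g = 0 := by
  obtain ⟨m', hm, ⟨O⟩⟩ := h
  refine ⟨fixM p (MVec m') ⊓ tame p, (isLevel_fixM O).inf (isUnif_rad p).level,
    inf_le_right, isBdd_of_galOrder p O nsmul_mvec_eq_zero, fun g hg => ?_⟩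
  have h1 := eq_one_of_fixes m' ((mem_fixM p (MVec m')).mp hg.1).2
  obtain ⟨hf, hs⟩ := fst_lift hm g
  rw [h1, fstM_one] at hf
  rw [h1, sndM_one, ← hf, mul_one] at hs
  exact ⟨hf.symm, hs.symm⟩

variable [Finite k] [CharP k p]

/-- If inertia fixes a stable line but not the quotient, the connected part is another line. -/
theorem exists_line_of_fixed (hp2 : p ≠ 2) (hO : Nonempty (GalOrder p (MVec r)))
    (hup : ∀ g ∈ decG p, r g 1 0 = 0) (hfix : ∀ g ∈ inG p, r g 0 0 = 1) {τ : GQ}
    (hτ : τ ∈ inG p) (hne : r τ 1 1 ≠ 1) :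
    ∃ v : Fin 2 → k, v ≠ 0 ∧ (∀ g ∈ decG p, ∃ c : k, r g *ᵥ v = c • v) ∧
      r τ *ᵥ v = r τ 1 1 • v := by
  obtain ⟨O⟩ := hO
  haveI := Fintype.ofFinite (MVec r)
  have hτD := inG_le_decG p hτ
  set a := r τ 1 1
  have ha : a - 1 ≠ 0 := sub_ne_zero.mpr hne
  set v : MVec r := MVec.mk r ![r τ 0 1 / (a - 1), 1]
  have hτv : τ • v = a • v := by
    refine mvec_ext r (Fin.forall_fin_two.mpr ⟨?_, ?_⟩) <;> rw [mvec_smul_apply]
    · simp only [v, mvec_scalar_apply, MVec.mk_apply, Matrix.cons_val_zero, Matrix.cons_val_one,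
        hfix τ hτ]
      field_simp
      ring
    · simp [v, a, hup τ hτD]
  refine ⟨v, fun h0 => one_ne_zero (congrFun h0 1), fun g hg => ?_, hτv⟩
  -- the connected part is the line through `v`
  have hconn : ∀ u ∈ conn O, u = (u 1) • v := by
    intro u hu
    set y := u 1
    have hyv : y • v ∈ conn O := by
      have h1 : τ • ((y / (a - 1)) • v) - (y / (a - 1)) • v = y • v := by
        rw [mvec_smul_smul, hτv, smul_smul, ← sub_smul]
        congr 1
        field_simp
      rw [← h1]
      exact smul_sub_mem_conn hτ _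
    have h2 : u - y • v ∈ conn O := (conn O).sub_mem hu hyv
    have h3 := mem_of_fixed_coset O hp2 nsmul_mvec_residual_eq_zero ⊥
      (fun σ _ l hl => by rw [AddSubgroup.mem_bot] at hl ⊢; rw [hl, smul_zero]) h2 fun σ hσ => by
        rw [AddSubgroup.mem_bot, sub_eq_zero]
        refine mvec_ext r fun i => ?_
        have h0 : (u - y • v : MVec r) 1 = 0 := by
          show u 1 - y * v 1 = 0
          simp [v, y]
        rw [mvec_smul_apply, h0, mul_zero, add_zero]
        fin_cases i
        · simp [hfix σ hσ]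
        · show r σ 1 0 * _ = (u - y • v : MVec r) 1
          rw [hup σ (inG_le_decG p hσ), zero_mul, h0]
    rw [AddSubgroup.mem_bot, sub_eq_zero] at h3
    exact h3
  refine ⟨(g • v : MVec r) 1, hconn _ (smul_mem_conn hg ?_)⟩
  have h1 : τ • ((a - 1)⁻¹ • v) - (a - 1)⁻¹ • v = v := by
    rw [mvec_smul_smul, hτv, smul_smul, ← sub_smul]
    convert one_smul k v using 2
    field_simp
  rw [← h1]
  exact smul_sub_mem_conn hτ _

/-- With a ramified line and unramified quotient, the lower left entry is a coboundary. -/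
theorem HasOrderLift.exists_lower_left (hp2 : p ≠ 2) (h : HasOrderLift p r b)
    (hup : ∀ g ∈ decG p, r g 1 0 = 0) (hfix : ∀ g ∈ inG p, r g 1 1 = 1) {τ : GQ}
    (hτ : τ ∈ inG p) (hne : r τ 0 0 ≠ 1) :
    ∃ x : k, ∀ g ∈ decG p, b g 1 0 = x * (1 - r g 1 1 / r g 0 0) := by
  obtain ⟨m', hm, ⟨O⟩⟩ := h
  haveI := Fintype.ofFinite (MVec m')
  haveI := Fintype.ofFinite (MVec r)
  have hτD := inG_le_decG p hτ
  let e := epsHom (m' := m') fun σ => (fst_lift hm σ).1
  set i := e.1 with hidef
  have hi := e.2.1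
  have hiσ := e.2.2
  set O₀ := O.restrict i hi hiσ
  set a := r τ 0 0
  have ha : a - 1 ≠ 0 := sub_ne_zero.mpr hne
  set w : MVec m' := MVec.mk m' fun l => TrivSqZeroExt.inl (![(a - 1)⁻¹, 0] l)
  set u := τ • w - w with hu
  have huC : u ∈ conn O := smul_sub_mem_conn hτ w
  set x := TrivSqZeroExt.snd (u 1) with hx
  have hfstw : ∀ l, TrivSqZeroExt.fst (w l) = ![(a - 1)⁻¹, 0] l := fun l => rfl
  have hfst : ∀ (σ : GQ) (z : MVec m') (l : Fin 2), TrivSqZeroExt.fst ((σ • z : MVec m') l) =
      r σ l 0 * TrivSqZeroExt.fst (z 0) + r σ l 1 * TrivSqZeroExt.fst (z 1) := fun σ z l => by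
    rw [mvec_smul_apply, ← (fst_lift hm σ).1]
    simp
  have hsnd : ∀ (σ : GQ) (z : MVec m'), TrivSqZeroExt.snd ((σ • z : MVec m') 1) =
      r σ 1 0 * TrivSqZeroExt.snd (z 0) + (b σ * r σ) 1 0 * TrivSqZeroExt.fst (z 0) +
      (r σ 1 1 * TrivSqZeroExt.snd (z 1) + (b σ * r σ) 1 1 * TrivSqZeroExt.fst (z 1)) := fun σ z => by
    rw [mvec_smul_apply, ← (fst_lift hm σ).2, ← (fst_lift hm σ).1]
    simp
  have hfu : ∀ l, TrivSqZeroExt.fst (u l) = ![1, 0] l := fun l => by
    show TrivSqZeroExt.fst ((τ • w : MVec m') l - w l) = _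
    rw [TrivSqZeroExt.fst_sub, hfst, hfstw, hfstw, hfstw]
    fin_cases l
    · simp only [Fin.zero_eta, Matrix.cons_val_zero, Matrix.cons_val_one]
      field_simp
      ring
    · simp [hup τ hτD]
  refine ⟨x, fun g hg => ?_⟩
  have hne0 : r g 0 0 ≠ 0 := fun h0 => by
    have h1 := congrFun (congrFun (show r g⁻¹ * r g = 1 by
      rw [← map_mul, inv_mul_cancel, map_one]) 0) 0
    rw [Matrix.mul_apply, Fin.sum_univ_two, h0, hup g hg, mul_zero, mul_zero, add_zero] at h1
    exact zero_ne_one (h1.trans (Matrix.one_apply_eq 0))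
  set c : DualNumber k := TrivSqZeroExt.inl (r g 0 0)
  set d : MVec m' := g • u - c • u with hd
  have hdC : d ∈ conn O := by
    refine (conn O).sub_mem (smul_mem_conn hg huC) ?_
    rw [hu, smul_sub, ← mvec_smul_smul]
    exact smul_sub_mem_conn hτ _
  have hd0 : ∀ l, TrivSqZeroExt.fst (d l) = 0 := fun l => by
    show TrivSqZeroExt.fst ((g • u : MVec m') l - c * u l) = 0
    rw [TrivSqZeroExt.fst_sub, TrivSqZeroExt.fst_mul, hfst, hfu, hfu, hfu]
    fin_cases l
    · simp [c]
    · simp [c, hup g hg]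
  set v : MVec r := MVec.mk r fun l => TrivSqZeroExt.snd (d l)
  have hiv : i v = d := mvec_ext m' fun l => TrivSqZeroExt.ext (hd0 l).symm rfl
  have hvC : v ∈ conn O₀ := by
    rintro f ⟨f', hf', rfl⟩
    show nrm p (f' (i v) - f' (i 0)) < 1
    rw [hiv, map_zero]
    exact hdC f' hf'
  let L : AddSubgroup (MVec r) :=
    { carrier := {z | z 1 = 0}
      zero_mem' := rfl
      add_mem' := fun {z z'} hz hz' => by
        show z 1 + z' 1 = 0
        rw [show z 1 = 0 from hz, show z' 1 = 0 from hz', add_zero]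
      neg_mem' := fun {z} hz => by
        show -z 1 = 0
        rw [show z 1 = 0 from hz, neg_zero] }
  have hvL := mem_of_fixed_coset O₀ hp2 nsmul_mvec_residual_eq_zero L (fun σ hσ l hl => by
      show (σ • l : MVec r) 1 = 0
      rw [mvec_smul_apply, hup σ (inG_le_decG p hσ), show l 1 = 0 from hl, zero_mul, mul_zero,
        add_zero]) hvC fun σ hσ => by
      show (σ • v : MVec r) 1 - v 1 = 0
      rw [mvec_smul_apply, hup σ (inG_le_decG p hσ), hfix σ hσ, zero_mul, one_mul, zero_add,
        sub_self]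
  have h2 : TrivSqZeroExt.snd ((g • u : MVec m') 1 - c * u 1) = 0 := hvL
  rw [TrivSqZeroExt.snd_sub, hsnd, hfu, hfu, Matrix.mul_apply, Fin.sum_univ_two] at h2
  simp [c, hup g hg, ← hx] at h2
  field_simp
  linear_combination h2

end Fermat.Agent.CFT.Flat
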