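import Fermat.Agent.CFT.Flat.Fontaine

/-!
# The ramification bound passes to subextensions
-/

set_option autoImplicit false
set_option linter.style.haveILetI false
set_option linter.unusedSectionVars false

noncomputable section

namespace Fermat.Agent.CFT.Flat

open Fermat.Agent.Arith Fermat.Agent.FiniteFlat Polynomial

variable {p : ℕ} [hp : Fact p.Prime]

theorem IsUnif.exists_mem_of_orb {H : Subgroup GQ} {π : QBar} (u : IsUnif (p := p) H π) {g : GQ}
    (hg : g ∈ inG p) (h : g π = π) : g ∈ H := by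
  rw [← u.fixer_eq]
  exact (mem_fixer p).mpr ⟨hg, h⟩

theorem brk_le {J K : Subgroup GQ} {π ϖ : QBar} (u : IsUnif (p := p) J π)
    (v : IsUnif (p := p) K ϖ) (hJK : J ≤ K) (hne : ((orb p ϖ).erase ϖ).Nonempty) :
    brk p π ≤ brk p ϖ := by
  classical
  set S := orb p π
  set T := orb p ϖ
  set F := S.filter fun r => ∃ k ∈ K, k π = r with hF
  have hKI := v.level.le
  have hπF : π ∈ F := Finset.mem_filter.mpr ⟨self_mem_orb π, 1, one_mem _, rfl⟩
  have hKF : ∀ k ∈ K, F.image k = F := fun k hk => by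
    ext r
    simp only [hF, Finset.mem_image, Finset.mem_filter]
    constructor
    · rintro ⟨r', ⟨hr', k', hk', rfl⟩, rfl⟩
      exact ⟨map_mem_orb hr' (hKI hk), k * k', K.mul_mem hk hk', rfl⟩
    · rintro ⟨hr, k', hk', rfl⟩
      refine ⟨(k⁻¹ * k') π, ⟨mem_orb.mpr ⟨_, hKI (K.mul_mem (K.inv_mem hk) hk'), rfl⟩, _,
        K.mul_mem (K.inv_mem hk) hk', rfl⟩, ?_⟩
      rw [← AlgEquiv.mul_apply, mul_inv_cancel_left]
  -- representatives of the cosets
  have hc : ∀ t : QBar, ∃ g ∈ inG p, (t ∈ T → g ϖ = t) ∧ (t = ϖ → g = 1) := fun t => by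
    by_cases ht : t ∈ T
    · by_cases h1 : t = ϖ
      · exact ⟨1, one_mem _, fun _ => h1.symm, fun _ => rfl⟩
      · obtain ⟨g, hg, rfl⟩ := mem_orb.mp ht
        exact ⟨g, hg, fun _ => rfl, fun h => absurd h h1⟩
    · exact ⟨1, one_mem _, fun h => absurd h ht, fun _ => rfl⟩
  choose c hcI hcT hc1 using hc
  have hcover : S = T.biUnion fun t => F.image (c t) := by
    ext r
    simp only [Finset.mem_biUnion, Finset.mem_image]
    constructor
    · intro hr
      obtain ⟨g, hg, rfl⟩ := mem_orb.mp hr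
      have ht : g ϖ ∈ T := mem_orb.mpr ⟨g, hg, rfl⟩
      refine ⟨g ϖ, ht, ((c (g ϖ))⁻¹ * g) π, Finset.mem_filter.mpr ⟨mem_orb.mpr ⟨_,
        (inG p).mul_mem ((inG p).inv_mem (hcI _)) hg, rfl⟩, _, v.exists_mem_of_orb
        ((inG p).mul_mem ((inG p).inv_mem (hcI _)) hg) ?_, rfl⟩, ?_⟩
      · conv_lhs => rw [AlgEquiv.mul_apply]
        conv_lhs => arg 2; rw [← hcT _ ht]
        rw [← AlgEquiv.mul_apply, inv_mul_cancel, AlgEquiv.one_apply]
      · rw [← AlgEquiv.mul_apply, mul_inv_cancel_left]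
    · rintro ⟨t, -, r', hr', rfl⟩
      exact map_mem_orb (Finset.mem_filter.mp hr').1 (hcI t)
  have hdisj : ∀ t ∈ T, ∀ t' ∈ T, t ≠ t' → Disjoint (F.image (c t)) (F.image (c t')) := by
    intro t ht t' ht' hne'
    rw [Finset.disjoint_left]
    intro r hr hr'
    obtain ⟨r₁, hr₁, rfl⟩ := Finset.mem_image.mp hr
    obtain ⟨r₂, hr₂, he⟩ := Finset.mem_image.mp hr'
    obtain ⟨-, k, hk, rfl⟩ := Finset.mem_filter.mp hr₁
    obtain ⟨-, k', hk', rfl⟩ := Finset.mem_filter.mp hr₂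
    apply hne'
    set g := k'⁻¹ * ((c t')⁻¹ * (c t * k)) with hg
    have hgI : g ∈ inG p := (inG p).mul_mem ((inG p).inv_mem (hKI hk'))
      ((inG p).mul_mem ((inG p).inv_mem (hcI t')) ((inG p).mul_mem (hcI t) (hKI hk)))
    have hgK : g ∈ K := hJK (u.exists_mem_of_orb hgI (by
      rw [hg, AlgEquiv.mul_apply, AlgEquiv.mul_apply, AlgEquiv.mul_apply, ← he,
        ← AlgEquiv.mul_apply (c t')⁻¹, inv_mul_cancel, AlgEquiv.one_apply,
        ← AlgEquiv.mul_apply, inv_mul_cancel, AlgEquiv.one_apply]))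
    have hK' : (c t')⁻¹ * c t ∈ K := by
      have := K.mul_mem (K.mul_mem hk' hgK) (K.inv_mem hk)
      rwa [show k' * g * k⁻¹ = (c t')⁻¹ * c t by rw [hg]; group] at this
    have hfix := v.fixed _ hK'
    rw [AlgEquiv.mul_apply, hcT t ht] at hfix
    have := congrArg (c t') hfix
    rw [← AlgEquiv.mul_apply, mul_inv_cancel, AlgEquiv.one_apply, hcT t' ht'] at this
    exact this
  -- the polynomial of a fibre
  set Q : QBar[X] := ∏ r ∈ F, (X - C r)
  have hπ1 : nrm p π ≤ 1 := u.lt_one.le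
  have hcoef : ∀ i, (∀ k ∈ K, k (Q.coeff i) = Q.coeff i) ∧ nrm p (Q.coeff i) ≤ 1 := by
    intro i
    refine ⟨fun k hk => ?_, ?_⟩
    · have hmap : Q.map (k : QBar →+* QBar) = Q := by
        conv_rhs => rw [show Q = ∏ r ∈ F.image k, (X - C r) by rw [hKF k hk]]
        rw [Finset.prod_image fun a _ b _ h => k.injective h, Polynomial.map_prod]
        simp only [Polynomial.map_sub, map_X, map_C]
        rfl
      conv_rhs => rw [← hmap]
      rw [coeff_map]
      rfl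
    · rcases lt_trichotomy i F.card with h | h | h
      · exact (nrm_coeff_prod_X_sub_C (fun r hr => (nrm_of_mem_orb
          (Finset.mem_filter.mp hr).1).trans_lt u.lt_one) i h).le
      · have hd : Q.natDegree = F.card := by
          rw [natDegree_prod_of_monic _ _ fun r _ => monic_X_sub_C r]; simp
        rw [h, ← hd, (monic_prod_of_monic _ _ fun r _ => monic_X_sub_C r : Q.Monic).coeff_natDegree,
          nrm_one]
      · rw [coeff_eq_zero_of_natDegree_lt (by
          rw [natDegree_prod_of_monic _ _ fun r _ => monic_X_sub_C r]; simpa using h), nrm_zero]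
        exact zero_le_one
  have hfibre : ∀ g ∈ inG p, g ϖ ≠ ϖ → ∏ r ∈ F, nrm p (π - g r) ≤ nrm p (ϖ - g ϖ) := by
    intro g hg hgne
    set d := nrm p (ϖ - g ϖ)
    have hd0 : 0 < d := nrm_pos p (sub_ne_zero.mpr hgne.symm)
    have hsub : ∀ i, nrm p (g (Q.coeff i) - Q.coeff i) ≤ d := fun i => by
      obtain ⟨P, hP⟩ := v.exists_approx (hcoef i).1 (hcoef i).2 hd0
      rw [show g (Q.coeff i) - Q.coeff i = g (Q.coeff i - aeval ϖ P) +
          ((aeval (g ϖ) P - aeval ϖ P) - (Q.coeff i - aeval ϖ P)) by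
        rw [map_sub, map_aeval_intI hg]; ring]
      refine nrm_add_le_of_le p ((nrm_map_of_mem_inG p hg _).trans_le hP)
        (nrm_sub_le_of_le p ?_ hP)
      refine (nrm_aeval_sub_le P ?_ v.lt_one.le).trans (nrm_sub_comm p _ _).le
      rw [nrm_map_of_mem_inG p hg]; exact v.lt_one.le
    have heval : ∏ r ∈ F, (π - g r) = (Q.map (g : QBar →+* QBar)).eval π := by
      rw [Polynomial.map_prod, eval_prod]
      exact Finset.prod_congr rfl fun r _ => by simp
    have hQ0 : Q.eval π = 0 := by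
      rw [eval_prod]; exact Finset.prod_eq_zero hπF (by simp)
    rw [← nrm_prod, heval, ← sub_zero ((Q.map _).eval π), ← hQ0,
      eval_eq_sum_range' (n := Q.natDegree + 1) (by
        rw [natDegree_map]; omega),
      eval_eq_sum_range' (n := Q.natDegree + 1) (Nat.lt_succ_self _), ← Finset.sum_sub_distrib]
    refine nrm_sum_le p _ _ hd0.le fun i _ => ?_
    rw [← sub_mul, coeff_map, nrm_mul, Flat.nrm_pow]
    exact (mul_le_of_le_one_right (nrm_nonneg p _) (pow_le_one₀ (nrm_nonneg p π) hπ1)).trans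
      (hsub i)
  -- the coset nearest to the trivial one
  obtain ⟨t₀, ht₀, hgapK⟩ := exists_gap_eq hne
  obtain ⟨ht₀ne, ht₀T⟩ := Finset.mem_erase.mp ht₀
  obtain ⟨r₀, hr₀, hmin⟩ := F.exists_min_image (fun r => nrm p (π - c t₀ r)) ⟨π, hπF⟩
  obtain ⟨-, k₀, hk₀, hk₀r⟩ := Finset.mem_filter.mp hr₀
  set g₀ := c t₀ * k₀ with hg₀def
  have hg₀ : g₀ ∈ inG p := (inG p).mul_mem (hcI t₀) (hKI hk₀)
  have hg₀ϖ : g₀ ϖ = t₀ := by rw [AlgEquiv.mul_apply, v.fixed k₀ hk₀, hcT t₀ ht₀T]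
  have hmin' : ∀ r ∈ F, nrm p (π - g₀ π) ≤ nrm p (π - g₀ r) := fun r hr => by
    rw [hg₀def, AlgEquiv.mul_apply, AlgEquiv.mul_apply, hk₀r]
    exact hmin _ (by rw [← hKF k₀ hk₀]; exact Finset.mem_image_of_mem _ hr)
  have hJne : g₀ π ∈ (orb p π).erase π := by
    refine Finset.mem_erase.mpr ⟨fun h => ?_, mem_orb.mpr ⟨g₀, hg₀, rfl⟩⟩
    exact ht₀ne (hg₀ϖ ▸ v.fixed g₀ (hJK (u.exists_mem_of_orb hg₀ h)))
  have hfirst : (∏ r ∈ F.erase π, nrm p (π - r)) * gap p π ≤ gap p ϖ := by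
    rw [hgapK, ← hg₀ϖ]
    refine le_trans ?_ (hfibre g₀ hg₀ (by rw [hg₀ϖ]; exact ht₀ne))
    rw [← Finset.mul_prod_erase _ _ hπF, mul_comm]
    refine mul_le_mul (gap_le hJne) (Finset.prod_le_prod (fun r _ => nrm_nonneg p _)
      fun r hr => ?_) (Finset.prod_nonneg fun r _ => nrm_nonneg p _) (nrm_nonneg p _)
    rw [← nrm_map_of_mem_inG p hg₀ (π - r), map_sub, ← sub_sub_sub_cancel_left (g₀ r) (g₀ π) π]
    exact (nrm_sub_le p _ _).trans (max_le le_rfl (hmin' r (Finset.mem_erase.mp hr).2))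
  -- assemble
  have hrest : ∀ t ∈ T.erase ϖ, ∏ r ∈ F.image (c t), nrm p (π - r) ≤ nrm p (ϖ - t) := by
    intro t ht
    rw [Finset.prod_image fun a _ b _ h => (c t).injective h]
    refine (hfibre _ (hcI t) ?_).trans_eq (by rw [hcT t (Finset.mem_erase.mp ht).2])
    rw [hcT t (Finset.mem_erase.mp ht).2]
    exact (Finset.mem_erase.mp ht).1
  have hsplit : ∏ r ∈ S.erase π, nrm p (π - r) = (∏ r ∈ F.erase π, nrm p (π - r)) *
      ∏ t ∈ T.erase ϖ, ∏ r ∈ F.image (c t), nrm p (π - r) := by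
    have hS' : S.erase π = F.erase π ∪ (T.erase ϖ).biUnion fun t => F.image (c t) := by
      rw [hcover]
      conv_lhs => rw [← Finset.insert_erase (show ϖ ∈ T from self_mem_orb ϖ)]
      rw [Finset.biUnion_insert, Finset.erase_union_distrib]
      congr 1
      · rw [hc1 ϖ rfl]
        show (F.image id).erase π = _
        rw [Finset.image_id]
      · refine Finset.erase_eq_of_notMem fun h => ?_
        obtain ⟨t, ht, h'⟩ := Finset.mem_biUnion.mp h
        refine Finset.disjoint_left.mp (hdisj t (Finset.mem_erase.mp ht).2 ϖ (self_mem_orb ϖ)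
          (Finset.mem_erase.mp ht).1) h' ?_
        rw [hc1 ϖ rfl]
        exact Finset.mem_image.mpr ⟨π, hπF, rfl⟩
    rw [hS', Finset.prod_union, Finset.prod_biUnion]
    · exact fun t ht t' ht' h => hdisj t (Finset.mem_erase.mp ht).2 t' (Finset.mem_erase.mp ht').2 h
    · rw [Finset.disjoint_biUnion_right]
      intro t ht
      refine Finset.disjoint_of_subset_left (Finset.erase_subset _ _) ?_
      have := hdisj ϖ (self_mem_orb ϖ) t (Finset.mem_erase.mp ht).2 (Finset.mem_erase.mp ht).1.symm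
      rwa [hc1 ϖ rfl, show F.image (1 : GQ) = F from Finset.image_id] at this
  rw [brk, brk, hsplit]
  calc _ = ((∏ r ∈ F.erase π, nrm p (π - r)) * gap p π) *
        ∏ t ∈ T.erase ϖ, ∏ r ∈ F.image (c t), nrm p (π - r) := by ring
    _ ≤ gap p ϖ * ∏ t ∈ T.erase ϖ, nrm p (ϖ - t) :=
      mul_le_mul hfirst (Finset.prod_le_prod
        (fun t _ => Finset.prod_nonneg fun r _ => nrm_nonneg p _) hrest)
        (Finset.prod_nonneg fun t _ => Finset.prod_nonneg fun r _ => nrm_nonneg p _)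
        ((nrm_nonneg p _).trans hgapK.ge)
    _ = _ := mul_comm _ _

theorem IsUnif.nrm_le {J K : Subgroup GQ} {π ϖ : QBar} (u : IsUnif (p := p) J π)
    (v : IsUnif (p := p) K ϖ) (hJK : J ≤ K) : nrm p ϖ ≤ nrm p π := by
  have := u.nrm_le_of_lt (k := 0) (fun g hg => v.fixed g (hJK hg)) (by
    rw [pow_zero]; exact v.lt_one)
  rwa [zero_add, pow_one] at this

/-- The ramification bound for a subextension. -/
theorem fontaine_sub {M : Type} [AddCommGroup M] [DistribMulAction GQ M] [Fintype M]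
    (O : GalOrder p M) (hkill : ∀ m : M, p • m = 0) {e : ℕ} (he : 0 < e) (hpe : ¬ p ∣ e)
    {π₀ : QBar} (hπ₀ : π₀ ^ e = (p : QBar)) {K : Subgroup GQ}
    (hK : fixM p M ⊓ fixer p π₀ ≤ K) {ϖ : QBar} (v : IsUnif (p := p) K ϖ)
    (hne : ((orb p ϖ).erase ϖ).Nonempty) :
    ¬ ((p : ℝ) * (brk p ϖ / nrm p ϖ)) ^ (p - 1) < (p : ℝ)⁻¹ := by
  classical
  obtain ⟨π, u⟩ := ((isLevel_fixM O).inf (isLevel_fixer (p := p) π₀)).exists_unif
  intro hlt
  have hneπ : ((orb p π).erase π).Nonempty := by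
    obtain ⟨t, ht⟩ := hne
    obtain ⟨htne, htT⟩ := Finset.mem_erase.mp ht
    obtain ⟨g, hg, rfl⟩ := mem_orb.mp htT
    exact ⟨g π, Finset.mem_erase.mpr ⟨fun h => htne (v.fixed g (hK (u.exists_mem_of_orb hg h))),
      mem_orb.mpr ⟨g, hg, rfl⟩⟩⟩
  refine fontaine O hkill he hpe hπ₀ u hneπ (lt_of_le_of_lt ?_ hlt)
  refine pow_le_pow_left₀ (mul_nonneg (Nat.cast_nonneg p)
    (div_nonneg (brk_pos hneπ).le u.pos.le)) (mul_le_mul_of_nonneg_left ?_ (Nat.cast_nonneg p)) _
  exact div_le_div₀ (brk_pos hne).le (brk_le u v hK hne) v.pos (u.nrm_le v hK)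

end Fermat.Agent.CFT.Flat
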