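import Fermat.Agent.Arith.RootsOfUnity
import Fermat.Agent.CFT.Local.Global
import Fermat.Agent.FiniteFlat.GalOrderOps

/-!
# The absolute value of `ℚ̄` at `padicPlace p`
-/

set_option autoImplicit false
set_option linter.style.haveILetI false

noncomputable section

namespace Fermat.Agent.CFT.Flat

open Fermat.Agent.Arith
open scoped Pointwise

variable (p : ℕ) [hp : Fact p.Prime]

/-- The absolute value at the chosen place over `p`. -/
def nrm (x : QBar) : ℝ := ‖padicEmbedding p x‖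

/-- The decomposition group of the chosen place. -/
abbrev decG : Subgroup GQ := (padicPlace p).decompositionSubgroup ℚ

/-- The inertia group of the chosen place. -/
abbrev inG : Subgroup GQ := (padicPlace p).inertiaSubgroupIn ℚ

theorem nrm_nonneg (x : QBar) : 0 ≤ nrm p x := norm_nonneg _

@[simp] theorem nrm_zero : nrm p 0 = 0 := by simp [nrm]

@[simp] theorem nrm_one : nrm p 1 = 1 := by simp [nrm]

theorem nrm_eq_zero {x : QBar} : nrm p x = 0 ↔ x = 0 := by
  simp [nrm, map_eq_zero]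

theorem nrm_pos {x : QBar} (hx : x ≠ 0) : 0 < nrm p x :=
  (nrm_nonneg p x).lt_of_ne' fun h => hx ((nrm_eq_zero p).mp h)

theorem nrm_mul (x y : QBar) : nrm p (x * y) = nrm p x * nrm p y := by simp [nrm]

theorem nrm_pow (x : QBar) (n : ℕ) : nrm p (x ^ n) = nrm p x ^ n := by simp [nrm]

theorem nrm_inv (x : QBar) : nrm p x⁻¹ = (nrm p x)⁻¹ := by simp [nrm]

theorem nrm_div (x y : QBar) : nrm p (x / y) = nrm p x / nrm p y := by simp [nrm]

theorem nrm_neg (x : QBar) : nrm p (-x) = nrm p x := by simp [nrm]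

theorem nrm_sub_comm (x y : QBar) : nrm p (x - y) = nrm p (y - x) := by
  rw [← nrm_neg p (x - y), neg_sub]

theorem nrm_add_le (x y : QBar) : nrm p (x + y) ≤ max (nrm p x) (nrm p y) := by
  simp only [nrm, map_add]
  exact IsUltrametricDist.norm_add_le_max _ _

theorem nrm_sub_le (x y : QBar) : nrm p (x - y) ≤ max (nrm p x) (nrm p y) := by
  rw [sub_eq_add_neg, ← nrm_neg p y]
  exact nrm_add_le p x (-y)

theorem nrm_add_le_of_le {x y : QBar} {r : ℝ} (hx : nrm p x ≤ r) (hy : nrm p y ≤ r) :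
    nrm p (x + y) ≤ r := (nrm_add_le p x y).trans (max_le hx hy)

theorem nrm_sub_le_of_le {x y : QBar} {r : ℝ} (hx : nrm p x ≤ r) (hy : nrm p y ≤ r) :
    nrm p (x - y) ≤ r := (nrm_sub_le p x y).trans (max_le hx hy)

theorem nrm_add_lt_of_lt {x y : QBar} {r : ℝ} (hx : nrm p x < r) (hy : nrm p y < r) :
    nrm p (x + y) < r := (nrm_add_le p x y).trans_lt (max_lt hx hy)

theorem nrm_sub_lt_of_lt {x y : QBar} {r : ℝ} (hx : nrm p x < r) (hy : nrm p y < r) :
    nrm p (x - y) < r := (nrm_sub_le p x y).trans_lt (max_lt hx hy)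

theorem nrm_sum_le {ι : Type*} (s : Finset ι) (f : ι → QBar) {r : ℝ} (hr : 0 ≤ r)
    (h : ∀ i ∈ s, nrm p (f i) ≤ r) : nrm p (∑ i ∈ s, f i) ≤ r :=
  Finset.sum_induction f (fun x => nrm p x ≤ r) (fun _ _ ha hb => nrm_add_le_of_le p ha hb)
    (by simpa using hr) h

theorem nrm_prod {ι : Type*} (s : Finset ι) (f : ι → QBar) :
    nrm p (∏ i ∈ s, f i) = ∏ i ∈ s, nrm p (f i) := by
  simp [nrm, map_prod]

/-- An element dominated by the other summand does not change the absolute value. -/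
theorem nrm_add_eq_of_lt {x y : QBar} (h : nrm p y < nrm p x) : nrm p (x + y) = nrm p x := by
  refine le_antisymm (nrm_add_le_of_le p le_rfl h.le) (not_lt.mp fun hlt => ?_)
  have := nrm_sub_lt_of_lt p hlt h
  rw [add_sub_cancel_right] at this
  exact lt_irrefl _ this

theorem mem_place_iff {x : QBar} : x ∈ padicPlace p ↔ nrm p x ≤ 1 :=
  Local.mem_padicPlace_iff_norm p

theorem mem_nonunits_iff {x : QBar} : x ∈ (padicPlace p).nonunits ↔ nrm p x < 1 :=
  Local.mem_nonunits_padicPlace_iff p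

theorem nrm_natCast_self : nrm p (p : QBar) = (p : ℝ)⁻¹ := by
  rw [nrm, map_natCast, ← map_natCast (algebraMap ℚ_[p] (PadicAlgCl p)) p, norm_algebraMap',
    Padic.norm_p]

theorem one_lt_cast : (1 : ℝ) < p := Nat.one_lt_cast.mpr hp.out.one_lt

theorem inv_cast_pos : (0 : ℝ) < (p : ℝ)⁻¹ := inv_pos.mpr (zero_lt_one.trans (one_lt_cast p))

theorem inv_cast_lt_one : (p : ℝ)⁻¹ < 1 := inv_lt_one_of_one_lt₀ (one_lt_cast p)

theorem nrm_le_one_of_isIntegral {x : QBar} (hx : IsIntegral ℤ x) : nrm p x ≤ 1 :=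
  (mem_place_iff p).mp (mem_of_isIntegral _ hx)

theorem nrm_natCast_le_one (n : ℕ) : nrm p (n : QBar) ≤ 1 :=
  (mem_place_iff p).mp (natCast_mem _ n)

theorem nrm_intCast_le_one (n : ℤ) : nrm p (n : QBar) ≤ 1 :=
  (mem_place_iff p).mp (intCast_mem _ n)

theorem nrm_natCast_le_inv_of_dvd {n : ℕ} (h : p ∣ n) : nrm p (n : QBar) ≤ (p : ℝ)⁻¹ := by
  obtain ⟨m, rfl⟩ := h
  rw [Nat.cast_mul, nrm_mul, nrm_natCast_self]
  exact mul_le_of_le_one_right (inv_cast_pos p).le (nrm_natCast_le_one p m)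

theorem nrm_natCast_eq_one {n : ℕ} (h : ¬ p ∣ n) : nrm p (n : QBar) = 1 :=
  le_antisymm (nrm_natCast_le_one p n) (not_lt.mp fun hlt =>
    h ((natCast_mem_nonunits_iff (Local.padicPlace_liesOverPrime p) hp.out n).mp
      ((mem_nonunits_iff p).mpr hlt)))

/-! ### The Galois action -/

theorem inG_le_decG : inG p ≤ decG p := fun _ hg =>
  MulAction.mem_stabilizer_iff.mpr (mem_inertia_iff_forall_mem.mp hg).1

theorem nrm_le_one_of_mem_decG {σ : GQ} (hσ : σ ∈ decG p) {x : QBar} (hx : nrm p x ≤ 1) :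
    nrm p (σ x) ≤ 1 :=
  (mem_place_iff p).mp
    (map_mem_of_mem_decomposition (MulAction.mem_stabilizer_iff.mp hσ) ((mem_place_iff p).mpr hx))

theorem nrm_map_le {σ : GQ} (hσ : σ ∈ decG p) (x : QBar) : nrm p (σ x) ≤ nrm p x := by
  rcases eq_or_ne x 0 with rfl | hx
  · simp
  by_contra h
  rw [not_le] at h
  have hx0 := nrm_pos p hx
  -- compare powers with powers of `p`
  obtain ⟨n, hn⟩ := pow_unbounded_of_one_lt (p : ℝ) ((one_lt_div hx0).mpr h)
  rw [div_pow, lt_div_iff₀ (pow_pos hx0 n)] at hn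
  obtain ⟨m, hm1, hm2⟩ := exists_mem_Ioc_zpow (x := nrm p x ^ n) (pow_pos hx0 n) (one_lt_cast p)
  -- `p ^ m < a ≤ p ^ (m + 1)`
  have h1 : nrm p (σ ((p : QBar) ^ (m + 1) * x ^ n)) ≤ 1 := by
    refine nrm_le_one_of_mem_decG p hσ ?_
    rw [nrm_mul, nrm_pow, show nrm p ((p : QBar) ^ (m + 1)) = ((p : ℝ)⁻¹) ^ (m + 1) by
      rw [nrm, map_zpow₀, norm_zpow]
      exact congrArg (· ^ (m + 1)) (nrm_natCast_self p), inv_zpow,
      inv_mul_le_iff₀ (zpow_pos (zero_lt_one.trans (one_lt_cast p)) _), mul_one]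
    exact hm2
  rw [map_mul, map_zpow₀, map_natCast, map_pow, nrm_mul, nrm_pow,
    show nrm p ((p : QBar) ^ (m + 1)) = ((p : ℝ)⁻¹) ^ (m + 1) by
      rw [nrm, map_zpow₀, norm_zpow]
      exact congrArg (· ^ (m + 1)) (nrm_natCast_self p), inv_zpow,
    inv_mul_le_iff₀ (zpow_pos (zero_lt_one.trans (one_lt_cast p)) _), mul_one] at h1
  have h2 : (p : ℝ) ^ (m + 1) < nrm p (σ x) ^ n := by
    refine lt_trans ?_ hn
    rw [zpow_add_one₀ (zero_lt_one.trans (one_lt_cast p)).ne', mul_comm]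
    exact mul_lt_mul_of_pos_left hm1 (zero_lt_one.trans (one_lt_cast p))
  exact absurd h1 (not_le.mpr h2)

theorem nrm_map {σ : GQ} (hσ : σ ∈ decG p) (x : QBar) : nrm p (σ x) = nrm p x := by
  refine le_antisymm (nrm_map_le p hσ x) ?_
  have := nrm_map_le p ((decG p).inv_mem hσ) (σ x)
  rwa [← AlgEquiv.mul_apply, inv_mul_cancel, AlgEquiv.one_apply] at this

theorem nrm_map_of_mem_inG {σ : GQ} (hσ : σ ∈ inG p) (x : QBar) : nrm p (σ x) = nrm p x :=
  nrm_map p (inG_le_decG p hσ) x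

theorem nrm_sub_lt_one_of_mem_inG {σ : GQ} (hσ : σ ∈ inG p) {x : QBar} (hx : nrm p x ≤ 1) :
    nrm p (σ x - x) < 1 :=
  (mem_nonunits_iff p).mp ((mem_inertia_iff_forall_mem.mp hσ).2 x ((mem_place_iff p).mpr hx))

theorem exists_frobenius :
    ∃ φ ∈ decG p, ∀ x, nrm p x ≤ 1 → nrm p (φ x - x ^ p) < 1 := by
  obtain ⟨φ, hφ⟩ := exists_isFrobeniusAt (Local.padicPlace_liesOverPrime p) hp.out
  obtain ⟨h1, h2⟩ := isFrobeniusAt_iff_forall_mem.mp hφ
  exact ⟨φ, MulAction.mem_stabilizer_iff.mpr h1, fun x hx =>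
    (mem_nonunits_iff p).mp (h2 x ((mem_place_iff p).mpr hx))⟩

/-! ### Roots of unity as residues -/

theorem exists_rootOfUnity {x : QBar} (hx : nrm p x = 1) :
    ∃ (ζ : QBar) (m : ℕ), 0 < m ∧ ¬ p ∣ m ∧ ζ ^ m = 1 ∧ nrm p (x - ζ) < 1 := by
  classical
  set A := padicPlace p
  have hA := Local.padicPlace_liesOverPrime p
  haveI : CharP (IsLocalRing.ResidueField A) p := residueField_charP hA hp.out
  haveI := residueField_isAlgClosed A
  let z : IsLocalRing.ResidueField A := IsLocalRing.residue A ⟨x, (mem_place_iff p).mpr hx.le⟩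
  have hz : z ≠ 0 := fun h => by
    rw [IsLocalRing.residue_eq_zero_iff, ← ValuationSubring.coe_mem_nonunits_iff] at h
    exact absurd hx ((mem_nonunits_iff p).mp h).ne
  letI : Algebra (ZMod p) (IsLocalRing.ResidueField A) := ZMod.algebra _ p
  -- residues are algebraic over the prime field
  have halg : IsAlgebraic (ZMod p) z := by
    obtain ⟨y, hy, hyz⟩ := exists_integral_residue hA hp.out z
    refine IsIntegral.isAlgebraic ?_
    rw [← hyz]
    have h1 : IsIntegral ℤ (⟨y, mem_of_isIntegral A hy⟩ : A) :=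
      (isIntegral_algHom_iff (A.subtype.toIntAlgHom) Subtype.val_injective).mp hy
    obtain ⟨f, hfm, hf⟩ := h1
    refine ⟨f.map (Int.castRingHom _), hfm.map _, ?_⟩
    have hf' := congrArg (IsLocalRing.residue A) hf
    rw [Polynomial.hom_eval₂, map_zero] at hf'
    rw [Polynomial.eval₂_map]
    rw [RingHom.ext_int ((algebraMap (ZMod p) _).comp (Int.castRingHom (ZMod p)))
      ((IsLocalRing.residue A).comp (algebraMap ℤ A))]
    exact hf'
  set K := IntermediateField.adjoin (ZMod p) {z}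
  haveI : FiniteDimensional (ZMod p) K :=
    IntermediateField.adjoin.finiteDimensional halg.isIntegral
  haveI : Finite K := Module.finite_of_finite (ZMod p)
  haveI : Fintype K := Fintype.ofFinite K
  haveI : CharP K p := charP_of_injective_algebraMap (algebraMap (ZMod p) K).injective p
  set m := Fintype.card K - 1 with hm
  have hc : 1 < Fintype.card K := Fintype.one_lt_card
  have hzm : z ^ m = 1 := congrArg Subtype.val (FiniteField.pow_card_sub_one_eq_one
    (⟨z, IntermediateField.mem_adjoin_simple_self _ z⟩ : K) fun h =>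
      hz (congrArg Subtype.val h))
  have hpm : ¬ p ∣ m := by
    intro hdvd
    obtain ⟨d, -, hd⟩ := FiniteField.card K p
    have h1 : p ∣ Fintype.card K := hd ▸ dvd_pow_self p d.ne_zero
    have := Nat.dvd_sub h1 hdvd
    rw [hm, Nat.sub_sub_self hc.le] at this
    exact hp.out.not_dvd_one this
  have hm0 : 0 < m := Nat.sub_pos_of_lt hc
  -- some root of unity of order dividing `m` has this residue
  haveI : NeZero (m : QBar) := ⟨Nat.cast_ne_zero.mpr hm0.ne'⟩
  obtain ⟨w, hw⟩ := HasEnoughRootsOfUnity.exists_primitiveRoot QBar m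
  have hwA : w ∈ A := mem_of_isIntegral A (IsIntegral.of_pow hm0 (hw.pow_eq_one ▸ isIntegral_one))
  have hwres : IsPrimitiveRoot (IsLocalRing.residue A ⟨w, hwA⟩) m := by
    refine IsPrimitiveRoot.mk_of_lt _ hm0 ?_ fun l hl0 hlm hl => ?_
    · rw [← map_pow, ← map_one (IsLocalRing.residue A)]
      exact congrArg _ (Subtype.ext hw.pow_eq_one)
    · rw [← map_pow, ← map_one (IsLocalRing.residue A)] at hl
      have := residue_eq_iff.mp hl
      have h1 := root_eq_one_of_sub_one_mem_nonunits hA hp.out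
        (ζ := w ^ l) (by rw [← pow_mul, mul_comm, pow_mul, hw.pow_eq_one, one_pow]) hpm this
      exact hlm.not_ge (Nat.le_of_dvd hl0 (hw.pow_eq_one_iff_dvd l |>.mp h1))
  haveI : NeZero m := ⟨hm0.ne'⟩
  obtain ⟨i, -, hi⟩ := hwres.eq_pow_of_pow_eq_one hzm
  refine ⟨w ^ i, m, hm0, hpm, by rw [← pow_mul, mul_comm, pow_mul, hw.pow_eq_one, one_pow], ?_⟩
  rw [← map_pow] at hi
  exact (mem_nonunits_iff p).mp (residue_eq_iff.mp hi.symm)

theorem inG_fix_root {σ : GQ} (hσ : σ ∈ inG p) {ζ : QBar} {m : ℕ} (hζ : ζ ^ m = 1)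
    (hm : ¬ p ∣ m) : σ ζ = ζ :=
  inertia_root (Local.padicPlace_liesOverPrime p) hp.out hσ hζ hm

theorem nrm_root {ζ : QBar} {m : ℕ} (hm : 0 < m) (hζ : ζ ^ m = 1) : nrm p ζ = 1 := by
  have := congrArg (nrm p) hζ
  rw [nrm_pow, nrm_one] at this
  exact (pow_eq_one_iff_of_nonneg (nrm_nonneg p ζ) hm.ne').mp this

end Fermat.Agent.CFT.Flat
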