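import Fermat.Agent.CFT.Flat.Slots
import Fermat.Agent.Deform.Matrix

/-!
# The shape of a residual representation on the decomposition group

Either a line is stable, or inertia acts through the level two tame character.
-/

set_option autoImplicit false
set_option linter.style.haveILetI false
set_option linter.unusedSectionVars false

noncomputable section

namespace Fermat.Agent.CFT.Flat

open Fermat.Agent.Arith Fermat.Agent.Deform Matrix

variable {p : ℕ} [hp : Fact p.Prime]
variable {k : Type} [Field k]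

/-- A basis starting with a given vector. -/
theorem exists_unit_col {v : Fin 2 → k} (hv : v ≠ 0) :
    ∃ P : (M2 k)ˣ, ∀ i, (P : M2 k) i 0 = v i := by
  by_cases h0 : v 0 = 0
  · have h1 : v 1 ≠ 0 := fun h => hv (funext fun i => by fin_cases i <;> assumption)
    refine ⟨Matrix.GeneralLinearGroup.mkOfDetNeZero !![v 0, 1; v 1, 0] ?_,
      fun i => by fin_cases i <;> rfl⟩
    simpa [Matrix.det_fin_two] using h1
  · refine ⟨Matrix.GeneralLinearGroup.mkOfDetNeZero !![v 0, 0; v 1, 1] ?_,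
      fun i => by fin_cases i <;> rfl⟩
    simpa [Matrix.det_fin_two] using h0

/-- The first column of the conjugate by a basis starting with an eigenvector. -/
theorem conj_col {P : (M2 k)ˣ} {X : M2 k} {v : Fin 2 → k} (hP : ∀ i, (P : M2 k) i 0 = v i) {c : k}
    (h : X *ᵥ v = c • v) (i : Fin 2) :
    ((↑P⁻¹ : M2 k) * X * (P : M2 k)) i 0 = c * (1 : M2 k) i 0 := by
  rw [mul_assoc, Matrix.mul_apply, show (1 : M2 k) = (↑P⁻¹ : M2 k) * (P : M2 k) from
    (Units.inv_mul P).symm, Matrix.mul_apply, Finset.mul_sum]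
  refine Finset.sum_congr rfl fun j _ => ?_
  have : (X * (P : M2 k)) j 0 = c * v j := by
    rw [Matrix.mul_apply]
    have := congrFun h j
    simp only [Matrix.mulVec, dotProduct, Pi.smul_apply, smul_eq_mul] at this
    rw [← this]
    exact Finset.sum_congr rfl fun l _ => by rw [hP l]
  rw [this, hP j]
  ring

/-- A nilpotent two by two matrix has zero trace and determinant. -/
theorem trace_det_of_pow_eq_zero {N : M2 k} {n : ℕ} (hn : 0 < n) (h : N ^ n = 0) :
    N.trace = 0 ∧ N.det = 0 := by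
  have hd : N.det = 0 := by
    have := congrArg Matrix.det h
    rw [Matrix.det_pow, Matrix.det_zero] at this
    exact pow_eq_zero_iff hn.ne' |>.mp this
  refine ⟨?_, hd⟩
  have hd' : N 0 0 * N 1 1 - N 0 1 * N 1 0 = 0 := by rw [← Matrix.det_fin_two]; exact hd
  have hsq : N * N = N.trace • N := by
    ext i j
    fin_cases i <;> fin_cases j <;>
      simp [Matrix.mul_apply, Fin.sum_univ_two, Matrix.trace_fin_two] <;>
      first | linear_combination hd' | linear_combination -hd' | ring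
  have hpow : ∀ m : ℕ, N ^ (m + 1) = N.trace ^ m • N := by
    intro m
    induction m with
    | zero => simp
    | succ m ih => rw [pow_succ, ih, smul_mul_assoc, hsq, smul_smul, pow_succ]
  obtain ⟨m, rfl⟩ : ∃ m, n = m + 1 := ⟨n - 1, by omega⟩
  rw [hpow, smul_eq_zero] at h
  rcases h with h | h
  · exact eq_zero_of_pow_eq_zero h
  · rw [h, Matrix.trace_zero]

variable [Finite k] [CharP k p]

/-- Either a stable line, or tame inertia of level two. -/
theorem exists_shape {r : GQ →* M2 k} (hr : GaloisFactorsThroughFiniteLevel r)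
    (hsplit : ∀ g, ∃ α β : k, (r g).trace = α + β ∧ (r g).det = α * β)
    {τ : GQ} (hτ : τ ∈ inG p) :
    (∃ P : (M2 k)ˣ, ∀ g ∈ decG p, conjM P r g 1 0 = 0) ∨
      ∃ (P : (M2 k)ˣ) (l : k), l ^ e₀ p = 1 ∧ (∀ g ∈ tame p, conjM P r g = 1) ∧
        conjM P r τ = !![l, 0; 0, l ^ p] := by
  classical
  obtain ⟨L₀, hL₀, hL₀'⟩ := hr
  haveI := hL₀
  haveI : Normal ℚ QBar := IsAlgClosure.normal ℚ QBar
  set L := IntermediateField.normalClosure ℚ L₀ QBar
  haveI : FiniteDimensional ℚ L := inferInstance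
  haveI : Normal ℚ L := normalClosure.normal ℚ L₀ QBar
  have hL : ∀ g ∈ L.fixingSubgroup, r g = 1 := fun g hg =>
    hL₀' g fun x hx => (IntermediateField.mem_fixingSubgroup_iff _ _).mp hg x
      (L₀.le_normalClosure hx)
  set H := inG p ⊓ r.ker
  have hH : IsLevel p H :=
    ⟨inf_le_left, L, inferInstance, inf_le_inf_left _ fun g hg => hL g hg⟩
  have hnorm : ∀ g ∈ inG p, ∀ h ∈ H, g⁻¹ * h * g ∈ H := fun g hg h hh =>
    ⟨(inG p).mul_mem ((inG p).mul_mem ((inG p).inv_mem hg) hh.1) hg, by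
      show r _ = 1
      rw [map_mul, map_mul, show r h = 1 from hh.2, mul_one, ← map_mul, inv_mul_cancel, map_one]⟩
  obtain ⟨π, z, -, hzroot, -, hzN, hzH, hwild, hfr⟩ := exists_tame_char p hH hnorm
  obtain ⟨φ, hφ, -, hfrob⟩ := exists_frobenius_rad p
  have hcancel : ∀ g, r g * r g⁻¹ = 1 ∧ r g⁻¹ * r g = 1 := fun g => by
    rw [← map_mul, ← map_mul, mul_inv_cancel, inv_mul_cancel, map_one]; exact ⟨rfl, rfl⟩
  have hker : ∀ g : inG p, z g = 1 ↔ ∃ a : ℕ, r g ^ p ^ a = 1 := by
    refine fun g => ⟨fun hg => ?_, fun ⟨a, ha⟩ => ?_⟩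
    · obtain ⟨a, h⟩ := hwild g hg
      exact ⟨a, by rw [← map_pow]; exact h.2⟩
    · have h1 : z g ^ p ^ a = 1 := by
        rw [← map_pow]
        exact hzH _ ⟨(g ^ p ^ a).2, by show r _ = 1; rw [Subgroup.coe_pow, map_pow, ha]⟩
      obtain ⟨m, -, hpm, hm⟩ := hzroot g
      have := pow_gcd_eq_one.mpr ⟨h1, hm⟩
      rwa [((hp.out.coprime_iff_not_dvd.mpr hpm).pow_left a).gcd_eq_one, pow_one] at this
  have hunip : ∀ g : inG p, z g = 1 → (r g - 1).trace = 0 ∧ (r g - 1).det = 0 := by
    intro g hg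
    obtain ⟨a, ha⟩ := (hker g).mp hg
    refine trace_det_of_pow_eq_zero (pow_pos hp.out.pos a) ?_
    rw [sub_pow_char_pow_of_commute _ _ (Commute.one_right _), ha, one_pow, sub_self]
  by_cases hwildcase : ∃ g : inG p, z g = 1 ∧ r g ≠ 1
  · -- wild inertia fixes a line
    refine Or.inl ?_
    obtain ⟨g₀, hg₀, hne⟩ := hwildcase
    obtain ⟨htr₀, hdet₀⟩ := hunip g₀ hg₀
    obtain ⟨v, hv, hNv⟩ := Matrix.exists_mulVec_eq_zero_iff.mpr hdet₀
    obtain ⟨P, hP⟩ := exists_unit_col hv
    set r' := conjM P r with hr'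
    have hconjsub : ∀ g : GQ, r' g - 1 = (↑P⁻¹ : M2 k) * (r g - 1) * (P : M2 k) := fun g => by
      rw [hr', conjM_apply, mul_sub, sub_mul, mul_one, Units.inv_mul]
    have hN0 : ∀ i, (r' g₀ - 1) i 0 = 0 := fun i => by
      rw [hconjsub, conj_col hP (c := 0) (by rw [hNv, zero_smul]) i, zero_mul]
    have hstd : ∀ g : inG p, z g = 1 → (r' g - 1).trace = 0 ∧ (r' g - 1).det = 0 := by
      intro g hg
      rw [hconjsub]
      refine ⟨?_, ?_⟩
      · rw [Matrix.trace_mul_cycle, Units.mul_inv, one_mul, (hunip g hg).1]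
      · rw [Matrix.det_mul, Matrix.det_mul, (hunip g hg).2, mul_zero, zero_mul]
    set x := (r' g₀ - 1) 0 1
    have h00 : r' g₀ 0 0 = 1 := by simpa [sub_eq_zero] using hN0 0
    have h10 : r' g₀ 1 0 = 0 := by simpa using hN0 1
    have h11 : r' g₀ 1 1 = 1 := by
      have h := (hstd g₀ hg₀).1
      rw [Matrix.trace_fin_two] at h
      simp [h00, sub_eq_zero] at h
      exact h
    have hx : r' g₀ 0 1 ≠ 0 := fun hx0 => hne <| by
      have h1 : r' g₀ = 1 := by
        ext i j
        fin_cases i <;> fin_cases j <;> simp [h00, h10, h11, hx0]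
      have h2 : (P : M2 k) * r' g₀ * (↑P⁻¹ : M2 k) = r g₀ := by
        rw [hr', conjM_apply, ← mul_assoc, Units.mul_inv_cancel_left, Units.mul_inv_cancel_right]
      rw [h1, mul_one, Units.mul_inv] at h2
      exact h2.symm
    -- every element of wild inertia is unipotent upper triangular
    have hup : ∀ g : inG p, z g = 1 → r' g 1 0 = 0 ∧ r' g 1 1 = 1 := by
      intro g hg
      obtain ⟨ht, hd⟩ := hstd g hg
      obtain ⟨ht', -⟩ := hstd (g₀ * g) (by rw [map_mul, hg₀, hg, one_mul])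
      rw [Subgroup.coe_mul, map_mul] at ht'
      simp only [Matrix.trace_fin_two, Matrix.sub_apply, Matrix.one_apply_eq, Matrix.mul_apply,
        Fin.sum_univ_two, h00, h10, h11, one_mul, zero_mul, zero_add] at ht ht'
      have h1 : r' g₀ 0 1 * r' g 1 0 = 0 := by linear_combination ht' - ht
      have h2 : r' g 1 0 = 0 := (mul_eq_zero.mp h1).resolve_left hx
      refine ⟨h2, ?_⟩
      simp only [Matrix.det_fin_two, Matrix.sub_apply, Matrix.one_apply_eq,
        Matrix.one_apply_ne (show (0 : Fin 2) ≠ 1 by decide),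
        Matrix.one_apply_ne (show (1 : Fin 2) ≠ 0 by decide), sub_zero, h2, mul_zero] at hd
      have h3 : (r' g 1 1 - 1) * (r' g 1 1 - 1) = 0 := by
        linear_combination (r' g 1 1 - 1) * ht - hd
      exact sub_eq_zero.mp (mul_self_eq_zero.mp h3)
    refine ⟨P, fun g hg => ?_⟩
    show r' g 1 0 = 0
    have hI : g * (g₀ : GQ) * g⁻¹ ∈ inG p := by
      have := conj_mem_inG (p := p) ((decG p).inv_mem hg) g₀.2
      rwa [inv_inv] at this
    have hzc : z ⟨_, hI⟩ = 1 := by
      obtain ⟨a, ha⟩ := (hker g₀).mp hg₀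
      refine (hker _).mpr ⟨a, ?_⟩
      show r (g * g₀ * g⁻¹) ^ p ^ a = 1
      rw [← map_pow, conj_pow, map_mul, map_mul, map_pow, ha, mul_one, (hcancel g).1]
    obtain ⟨hc10, hc11⟩ := hup ⟨_, hI⟩ hzc
    have hrel : r' g * r' g₀ = r' (g * g₀ * g⁻¹) * r' g := by
      rw [← map_mul, ← map_mul, inv_mul_cancel_right]
    have h4 := congrFun (congrFun hrel 1) 1
    simp only [Matrix.mul_apply, Fin.sum_univ_two, h11, mul_one] at h4
    simp only [hc10, hc11, zero_mul, zero_add, one_mul] at h4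
    exact (mul_eq_zero.mp (by linear_combination h4 : r' g 1 0 * r' g₀ 0 1 = 0)).resolve_right hx
  -- inertia acts through its tame quotient
  push Not at hwildcase
  have hdep : ∀ g g' : inG p, z g = z g' → r g = r g' := by
    intro g g' h
    have h1 : z (g'⁻¹ * g) = 1 := by rw [map_mul, h, ← map_mul, inv_mul_cancel, map_one]
    have h2 := hwildcase _ h1
    rw [← mul_inv_cancel_left g' g, Subgroup.coe_mul, map_mul, h2, mul_one]
  let Z : Subgroup QBarˣ := (MonoidHom.toHomUnits z).range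
  set N := H.relIndex (inG p)
  haveI : NeZero N := ⟨hH.relIndex_ne_zero⟩
  haveI : Finite Z := by
    refine Finite.of_injective
      (fun x : Z => (⟨(x : QBarˣ), ?_⟩ : rootsOfUnity N QBar)) fun a b hab => ?_
    · obtain ⟨g, hg⟩ := x.2
      rw [← hg, mem_rootsOfUnity]
      refine Units.ext ?_
      rw [Units.val_pow_eq_pow_val]
      exact hzN g
    · exact Subtype.ext (congrArg (fun y : rootsOfUnity N QBar => (y : QBarˣ)) hab)
  obtain ⟨⟨-, g₁, rfl⟩, hgen⟩ := IsCyclic.exists_generator (α := Z)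
  have hpow : ∀ g : inG p, ∃ i : ℕ, r g = r g₁ ^ i := by
    intro g
    obtain ⟨i, hi⟩ := Submonoid.mem_powers_iff _ _ |>.mp ((mem_powers_iff_mem_zpowers).mpr
      (hgen ⟨_, ⟨g, rfl⟩⟩))
    have hzi : z g₁ ^ i = z g := congrArg (fun x : Z => ((x : QBarˣ) : QBar)) hi
    exact ⟨i, by rw [hdep g (g₁ ^ i) (by rw [map_pow, hzi]), Subgroup.coe_pow, map_pow]⟩
  have hconj : r φ * r g₁ = r g₁ ^ p * r φ := by
    have hI : φ * (g₁ : GQ) * φ⁻¹ ∈ inG p := by
      have := conj_mem_inG (p := p) ((decG p).inv_mem hφ) g₁.2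
      rwa [inv_inv] at this
    have h1 := hdep ⟨_, hI⟩ (g₁ ^ p) (by rw [hfr φ hφ hfrob g₁ ⟨_, hI⟩ rfl, map_pow])
    rw [Subgroup.coe_pow, map_pow] at h1
    rw [← h1]
    show _ = r (φ * g₁ * φ⁻¹) * r φ
    rw [← map_mul, ← map_mul, inv_mul_cancel_right]
  -- a line stable under the two generators is stable
  have hline : ∀ P : (M2 k)ˣ, conjM P r φ 1 0 = 0 → conjM P r g₁ 1 0 = 0 →
      ∀ g ∈ decG p, conjM P r g 1 0 = 0 := by
    intro P h1 h2 g hg
    obtain ⟨i, h, t, hh, hhD, ht, rfl⟩ := exists_frobenius_decomp hφ hfrob hg L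
    obtain ⟨j, hj⟩ := hpow ⟨t, ht⟩
    have hupow : ∀ (X : M2 k) (n : ℕ), X 1 0 = 0 → (X ^ n) 1 0 = 0 := fun X n hX => by
      induction n with
      | zero => simp
      | succ n ih => rw [pow_succ, Matrix.mul_apply, Fin.sum_univ_two, ih, hX, zero_mul, mul_zero,
          add_zero]
    have h3 : conjM P r (φ ^ i * h * t) = conjM P r φ ^ i * conjM P r g₁ ^ j := by
      rw [map_mul, map_mul, map_pow, conjM_apply P r h, hL h hh, mul_one, Units.inv_mul, mul_one,
        conjM_apply P r t, show r t = r g₁ ^ j from hj, ← map_pow r, ← conjM_apply, map_pow]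
    rw [h3, Matrix.mul_apply, Fin.sum_univ_two, hupow _ i h1, hupow _ j h2, zero_mul, mul_zero,
      add_zero]
  have heig : ∀ (X : M2 k) (μ : k), μ * μ - X.trace * μ + X.det = 0 →
      ∃ v, v ≠ 0 ∧ X *ᵥ v = μ • v := by
    intro X μ hμ
    obtain ⟨v, hv, h⟩ := Matrix.exists_mulVec_eq_zero_iff.mpr
      (show (X - μ • (1 : M2 k)).det = 0 by
        rw [Matrix.det_fin_two] at hμ ⊢
        rw [Matrix.trace_fin_two] at hμ
        simp
        linear_combination hμ)
    refine ⟨v, hv, ?_⟩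
    rwa [Matrix.sub_mulVec, Matrix.smul_mulVec, Matrix.one_mulVec, sub_eq_zero] at h
  have hdet0 : ∀ g, (r g).det ≠ 0 := fun g hd => by
    have h := congrArg Matrix.det (hcancel g).1
    rw [Matrix.det_mul, hd, zero_mul, Matrix.det_one] at h
    exact zero_ne_one h
  obtain ⟨α, β, htr, hdet⟩ := hsplit g₁
  by_cases hαβ : α = β
  · -- a scalar on inertia
    refine Or.inl ?_
    subst hαβ
    have hsq : (r g₁ - α • (1 : M2 k)) ^ 2 = 0 := by
      rw [Matrix.trace_fin_two] at htr
      rw [Matrix.det_fin_two] at hdet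
      rw [sq]
      ext i j
      fin_cases i <;> fin_cases j <;> simp [Matrix.mul_apply, Fin.sum_univ_two]
      · linear_combination r g₁ 0 0 * htr - hdet
      · linear_combination r g₁ 0 1 * htr
      · linear_combination r g₁ 1 0 * htr
      · linear_combination r g₁ 1 1 * htr - hdet
    have hxp : r g₁ ^ p = α ^ p • (1 : M2 k) := by
      have h1 : (r g₁ - α • (1 : M2 k)) ^ p = 0 := pow_eq_zero_of_le hp.out.two_le hsq
      rw [sub_pow_char_of_commute _ ((Commute.one_right _).smul_right α), sub_eq_zero,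
        smul_pow, one_pow] at h1
      exact h1
    have hx : r g₁ = α ^ p • (1 : M2 k) := by
      have h1 := congrArg (r φ⁻¹ * ·) hconj
      simp only [← mul_assoc, (hcancel φ).2, one_mul] at h1
      rw [h1, hxp, mul_smul_comm, mul_one, smul_mul_assoc, (hcancel φ).2]
    obtain ⟨a, b, ha, hb⟩ := hsplit φ
    obtain ⟨v, hv, hv'⟩ := heig (r φ) a (by rw [ha, hb]; ring)
    obtain ⟨P, hP⟩ := exists_unit_col hv
    refine ⟨P, hline P ?_ ?_⟩
    · rw [conjM_apply, conj_col hP hv' 1]
      simp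
    · rw [conjM_apply, hx, mul_smul_comm, mul_one, smul_mul_assoc, Units.inv_mul]
      simp
  -- distinct eigenvalues
  obtain ⟨v, hv, hv'⟩ := heig (r g₁) α (by rw [htr, hdet]; ring)
  obtain ⟨w, hw, hw'⟩ := heig (r g₁) β (by rw [htr, hdet]; ring)
  have hdvw : (!![v 0, w 0; v 1, w 1] : M2 k).det ≠ 0 := by
    intro hd
    obtain ⟨c, hc, hc'⟩ := Matrix.exists_mulVec_eq_zero_iff.mpr hd
    have h0 : c 0 • v + c 1 • w = 0 := funext fun i => by
      have h := congrFun hc' i
      simp only [Matrix.mulVec, dotProduct, Fin.sum_univ_two] at h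
      fin_cases i <;> simp at h ⊢ <;> linear_combination h
    have h1 := congrArg (fun u => r g₁ *ᵥ u) h0
    simp only [Matrix.mulVec_add, Matrix.mulVec_smul, hv', hw', Matrix.mulVec_zero] at h1
    have h2 : (c 1 * (β - α)) • w = 0 := by
      funext i
      have e0 := congrFun h0 i
      have e1 := congrFun h1 i
      simp only [Pi.add_apply, Pi.smul_apply, smul_eq_mul, Pi.zero_apply] at e0 e1 ⊢
      linear_combination e1 - α * e0
    have hc1 : c 1 = 0 := (mul_eq_zero.mp ((smul_eq_zero.mp h2).resolve_right hw)).resolve_right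
      (sub_ne_zero.mpr (Ne.symm hαβ))
    rw [hc1, zero_smul, add_zero] at h0
    have hc0 : c 0 = 0 := (smul_eq_zero.mp h0).resolve_right hv
    exact hc (funext fun i => by fin_cases i <;> assumption)
  set P := Matrix.GeneralLinearGroup.mkOfDetNeZero _ hdvw with hPdef
  set y := conjM P r φ
  have hx : conjM P r g₁ = !![α, 0; 0, β] := by
    rw [conjM_apply, mul_assoc]
    have hXP : r g₁ * (P : M2 k) = (P : M2 k) * !![α, 0; 0, β] := by
      ext i j
      have e0 := congrFun hv' i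
      have e1 := congrFun hw' i
      simp only [Matrix.mulVec, dotProduct, Fin.sum_univ_two, Pi.smul_apply, smul_eq_mul] at e0 e1
      show (r g₁ * !![v 0, w 0; v 1, w 1]) i j = (!![v 0, w 0; v 1, w 1] * !![α, 0; 0, β]) i j
      fin_cases i <;> fin_cases j <;> simp [Matrix.mul_apply, Fin.sum_univ_two] at e0 e1 ⊢ <;>
        first | linear_combination e0 | linear_combination e1
    rw [hXP, Units.inv_mul_cancel_left]
  have hxp : ∀ n : ℕ, (!![α, 0; 0, β] : M2 k) ^ n = !![α ^ n, 0; 0, β ^ n] := fun n => by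
    induction n with
    | zero => ext i j; fin_cases i <;> fin_cases j <;> simp
    | succ n ih =>
      rw [pow_succ, ih]
      ext i j
      fin_cases i <;> fin_cases j <;> simp [Matrix.mul_apply, Fin.sum_univ_two, pow_succ]
  have hrel : y * !![α, 0; 0, β] = !![α ^ p, 0; 0, β ^ p] * y := by
    rw [← hxp, ← hx, ← map_pow, ← map_mul, ← map_mul, conjM_apply, conjM_apply, map_mul r,
      map_mul r, map_pow r, hconj]
  have e01 := congrFun (congrFun hrel 0) 1
  have e10 := congrFun (congrFun hrel 1) 0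
  simp [Matrix.mul_apply, Fin.sum_univ_two] at e01 e10
  by_cases hy10 : y 1 0 = 0
  · exact Or.inl ⟨P, hline P hy10 (by rw [hx]; simp)⟩
  by_cases hy01 : y 0 1 = 0
  · set S : (M2 k)ˣ := Matrix.GeneralLinearGroup.mkOfDetNeZero !![0, 1; 1, 0]
      (by simp [Matrix.det_fin_two])
    have hSinv : (↑S⁻¹ : M2 k) = !![0, 1; 1, 0] := by
      rw [← Units.mul_eq_one_iff_inv_eq]
      show !![(0 : k), 1; 1, 0] * !![0, 1; 1, 0] = 1
      ext i j; fin_cases i <;> fin_cases j <;> simp [Matrix.mul_apply, Fin.sum_univ_two]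
    have hswap : ∀ g, conjM (P * S) r g 1 0 = conjM P r g 0 1 := fun g => by
      rw [conjM_apply, _root_.mul_inv_rev, Units.val_mul, Units.val_mul,
        show (↑S⁻¹ : M2 k) * ↑P⁻¹ * r g * (↑P * ↑S) = ↑S⁻¹ * (↑P⁻¹ * r g * ↑P) * ↑S by
          simp only [mul_assoc], ← conjM_apply, hSinv]
      simp [Matrix.mul_apply, Fin.sum_univ_two, S, Matrix.vecMul, dotProduct]
    exact Or.inl ⟨P * S, hline (P * S) (by rw [hswap]; exact hy01) (by rw [hswap, hx]; simp)⟩
  -- level two
  have hβ : β ^ p = α := mul_right_cancel₀ hy10 (by linear_combination -e10)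
  have hα : α ^ p = β := mul_right_cancel₀ hy01 (by linear_combination -e01)
  have hα0 : α ≠ 0 := fun h => hdet0 g₁ (by rw [hdet, h, zero_mul])
  have hαe : α ^ e₀ p = 1 := by
    refine mul_right_cancel₀ hα0 ?_
    rw [← pow_succ, e₀, Nat.sub_add_cancel (Nat.one_le_pow 2 p hp.out.pos), sq, pow_mul, hα, hβ,
      one_mul]
  obtain ⟨s, hs⟩ := hpow ⟨τ, hτ⟩
  let χ : inG p →* M2 k := (conjM P r).comp (inG p).subtype
  refine Or.inr ⟨P, α ^ s, by rw [← pow_mul, mul_comm, pow_mul, hαe, one_pow],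
    fun g hg => eq_one_of_mem_tame p χ hH hnorm (fun h hh => ?_) (fun g => ?_) hg, ?_⟩
  · show conjM P r h = 1
    rw [conjM_apply, show r h = 1 from hh.2, mul_one, Units.inv_mul]
  · obtain ⟨j, hj⟩ := hpow g
    show conjM P r g ^ e₀ p = 1
    rw [conjM_apply, hj, ← map_pow r, ← conjM_apply, map_pow, hx, ← pow_mul, hxp, ← hα, ← pow_mul,
      pow_mul α j, pow_right_comm α j, hαe, one_pow,
      show p * (j * e₀ p) = e₀ p * (p * j) by ring, pow_mul, hαe, one_pow]
    ext i j; fin_cases i <;> fin_cases j <;> simp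
  · rw [conjM_apply, show r τ = r g₁ ^ s from hs, ← map_pow r, ← conjM_apply, map_pow, hx, hxp,
      ← hα, ← pow_mul, mul_comm, pow_mul]

end Fermat.Agent.CFT.Flat
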