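import Fermat.Agent.CFT.Flat.Kummer
import Fermat.Agent.CFT.Local.Residue

/-!
# Slots of Kummer radicals
-/

set_option autoImplicit false
set_option linter.style.haveILetI false
set_option linter.unusedSectionVars false

noncomputable section

namespace Fermat.Agent.CFT.Flat

open Fermat.Agent.Arith
open scoped Pointwise

variable (p : ℕ) [hp : Fact p.Prime]

/-- The residue field at the place. -/
abbrev Res : Type := IsLocalRing.ResidueField (padicPlace p)

instance charP_res : CharP (Res p) p :=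
  residueField_charP (Local.padicPlace_liesOverPrime p) hp.out

open scoped Classical in
/-- The residue of an element, `0` if not integral. -/
def res (x : QBar) : Res p :=
  if h : nrm p x ≤ 1 then IsLocalRing.residue (padicPlace p) ⟨x, (mem_place_iff p).mpr h⟩ else 0

theorem res_of_le {x : QBar} (h : nrm p x ≤ 1) :
    res p x = IsLocalRing.residue (padicPlace p) ⟨x, (mem_place_iff p).mpr h⟩ := dif_pos h

theorem res_add {x y : QBar} (hx : nrm p x ≤ 1) (hy : nrm p y ≤ 1) :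
    res p (x + y) = res p x + res p y := by
  rw [res_of_le p hx, res_of_le p hy, res_of_le p (nrm_add_le_of_le p hx hy), ← map_add]
  rfl

theorem res_mul {x y : QBar} (hx : nrm p x ≤ 1) (hy : nrm p y ≤ 1) :
    res p (x * y) = res p x * res p y := by
  rw [res_of_le p hx, res_of_le p hy,
    res_of_le p (by rw [nrm_mul]; exact mul_le_one₀ hx (nrm_nonneg p y) hy), ← map_mul]
  rfl

theorem res_one : res p 1 = 1 := by
  rw [res_of_le p (nrm_one p).le, ← map_one (IsLocalRing.residue (padicPlace p))]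
  rfl

theorem res_zero : res p 0 = 0 := by
  rw [res_of_le p ((nrm_zero p).trans_le zero_le_one),
    ← map_zero (IsLocalRing.residue (padicPlace p))]
  rfl

theorem res_pow {x : QBar} (hx : nrm p x ≤ 1) : ∀ n : ℕ, res p (x ^ n) = res p x ^ n
  | 0 => by rw [pow_zero, pow_zero, res_one]
  | n + 1 => by
    rw [pow_succ, pow_succ, res_mul p (by rw [Flat.nrm_pow]; exact pow_le_one₀ (nrm_nonneg p x) hx) hx,
      res_pow hx n]

theorem res_eq_iff {x y : QBar} (hx : nrm p x ≤ 1) (hy : nrm p y ≤ 1) :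
    res p x = res p y ↔ nrm p (x - y) < 1 := by
  rw [res_of_le p hx, res_of_le p hy, residue_eq_iff, mem_nonunits_iff]

theorem res_eq_zero_iff {x : QBar} (hx : nrm p x ≤ 1) : res p x = 0 ↔ nrm p x < 1 := by
  rw [← res_zero p, res_eq_iff p hx ((nrm_zero p).trans_le zero_le_one), sub_zero]

theorem res_natCast (n : ℕ) : res p (n : QBar) = (n : Res p) := by
  rw [res_of_le p (nrm_natCast_le_one p n), ← map_natCast (IsLocalRing.residue (padicPlace p))]
  rfl

/-- The residue of the tame character. -/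
def thetaBar (g : GQ) : Res p := res p (theta p g)

theorem isPrimitiveRoot_thetaBar {τ : GQ} (h : IsPrimitiveRoot (theta p τ) (e₀ p)) :
    IsPrimitiveRoot (thetaBar p τ) (e₀ p) := by
  have h1 := (nrm_root p (e₀_pos p) h.pow_eq_one).le
  refine IsPrimitiveRoot.mk_of_lt _ (e₀_pos p) ?_ fun l hl0 hll hl => ?_
  · rw [thetaBar, ← res_pow p h1, h.pow_eq_one, res_one]
  · rw [thetaBar, ← res_pow p h1, ← res_one p,
      res_eq_iff p (by rw [Flat.nrm_pow]; exact pow_le_one₀ (nrm_nonneg p _) h1) (nrm_one p).le] at hl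
    have h2 := root_eq_one_of_sub_one_mem_nonunits (Local.padicPlace_liesOverPrime p) hp.out
      (m := e₀ p) (ζ := theta p τ ^ l)
      (by rw [← pow_mul, mul_comm, pow_mul, h.pow_eq_one, one_pow]) (not_dvd_e₀ p)
      ((mem_nonunits_iff p).mpr hl)
    exact hll.not_ge (Nat.le_of_dvd hl0 ((h.pow_eq_one_iff_dvd l).mp h2))

/-- A `p`-th power of a principal unit. -/
theorem nrm_one_add_pow_le {t : QBar} (ht : nrm p t ≤ 1) :
    nrm p ((1 + t) ^ p - 1 - t ^ p) ≤ (p : ℝ)⁻¹ * nrm p t := by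
  rw [show (1 + t) ^ p - 1 - t ^ p =
      ∑ j ∈ Finset.Ico 1 p, ((p.choose j : ℕ) : QBar) * t ^ j by
    rw [add_comm, add_pow, Finset.sum_range_succ, Nat.choose_self, Nat.cast_one, mul_one,
      Nat.sub_self, pow_zero, mul_one, Finset.range_eq_Ico,
      Finset.sum_eq_sum_Ico_succ_bot hp.out.pos, pow_zero, Nat.choose_zero_right, Nat.cast_one,
      one_pow, mul_one, mul_one, zero_add,
      show ∀ S : QBar, 1 + S + t ^ p - 1 - t ^ p = S from fun S => by ring]
    exact Finset.sum_congr rfl fun j _ => by rw [one_pow, mul_one, mul_comm]]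
  refine nrm_sum_le p _ _ (mul_nonneg (inv_cast_pos p).le (nrm_nonneg p t)) fun j hj => ?_
  rw [Finset.mem_Ico] at hj
  rw [nrm_mul, Flat.nrm_pow]
  exact mul_le_mul (nrm_natCast_le_inv_of_dvd p (hp.out.dvd_choose_self (by omega) hj.2))
    (pow_le_of_le_one (nrm_nonneg p t) ht (by omega))
    (pow_nonneg (nrm_nonneg p t) _) (inv_cast_pos p).le

/-- Levels prime to `p` are not reached by `p`-th powers. -/
theorem nrm_pow_sub_one_le {y : QBar} (hfix : ∀ g ∈ tame p, g y = y) {n : ℕ} (hn : 1 ≤ n)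
    (hnN : n < p * (p + 1)) (hpn : ¬ p ∣ n) (h : nrm p (y ^ p - 1) ≤ nrm p (rad p) ^ n) :
    nrm p (y ^ p - 1) ≤ nrm p (rad p) ^ (n + 1) := by
  have u := isUnif_rad p
  set q := nrm p (rad p)
  have hlt : nrm p (y ^ p - 1) < 1 := h.trans_lt (pow_lt_one₀ u.pos.le u.lt_one (by omega))
  have hy1 : nrm p y = 1 := by
    have h1 : nrm p (y ^ p) = 1 := by
      rw [show y ^ p = 1 + (y ^ p - 1) by ring, nrm_add_eq_of_lt p (by rwa [nrm_one]), nrm_one]
    rw [Flat.nrm_pow] at h1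
    exact (pow_eq_one_iff_of_nonneg (nrm_nonneg p y) hp.out.ne_zero).mp h1
  set t := y - 1 with ht
  have htle : nrm p t ≤ 1 := nrm_sub_le_of_le p hy1.le (nrm_one p).le
  have hexp : y ^ p - 1 = t ^ p + ((1 + t) ^ p - 1 - t ^ p) := by rw [ht]; ring
  have hR := nrm_one_add_pow_le p htle
  rcases eq_or_ne t 0 with h0 | h0
  · rw [show y = 1 by rwa [ht, sub_eq_zero] at h0, one_pow, sub_self, nrm_zero]
    exact pow_nonneg u.pos.le _
  obtain ⟨l, hl⟩ := u.exists_zpow h0 fun g hg => by rw [ht, map_sub, hfix g hg, map_one]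
  obtain ⟨l', rfl⟩ : ∃ l' : ℕ, l = l' := by
    refine Int.eq_ofNat_of_zero_le ?_
    by_contra hneg
    rw [hl] at htle
    exact absurd htle (not_le.mpr (one_lt_zpow_of_neg₀ u.pos u.lt_one (by omega)))
  rw [zpow_natCast] at hl
  rw [hl, ← nrm_rad_pow p, ← pow_add] at hR
  rcases lt_or_ge (p * l') (e₀ p + l') with hlt' | hge
  · have hmain : nrm p (y ^ p - 1) = q ^ (p * l') := by
      have htp : nrm p (t ^ p) = q ^ (p * l') := by
        rw [Flat.nrm_pow, hl, ← pow_mul, mul_comm]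
      rw [hexp, nrm_add_eq_of_lt p, htp]
      rw [htp]
      exact hR.trans_lt (pow_lt_pow_right_of_lt_one₀ u.pos u.lt_one hlt')
    rw [hmain, pow_le_pow_iff_right_of_lt_one₀ u.pos u.lt_one] at h ⊢
    rcases h.lt_or_eq with h' | h'
    · omega
    · exact absurd (h' ▸ dvd_mul_right p l') hpn
  · refine le_trans ?_ (pow_le_pow_of_le_one u.pos.le u.lt_one.le (n := e₀ p + l') ?_)
    · rw [hexp]
      refine nrm_add_le_of_le p ?_ hR
      rw [Flat.nrm_pow, hl, ← pow_mul, mul_comm]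
      exact pow_le_pow_of_le_one u.pos.le u.lt_one.le hge
    · rw [e₀_eq] at hge ⊢
      obtain ⟨r, hr⟩ : ∃ r, p = r + 2 := ⟨p - 2, by have := hp.out.two_le; omega⟩
      rw [hr] at hge hnN ⊢
      simp only [show r + 2 - 1 = r + 1 from rfl] at hge ⊢
      have h3 : r + 3 ≤ l' := by nlinarith
      nlinarith

/-- Radicals congruent to one at level `n`. -/
def HasDeep (c : GQ → ZMod p) (n : ℕ) : Prop :=
  ∃ α : QBar, IsEigen p c α ∧ nrm p (α ^ p - 1) ≤ nrm p (rad p) ^ n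

/-- The leading coefficient at level `n`. -/
def slot (c : GQ → ZMod p) (n : ℕ) : Res p :=
  open scoped Classical in
  if h : HasDeep p c n then res p ((h.choose ^ p - 1) / rad p ^ n) else 0

variable {p}

theorem IsEigen.congr {c c' : GQ → ZMod p} {α : QBar} (h : IsEigen p c α)
    (he : ∀ g ∈ tame p, c g = c' g) : IsEigen p c' α :=
  ⟨h.1, fun g hg => by rw [← he g hg]; exact h.2 g hg⟩

theorem IsEigen.mul {c c' : GQ → ZMod p} {α β : QBar} (h : IsEigen p c α) (h' : IsEigen p c' β) :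
    IsEigen p (c + c') (α * β) :=
  ⟨mul_ne_zero h.1 h'.1, fun g hg => by
    rw [map_mul, h.2 g hg, h'.2 g hg, Pi.add_apply, zp_pow_val_add p, mul_mul_mul_comm]⟩

theorem nrm_div_rad_pow {x : QBar} {n : ℕ} (h : nrm p x ≤ nrm p (rad p) ^ n) :
    nrm p (x / rad p ^ n) ≤ 1 := by
  rw [nrm_div, Flat.nrm_pow, div_le_one (pow_pos (isUnif_rad p).pos n)]
  exact h

theorem nrm_pow_eq_one {α : QBar} {n : ℕ} (hn : 1 ≤ n)
    (h : nrm p (α ^ p - 1) ≤ nrm p (rad p) ^ n) : nrm p (α ^ p) = 1 := by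
  have hlt : nrm p (α ^ p - 1) < 1 :=
    h.trans_lt (pow_lt_one₀ (isUnif_rad p).pos.le (isUnif_rad p).lt_one (by omega))
  rw [show α ^ p = 1 + (α ^ p - 1) by ring, nrm_add_eq_of_lt p (by rwa [nrm_one]), nrm_one]

theorem slot_eq {c : GQ → ZMod p} {n : ℕ} (hn : 1 ≤ n) (hnN : n < p * (p + 1)) (hpn : ¬ p ∣ n)
    {α : QBar} (h : IsEigen p c α) (hα : nrm p (α ^ p - 1) ≤ nrm p (rad p) ^ n) :
    slot p c n = res p ((α ^ p - 1) / rad p ^ n) := by
  have hex : HasDeep p c n := ⟨α, h, hα⟩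
  rw [slot, dif_pos hex]
  obtain ⟨h', hβ⟩ := hex.choose_spec
  set β := hex.choose
  rw [res_eq_iff p (nrm_div_rad_pow hβ) (nrm_div_rad_pow hα), ← sub_div, nrm_div, Flat.nrm_pow,
    div_lt_one (pow_pos (isUnif_rad p).pos n)]
  set y := β / α with hy
  have hfix : ∀ g ∈ tame p, g y = y := fun g hg => by
    rw [hy, map_div₀, h'.2 g hg, h.2 g hg, mul_div_mul_left _ _
      (pow_ne_zero _ ((zp_spec p).ne_zero hp.out.ne_zero))]
  have hα1 := nrm_pow_eq_one hn hα
  have hyp : β ^ p - 1 - (α ^ p - 1) = α ^ p * (y ^ p - 1) := by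
    rw [hy, div_pow, mul_sub, mul_div_cancel₀ _ (pow_ne_zero _ h.1)]; ring
  have hyn : nrm p (y ^ p - 1) ≤ nrm p (rad p) ^ n := by
    have := nrm_sub_le_of_le p hβ hα
    rwa [hyp, nrm_mul, hα1, one_mul] at this
  rw [hyp, nrm_mul, hα1, one_mul]
  exact (nrm_pow_sub_one_le p hfix hn hnN hpn hyn).trans_lt
    (pow_lt_pow_right_of_lt_one₀ (isUnif_rad p).pos (isUnif_rad p).lt_one (Nat.lt_succ_self n))

theorem HasDeep.add {c c' : GQ → ZMod p} {n : ℕ} (hn : 1 ≤ n) (h : HasDeep p c n)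
    (h' : HasDeep p c' n) : HasDeep p (c + c') n := by
  obtain ⟨α, hα, hα'⟩ := h
  obtain ⟨β, hβ, hβ'⟩ := h'
  refine ⟨α * β, hα.mul hβ, ?_⟩
  rw [mul_pow, show α ^ p * β ^ p - 1 = (α ^ p - 1) * β ^ p + (β ^ p - 1) by ring]
  refine nrm_add_le_of_le p ?_ hβ'
  rw [nrm_mul, nrm_pow_eq_one hn hβ', mul_one]
  exact hα'

theorem hasDeep_zero (n : ℕ) : HasDeep p (0 : GQ → ZMod p) n :=
  ⟨1, ⟨one_ne_zero, fun g _ => by simp⟩, by
    rw [one_pow, sub_self, nrm_zero]; exact pow_nonneg (nrm_nonneg p _) n⟩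

theorem HasDeep.neg {c : GQ → ZMod p} {n : ℕ} (hn : 1 ≤ n) (h : HasDeep p c n) :
    HasDeep p (-c) n := by
  obtain ⟨α, hα, hα'⟩ := h
  refine ⟨α⁻¹, ⟨inv_ne_zero hα.1, fun g hg => ?_⟩, ?_⟩
  · have h1 : zp p ^ ((-c) g).val * zp p ^ (c g).val = 1 := by
      rw [← zp_pow_val_add p, Pi.neg_apply, neg_add_cancel, ZMod.val_zero, pow_zero]
    rw [map_inv₀, hα.2 g hg, mul_inv, eq_inv_of_mul_eq_one_left h1]
  · rw [inv_pow, show (α ^ p)⁻¹ - 1 = -((α ^ p - 1) * (α ^ p)⁻¹) by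
      rw [sub_mul, mul_inv_cancel₀ (pow_ne_zero _ hα.1), one_mul, neg_sub], nrm_neg, nrm_mul,
      nrm_inv, nrm_pow_eq_one hn hα', inv_one, mul_one]
    exact hα'

theorem HasDeep.congr {c c' : GQ → ZMod p} {n : ℕ} (h : HasDeep p c n)
    (he : ∀ g ∈ tame p, c g = c' g) : HasDeep p c' n := by
  obtain ⟨α, hα, hα'⟩ := h
  exact ⟨α, hα.congr he, hα'⟩

theorem slot_add {c c' : GQ → ZMod p} {n : ℕ} (hn : 1 ≤ n) (hnN : n < p * (p + 1)) (hpn : ¬ p ∣ n)
    (h : HasDeep p c n) (h' : HasDeep p c' n) :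
    slot p (c + c') n = slot p c n + slot p c' n := by
  obtain ⟨α, hα, hα'⟩ := h
  obtain ⟨β, hβ, hβ'⟩ := h'
  have hq := pow_pos (isUnif_rad p).pos n
  have hαβ : nrm p ((α * β) ^ p - 1) ≤ nrm p (rad p) ^ n := by
    rw [mul_pow, show α ^ p * β ^ p - 1 = (α ^ p - 1) * β ^ p + (β ^ p - 1) by ring]
    refine nrm_add_le_of_le p ?_ hβ'
    rw [nrm_mul, nrm_pow_eq_one hn hβ', mul_one]
    exact hα'
  rw [slot_eq hn hnN hpn hα hα', slot_eq hn hnN hpn hβ hβ', slot_eq hn hnN hpn (hα.mul hβ) hαβ,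
    ← res_add p (nrm_div_rad_pow hα') (nrm_div_rad_pow hβ'),
    res_eq_iff p (nrm_div_rad_pow hαβ)
      (nrm_add_le_of_le p (nrm_div_rad_pow hα') (nrm_div_rad_pow hβ')),
    ← add_div, ← sub_div, nrm_div, Flat.nrm_pow, div_lt_one hq,
    show (α * β) ^ p - 1 - (α ^ p - 1 + (β ^ p - 1)) = (α ^ p - 1) * (β ^ p - 1) by ring, nrm_mul]
  calc nrm p (α ^ p - 1) * nrm p (β ^ p - 1) ≤ nrm p (rad p) ^ n * nrm p (rad p) ^ n :=
        mul_le_mul hα' hβ' (nrm_nonneg p _) hq.le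
    _ < nrm p (rad p) ^ n := mul_lt_of_lt_one_right hq
        (pow_lt_one₀ (isUnif_rad p).pos.le (isUnif_rad p).lt_one (by omega))

theorem HasDeep.succ {c : GQ → ZMod p} {n : ℕ} (hn : 1 ≤ n) (hnN : n < p * (p + 1))
    (h : HasDeep p c n) (hz : p ∣ n ∨ slot p c n = 0) : HasDeep p c (n + 1) := by
  obtain ⟨α, hα, hα'⟩ := h
  by_cases hpn : p ∣ n
  · exact hα.exists_improve hn hnN hpn hα'
  refine ⟨α, hα, ?_⟩
  have h0 := (hz.resolve_left hpn)
  rw [slot_eq hn hnN hpn hα hα', res_eq_zero_iff p (nrm_div_rad_pow hα'), nrm_div, Flat.nrm_pow,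
    div_lt_one (pow_pos (isUnif_rad p).pos n)] at h0
  exact (isUnif_rad p).nrm_le_of_lt (fun g hg => by rw [map_sub, hα.pow_fixed g hg, map_one]) h0

/-! ### The action of the decomposition group -/

theorem conj_mem_inG {τ : GQ} (hτ : τ ∈ decG p) {g : GQ} (hg : g ∈ inG p) :
    τ⁻¹ * g * τ ∈ inG p := by
  rw [mem_inertia_iff_forall_mem]
  refine ⟨MulAction.mem_stabilizer_iff.mp ((decG p).mul_mem ((decG p).mul_mem
    ((decG p).inv_mem hτ) (inG_le_decG p hg)) hτ), fun x hx => ?_⟩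
  rw [mem_nonunits_iff p, show (τ⁻¹ * g * τ) x - x = τ⁻¹ (g (τ x) - τ x) by
    rw [map_sub, AlgEquiv.mul_apply, AlgEquiv.mul_apply, ← AlgEquiv.mul_apply τ⁻¹ τ,
      inv_mul_cancel, AlgEquiv.one_apply], nrm_map p ((decG p).inv_mem hτ)]
  exact nrm_sub_lt_one_of_mem_inG p hg ((nrm_map p hτ x).trans_le ((mem_place_iff p).mp hx))

theorem conj_mem_tame {τ : GQ} (hτ : τ ∈ decG p) {g : GQ} (hg : g ∈ tame p) :
    τ⁻¹ * g * τ ∈ tame p := by
  refine (mem_tame p).mpr ⟨conj_mem_inG hτ ((mem_tame p).mp hg).1, ?_⟩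
  rw [AlgEquiv.mul_apply, AlgEquiv.mul_apply, map_rad p τ, map_mul,
    map_theta p ((mem_tame p).mp hg).1, ((mem_tame p).mp hg).2, ← map_rad p τ,
    ← AlgEquiv.mul_apply τ⁻¹ τ, inv_mul_cancel, AlgEquiv.one_apply]

/-- Transport of radicals along the decomposition group. -/
theorem slot_map {τ : GQ} (hτ : τ ∈ decG p) {a : ZMod p} (ha : τ (zp p) = zp p ^ a.val)
    {c c' : GQ → ZMod p} (hc' : ∀ g ∈ tame p, c' g = a * c (τ⁻¹ * g * τ)) {n : ℕ}
    (hn : 1 ≤ n) (hnN : n < p * (p + 1)) (hpn : ¬ p ∣ n) (h : HasDeep p c n) :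
    ∃ x : QBar, nrm p x ≤ 1 ∧ slot p c n = res p x ∧
      slot p c' n = thetaBar p τ ^ n * res p (τ x) := by
  obtain ⟨α, hα, hα'⟩ := h
  refine ⟨(α ^ p - 1) / rad p ^ n, nrm_div_rad_pow hα', slot_eq hn hnN hpn hα hα', ?_⟩
  have hev : IsEigen p c' (τ α) := by
    refine ⟨(_root_.map_ne_zero τ).mpr hα.1, fun g hg => ?_⟩
    calc g (τ α) = τ ((τ⁻¹ * g * τ) α) := by
          rw [AlgEquiv.mul_apply, AlgEquiv.mul_apply, ← AlgEquiv.mul_apply τ τ⁻¹,
            mul_inv_cancel, AlgEquiv.one_apply]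
      _ = (zp p ^ a.val) ^ (c (τ⁻¹ * g * τ)).val * τ α := by
          rw [hα.2 _ (conj_mem_tame hτ hg), map_mul, map_pow, ha]
      _ = zp p ^ (c' g).val * τ α := by
          rw [← pow_mul, hc' g hg, ZMod.val_mul]
          congr 1
          conv_lhs => rw [← Nat.mod_add_div (a.val * (c (τ⁻¹ * g * τ)).val) p, pow_add, pow_mul,
            (zp_spec p).pow_eq_one, one_pow, mul_one]
  have hle : nrm p (τ α ^ p - 1) ≤ nrm p (rad p) ^ n := by
    rw [← map_pow, ← map_one τ, ← map_sub, nrm_map p hτ]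
    exact hα'
  rw [slot_eq hn hnN hpn hev hle, show (τ α ^ p - 1) / rad p ^ n =
    theta p τ ^ n * τ ((α ^ p - 1) / rad p ^ n) by
      rw [map_div₀, map_sub, map_pow, map_one, map_pow, map_rad p τ, mul_pow]
      field_simp [pow_ne_zero n (show theta p τ ≠ 0 from
        div_ne_zero ((_root_.map_ne_zero τ).mpr (rad_ne_zero p)) (rad_ne_zero p))]]
  have hθ1 := (nrm_root p (e₀_pos p) (theta_pow p τ)).le
  rw [res_mul p (by rw [Flat.nrm_pow]; exact pow_le_one₀ (nrm_nonneg p _) hθ1)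
    ((nrm_map p hτ _).trans_le (nrm_div_rad_pow hα')), res_pow p hθ1]
  rfl

theorem res_map_inG {τ : GQ} (hτ : τ ∈ inG p) {x : QBar} (hx : nrm p x ≤ 1) :
    res p (τ x) = res p x :=
  (res_eq_iff p ((nrm_map_of_mem_inG p hτ x).trans_le hx) hx).mpr
    (nrm_sub_lt_one_of_mem_inG p hτ hx)

theorem res_map_frobenius {φ : GQ} (hφ : φ ∈ decG p)
    (h : ∀ x, nrm p x ≤ 1 → nrm p (φ x - x ^ p) < 1) {x : QBar} (hx : nrm p x ≤ 1) :
    res p (φ x) = res p x ^ p := by
  rw [← res_pow p hx]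
  exact (res_eq_iff p ((nrm_map p hφ x).trans_le hx)
    (by rw [Flat.nrm_pow]; exact pow_le_one₀ (nrm_nonneg p x) hx)).mpr (h x hx)

/-- Decomposition into a power of Frobenius, inertia and a small element. -/
theorem exists_frobenius_decomp {φ : GQ} (hφ : φ ∈ decG p)
    (hfrob : ∀ x, nrm p x ≤ 1 → nrm p (φ x - x ^ p) < 1) {g : GQ} (hg : g ∈ decG p)
    (L : IntermediateField ℚ QBar) [FiniteDimensional ℚ L] [Normal ℚ L] :
    ∃ (i : ℕ) (h t : GQ), h ∈ L.fixingSubgroup ∧ h ∈ decG p ∧ t ∈ inG p ∧ g = φ ^ i * h * t := by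
  haveI : IsGalois ℚ L := ⟨⟩
  haveI : L.fixingSubgroup.Normal := (InfiniteGalois.normal_iff_isGalois L).mpr ‹_›
  set E := Local.localField p L
  have hgr : AlgEquiv.restrictNormalHom L g ∈ (Local.toGlobal p L).range := by
    rw [Local.mem_range_toGlobal_iff]
    intro x hx
    rw [show ((AlgEquiv.restrictNormalHom L g x : L) : QBar) = g (x : QBar) from
      AlgEquiv.restrictNormal_commutes g L x, mem_place_iff, nrm_map p hg]
    exact (mem_place_iff p).mp hx
  obtain ⟨σ, hσ⟩ := hgr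
  -- the residual action is a power of Frobenius
  letI : Fintype (Local.ResField E) := Fintype.ofFinite _
  obtain ⟨i, hi⟩ := (FiniteField.bijective_frobeniusAlgEquivOfAlgebraic_pow (ZMod p) (Local.ResField E)).2
    (Local.resAut E σ)
  have hres : ∀ y : L, nrm p (y : QBar) ≤ 1 →
      nrm p (g (y : QBar) - (y : QBar) ^ p ^ (i : ℕ)) < 1 := by
    intro y hy
    have hyE : Local.localEmb p L y ∈ Local.intRing E := hy
    have h1 := DFunLike.congr_fun hi (Local.resMap E ⟨_, hyE⟩)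
    have hfr : ∀ (z : Local.ResField E) (n : ℕ),
        (FiniteField.frobeniusAlgEquivOfAlgebraic (ZMod p) (Local.ResField E) ^ n) z = z ^ p ^ n := by
      intro z n
      induction n with
      | zero => rw [pow_zero, AlgEquiv.one_apply, pow_zero, pow_one]
      | succ n ih =>
        rw [pow_succ', AlgEquiv.mul_apply, ih, FiniteField.coe_frobeniusAlgEquivOfAlgebraic]
        dsimp only
        rw [← pow_mul, ZMod.card, pow_succ]
    dsimp only at h1
    rw [hfr, Local.resAut_resMap, ← map_pow, Local.resMap_eq_iff] at h1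
    have h2 : nrm p (g (y : QBar) - (y : QBar) ^ p ^ (i : ℕ)) =
        ‖(σ (Local.localEmb p L y) : E) - (Local.localEmb p L y) ^ p ^ (i : ℕ)‖ := by
      rw [← Local.localEmb_toGlobal, hσ, ← map_pow, ← map_sub, Local.norm_localEmb]
      show _ = ‖padicEmbedding p _‖
      rw [nrm]
      congr 2
      rw [AddSubgroupClass.coe_sub, SubmonoidClass.coe_pow,
        show ((AlgEquiv.restrictNormalHom L g y : L) : QBar) = g (y : QBar) from
          AlgEquiv.restrictNormal_commutes g L y]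
    rw [h2, norm_sub_rev]
    simpa using h1
  have hφi : ∀ x, nrm p x ≤ 1 → nrm p ((φ ^ (i : ℕ)) x - x ^ p ^ (i : ℕ)) < 1 := by
    intro x hx
    induction (i : ℕ) with
    | zero => rw [pow_zero, pow_zero, AlgEquiv.one_apply, pow_one, sub_self, nrm_zero]; exact one_pos
    | succ n ih =>
      have hxn : nrm p (x ^ p ^ n) ≤ 1 := by
        rw [Flat.nrm_pow]; exact pow_le_one₀ (nrm_nonneg p x) hx
      rw [pow_succ' φ, AlgEquiv.mul_apply, pow_succ p, pow_mul,
        show φ ((φ ^ n) x) - (x ^ p ^ n) ^ p =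
          φ ((φ ^ n) x - x ^ p ^ n) + (φ (x ^ p ^ n) - (x ^ p ^ n) ^ p) by rw [map_sub]; ring]
      exact nrm_add_lt_of_lt p ((nrm_map p hφ _).trans_lt ih) (hfrob _ hxn)
  set g' := (φ ^ (i : ℕ))⁻¹ * g
  obtain ⟨h, hh, hhg⟩ := exists_inertia_lift (Local.padicPlace_liesOverPrime p) hp.out
    L.fixingSubgroup L.fixingSubgroup_isClosed g' fun x hx hfix => by
      have hxL : x ∈ L := by
        rw [← InfiniteGalois.fixedField_fixingSubgroup L, IntermediateField.mem_fixedField_iff]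
        exact hfix
      have hx1 := nrm_le_one_of_isIntegral p hx
      rw [mem_nonunits_iff p, show g' x - x = (φ ^ (i : ℕ))⁻¹ (g x - (φ ^ (i : ℕ)) x) by
        rw [map_sub, ← AlgEquiv.mul_apply _ g, ← AlgEquiv.mul_apply _ (φ ^ (i : ℕ)),
          inv_mul_cancel, AlgEquiv.one_apply],
        nrm_map p ((decG p).inv_mem ((decG p).pow_mem hφ _)),
        show g x - (φ ^ (i : ℕ)) x =
          (g x - x ^ p ^ (i : ℕ)) - ((φ ^ (i : ℕ)) x - x ^ p ^ (i : ℕ)) by ring]
      exact nrm_sub_lt_of_lt p (hres ⟨x, hxL⟩ hx1) (hφi x hx1)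
  have hg' : g' ∈ decG p := (decG p).mul_mem ((decG p).inv_mem ((decG p).pow_mem hφ _)) hg
  have hhD : h ∈ decG p := by
    have := (decG p).mul_mem (inG_le_decG p hhg) ((decG p).inv_mem hg')
    rwa [mul_inv_cancel_right] at this
  refine ⟨i, h⁻¹, h * g', L.fixingSubgroup.inv_mem hh, (decG p).inv_mem hhD, hhg, ?_⟩
  rw [mul_assoc, inv_mul_cancel_left, mul_inv_cancel_left]

end Fermat.Agent.CFT.Flat
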