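import Fermat.Agent.CFT.Flat.Local
import Fermat.Agent.CFT.Flat.Shape
import Fermat.Agent.CFT.Flat.Lift
import Fermat.Agent.CFT.Tangent.LocalPlace
import Fermat.Agent.Arith.RootsOfUnity
import Mathlib.FieldTheory.IsAlgClosed.Basic

/-!
# The bound at `p` for flat tangent classes
-/

set_option autoImplicit false
set_option linter.style.haveILetI false
set_option linter.unusedSectionVars false

noncomputable section

namespace Fermat.Agent.CFT.Flat

open Fermat.Agent.Arith Fermat.Agent.Deform Module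
open Fermat.Agent.CFT.Tangent (cobdOn fixedOn cobdLin cobdLin_apply IsAdCocycle IsFiniteLevel
  exists_common_level isAdCocycle_cobdLin trace_cobdLin mem_cobdOn mem_fixedOn inlM epsM)

variable {p : ℕ} [hp : Fact p.Prime] {k : Type} [Field k] {r : GQ →* M2 k}

/-- A character trivial on tame inertia and at a generator is trivial on inertia. -/
theorem char_inertia_eq_one {χ : GQ → k}
    (hmul : ∀ g ∈ decG p, ∀ h ∈ decG p, χ (g * h) = χ g * χ h) (htame : ∀ g ∈ tame p, χ g = 1)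
    {τ : GQ} (hτ : τ ∈ inG p) (hχ : χ τ = 1)
    (hgen : ∀ g ∈ inG p, ∃ i : ℕ, (τ ^ i)⁻¹ * g ∈ tame p) {g : GQ} (hg : g ∈ inG p) :
    χ g = 1 := by
  obtain ⟨i, hi⟩ := hgen g hg
  have hτD := inG_le_decG p hτ
  have hpow : ∀ n : ℕ, χ (τ ^ n) = 1 := fun n => by
    induction n with
    | zero => exact htame 1 (tame p).one_mem
    | succ n ih => rw [pow_succ, hmul _ ((decG p).pow_mem hτD n) _ hτD, ih, hχ, one_mul]
  rw [show g = τ ^ i * ((τ ^ i)⁻¹ * g) by group,
    hmul _ ((decG p).pow_mem hτD i) _ (inG_le_decG p ((mem_tame p).mp hi).1), hpow, htame _ hi,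
    one_mul]

/-- Diagonal entries of an upper triangular decomposition group. -/
theorem diag_mul (hup : ∀ g ∈ decG p, r g 1 0 = 0) {g h : GQ} (hg : g ∈ decG p)
    (hh : h ∈ decG p) : r (g * h) 0 0 = r g 0 0 * r h 0 0 ∧ r (g * h) 1 1 = r g 1 1 * r h 1 1 := by
  simp only [map_mul, Matrix.mul_apply, Fin.sum_univ_two, hup g hg, hup h hh, mul_zero, zero_mul,
    add_zero, zero_add, and_self]

theorem det_upper (hup : ∀ g ∈ decG p, r g 1 0 = 0) {g : GQ} (hg : g ∈ decG p) :
    (r g).det = r g 0 0 * r g 1 1 := by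
  rw [Matrix.det_fin_two, hup g hg, mul_zero, sub_zero]

variable [Finite k]

theorem level_of_factors (hr : GaloisFactorsThroughFiniteLevel r) :
    ∃ L : IntermediateField ℚ QBar, FiniteDimensional ℚ L ∧ Normal ℚ L ∧
      ∀ g ∈ L.fixingSubgroup, r g = 1 := by
  obtain ⟨L₀, hL₀, hL₀'⟩ := hr
  haveI := hL₀
  haveI : Normal ℚ QBar := IsAlgClosure.normal ℚ QBar
  exact ⟨IntermediateField.normalClosure ℚ L₀ QBar, inferInstance,
    normalClosure.normal ℚ L₀ QBar, fun g hg => hL₀' g fun x hx =>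
      (IntermediateField.mem_fixingSubgroup_iff _ _).mp hg x (L₀.le_normalClosure hx)⟩

variable [Algebra (ZMod p) k]

/-- The diagonal characters are trivial on inertia when trivial at a tame generator. -/
theorem diag_inertia_eq_one (hr : GaloisFactorsThroughFiniteLevel r)
    (hup : ∀ g ∈ decG p, r g 1 0 = 0) {τ : GQ} (hτ : τ ∈ inG p)
    (hgen : ∀ g ∈ inG p, ∃ i : ℕ, (τ ^ i)⁻¹ * g ∈ tame p) (i : Fin 2) (hi : r τ i i = 1) :
    ∀ g ∈ inG p, r g i i = 1 := by
  obtain ⟨L, hLf, hLn, hL⟩ := level_of_factors hr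
  haveI := hLf
  haveI := hLn
  have hmul : ∀ g ∈ decG p, ∀ h ∈ decG p, r (g * h) i i = r g i i * r h i i := by
    intro g hg h hh
    revert i
    exact Fin.forall_fin_two.mpr ⟨fun _ => (diag_mul hup hg hh).1, fun _ => (diag_mul hup hg hh).2⟩
  have h1 : r 1 i i = 1 := by rw [map_one, Matrix.one_apply_eq]
  obtain ⟨ht, -⟩ := char_tame (χ := fun g => r g i i) hmul h1 L fun g hg _ => by rw [hL g hg, Matrix.one_apply_eq]
  exact fun g hg => char_inertia_eq_one hmul ht hτ hi hgen hg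

variable [CharP k p]

/-- A frame with a line on which the tame generator acts nontrivially. -/
theorem exists_ramified_frame (hp2 : p ≠ 2) (hr : GaloisFactorsThroughFiniteLevel r)
    (hO : ∀ P : (M2 k)ˣ, Nonempty (FiniteFlat.GalOrder p (MVec (conjM P r))))
    {τ : GQ} (hτ : τ ∈ inG p) (hgen : ∀ g ∈ inG p, ∃ i : ℕ, (τ ^ i)⁻¹ * g ∈ tame p)
    (hdet : (r τ).det ≠ 1) (h : ∃ P : (M2 k)ˣ, ∀ g ∈ decG p, conjM P r g 1 0 = 0) :
    ∃ P : (M2 k)ˣ, (∀ g ∈ decG p, conjM P r g 1 0 = 0) ∧ conjM P r τ 0 0 ≠ 1 := by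
  obtain ⟨P, hP⟩ := h
  by_cases h00 : conjM P r τ 0 0 = 1
  swap
  · exact ⟨P, hP, h00⟩
  set r' := conjM P r with hr'
  have hr'lev : GaloisFactorsThroughFiniteLevel r' := by
    obtain ⟨L, hL, hL'⟩ := hr
    exact ⟨L, hL, fun σ hσ => by rw [hr', conjM_apply, hL' σ hσ, mul_one, Units.inv_mul]⟩
  have hτD := inG_le_decG p hτ
  have h11 : r' τ 1 1 ≠ 1 := fun h1 => hdet <| by
    have hd : (r' τ).det = (r τ).det := by rw [hr', conjM_apply, Matrix.det_units_conj']
    rw [← hd, det_upper hP hτD, h00, h1, one_mul]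
  obtain ⟨v, hv, hvD, hvτ⟩ := exists_line_of_fixed hp2 (hO P) hP
    (diag_inertia_eq_one hr'lev hP hτ hgen 0 h00) hτ h11
  obtain ⟨S, hS⟩ := exists_unit_col hv
  have hcomp : ∀ g, conjM (P * S) r g = (↑S⁻¹ : M2 k) * r' g * (S : M2 k) := fun g => by
    simp only [hr', conjM_apply, _root_.mul_inv_rev, Units.val_mul, mul_assoc]
  refine ⟨P * S, fun g hg => ?_, ?_⟩
  · obtain ⟨c, hc⟩ := hvD g hg
    rw [hcomp, conj_col hS hc 1]
    simp
  · rw [hcomp, conj_col hS hvτ 0]
    simpa using h11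

omit [Algebra (ZMod p) k] in
/-- Classes in a changed frame. -/
theorem IsLocalClass.conj [Algebra (ZMod p) k] {c : GQ → M2 k} (h : IsLocalClass p r c)
    (P : (M2 k)ˣ) :
    IsLocalClass p (conjM P r) fun g => (↑P⁻¹ : M2 k) * c g * (P : M2 k) where
  add g hg h' hh := by
    simp only [conjM_apply, h.add g hg h' hh, mul_add, add_mul, mul_assoc,
      Units.mul_inv_cancel_left]
  trace g := by rw [Matrix.trace_mul_cycle, Units.mul_inv, one_mul, h.trace]
  off g hg := by rw [h.off g hg, mul_zero, zero_mul]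
  bdd := by
    obtain ⟨H, h1, h2, h3, h4⟩ := h.bdd
    exact ⟨H, h1, h2, h3, fun g hg => by rw [h4 g hg, mul_zero, zero_mul]⟩
  level := by
    obtain ⟨L, h1, h2, h3⟩ := h.level
    exact ⟨L, h1, h2, fun g hg hgD => by rw [h3 g hg hgD, mul_zero, zero_mul]⟩

/-- The bound on the group of local classes. -/
theorem natCard_le_flat (hp2 : p ≠ 2) (hr : GaloisFactorsThroughFiniteLevel r)
    (hcyc : ∀ (σ : GQ) (n : ℕ), (∀ μ : QBar, μ ^ p = 1 → σ μ = μ ^ n) → (r σ).det = (n : k))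
    (hsplit : ∀ g, ∃ α β : k, (r g).trace = α + β ∧ (r g).det = α * β)
    (T : AddSubgroup (GQ → M2 k)) [Finite T]
    (hT : ∀ c ∈ T, IsLocalClass p r c) (hO : ∃ b, HasOrderLift p r b)
    (hform : ∀ c ∈ T, ∃ (b : GQ → M2 k) (X : M2 k), (b = 0 ∨ HasOrderLift p r b) ∧
      ∀ g ∈ decG p, c g = b g + (r g * X * r g⁻¹ - X)) :
    Nat.card T ≤ Nat.card k ^ 4 := by
  classical
  obtain ⟨τ, hτ, hτprim, hgen⟩ := exists_tame_generator p
  haveI : IsAlgClosed (Res p) := residueField_isAlgClosed (padicPlace p)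
  letI : Algebra (ZMod p) (Res p) := ZMod.algebra (Res p) p
  haveI : FiniteDimensional (ZMod p) k := Module.Finite.of_finite
  let ι : k →+* Res p :=
    (IsAlgClosed.lift (R := ZMod p) (M := Res p) (S := k) : k →ₐ[ZMod p] Res p).toRingHom
  -- transport to a frame
  have htrans : ∀ P : (M2 k)ˣ, ∃ T' : AddSubgroup (GQ → M2 k),
      Finite T' ∧ Nat.card T ≤ Nat.card T' ∧
      ∀ c' ∈ T', ∃ c ∈ T, c' = fun g => (↑P⁻¹ : M2 k) * c g * (P : M2 k) := by
    intro P
    let f : (GQ → M2 k) →+ (GQ → M2 k) :=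
      AddMonoidHom.mk' (fun c g => (↑P⁻¹ : M2 k) * c g * (P : M2 k)) fun c c' =>
        funext fun g => by simp [mul_add, add_mul]
    haveI : Finite (T.map f) :=
      Finite.of_surjective _ (AddMonoidHom.addSubgroupMap_surjective f T)
    refine ⟨T.map f, inferInstance, Nat.card_le_card_of_injective (f.addSubgroupMap T) ?_,
      fun c' hc' => ?_⟩
    · intro a b hab
      refine Subtype.ext (funext fun g => ?_)
      have := congrFun (congrArg (fun y : T.map f => (y : GQ → M2 k)) hab) g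
      have h2 := congrArg (fun X : M2 k => (P : M2 k) * X * (↑P⁻¹ : M2 k)) this
      simpa [f, mul_assoc] using h2
    · obtain ⟨c, hc, rfl⟩ := hc'
      exact ⟨c, hc, rfl⟩
  have hcyc' : ∀ (P : (M2 k)ˣ) (σ : GQ) (n : ℕ), (∀ μ : QBar, μ ^ p = 1 → σ μ = μ ^ n) →
      (conjM P r σ).det = (n : k) := fun P σ n hn => by
    rw [conjM_apply, Matrix.det_units_conj', hcyc σ n hn]
  have hr' : ∀ P : (M2 k)ˣ, GaloisFactorsThroughFiniteLevel (conjM P r) := fun P => by
    obtain ⟨L, hL, hL'⟩ := hr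
    exact ⟨L, hL, fun σ hσ => by rw [conjM_apply, hL' σ hσ, mul_one, Units.inv_mul]⟩
  obtain ⟨b₀, hb₀⟩ := hO
  have hθ := isPrimitiveRoot_thetaBar p hτprim
  have hdetτ : (r τ).det ≠ 1 := fun h1 => by
    have h2 := iota_det hcyc ι hτ
    rw [h1, map_one] at h2
    have h3 := Nat.le_of_dvd (Nat.succ_pos p) (hθ.dvd_of_pow_eq_one _ h2.symm)
    rw [e₀_eq] at h3
    have := hp.out.two_le
    have : (p + 1) * 2 ≤ (p + 1) * (p - 1) := Nat.mul_le_mul_left _ (by omega)
    omega
  rcases exists_shape hr hsplit hτ with hline | ⟨P, l, hl, htame, hdiag⟩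
  swap
  · obtain ⟨T', hfin, hle, hmem⟩ := htrans P
    refine hle.trans (natCard_le_torus hp2 (hcyc' P) T' (fun c' hc' => ?_) ι hτ hτprim hgen htame
      hl hdiag)
    obtain ⟨c, hc, rfl⟩ := hmem c' hc'
    exact (hT c hc).conj P
  obtain ⟨P, hup, h00⟩ :=
    exists_ramified_frame hp2 hr (fun P => (hb₀.conj P).residual) hτ hgen hdetτ hline
  obtain ⟨T', hfin, hle, hmem⟩ := htrans P
  refine hle.trans (natCard_le_borel hp2 (hr' P) (hcyc' P) hup T' (fun c' hc' => ?_) ι hτ hτprim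
    hgen fun hη hη' c' hc' => ?_)
  · obtain ⟨c, hc, rfl⟩ := hmem c' hc'
    exact (hT c hc).conj P
  -- both outer pieces are met: the quotient is unramified
  set r' := conjM P r with hr'def
  have hτD := inG_le_decG p hτ
  have hd : (r' τ).det = r' τ 0 0 * r' τ 1 1 := det_upper hup hτD
  have hne : ∀ g ∈ decG p, r' g 0 0 ≠ 0 ∧ r' g 1 1 ≠ 0 := fun g hg => by
    have h0 : (r' g).det ≠ 0 := fun hd0 => by
      have h := congrArg Matrix.det (show r' g * r' g⁻¹ = 1 by
        rw [← map_mul, mul_inv_cancel, map_one])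
      rw [Matrix.det_mul, hd0, zero_mul, Matrix.det_one] at h
      exact zero_ne_one h
    rw [det_upper hup hg] at h0
    exact mul_ne_zero_iff.mp h0
  have hb00 : r' τ 0 0 = -1 := by
    rw [hd, div_eq_iff (hne τ hτD).1] at hη'
    have hsq : r' τ 0 0 * r' τ 0 0 = 1 :=
      mul_right_cancel₀ (hne τ hτD).2 (by linear_combination -hη')
    exact (mul_self_eq_one_iff.mp hsq).resolve_left h00
  have hb11 : r' τ 1 1 = 1 := by
    rw [hd, div_eq_iff (hne τ hτD).2] at hη
    have hsq : r' τ 1 1 * r' τ 1 1 = 1 :=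
      mul_left_cancel₀ (hne τ hτD).1 (by linear_combination -hη)
    refine (mul_self_eq_one_iff.mp hsq).resolve_right fun h1 => hdetτ ?_
    have : (r' τ).det = (r τ).det := by rw [hr'def, conjM_apply, Matrix.det_units_conj']
    rw [← this, hd, hb00, h1]
    ring
  obtain ⟨c, hc, rfl⟩ := hmem c' hc'
  obtain ⟨b, X, hb, hcb⟩ := hform c hc
  obtain ⟨x, hx⟩ : ∃ x : k, ∀ g ∈ decG p,
      ((↑P⁻¹ : M2 k) * b g * (P : M2 k)) 1 0 = x * (1 - r' g 1 1 / r' g 0 0) := by
    rcases hb with rfl | hb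
    · exact ⟨0, fun g _ => by simp⟩
    · exact (hb.conj P).exists_lower_left hp2 hup
        (diag_inertia_eq_one (hr' P) hup hτ hgen 1 hb11) hτ h00
  set Y := (↑P⁻¹ : M2 k) * X * (P : M2 k) with hY
  refine ⟨x - Y 1 0, fun g hg => ?_⟩
  set Z := r' g * Y * r' g⁻¹ with hZdef
  have hcob : (↑P⁻¹ : M2 k) * (r g * X * r g⁻¹ - X) * (P : M2 k) = Z - Y := by
    simp only [hZdef, hY, hr'def, conjM_apply, mul_sub, sub_mul, mul_assoc,
      Units.mul_inv_cancel_left]
  have hZ : Z * r' g = r' g * Y := by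
    rw [hZdef, mul_assoc, ← map_mul, inv_mul_cancel, map_one, mul_one]
  have h10 := congrFun (congrFun hZ 1) 0
  simp only [Matrix.mul_apply, Fin.sum_univ_two, hup g hg, mul_zero, add_zero, zero_mul,
    zero_add] at h10
  show ((↑P⁻¹ : M2 k) * c g * (P : M2 k)) 1 0 = _
  rw [hcb g hg, mul_add, add_mul, Matrix.add_apply, hcob, Matrix.sub_apply, hx g hg]
  field_simp [(hne g hg).1]
  linear_combination h10

variable (p) in
open scoped Classical in
/-- Restriction to the decomposition group. -/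
def resD : (GQ → M2 k) →ₗ[k] (GQ → M2 k) where
  toFun b g := if g ∈ decG p then b g else 0
  map_add' b b' := funext fun g => by
    simp only [Pi.add_apply]
    split_ifs <;> simp
  map_smul' c b := funext fun g => by
    simp only [Pi.smul_apply, RingHom.id_apply]
    split_ifs <;> simp

omit [Algebra (ZMod p) k] in
/-- **The tangent bound at `p` for flat classes.** -/
theorem finrank_le_flat (hp2 : p ≠ 2) (hr : GaloisFactorsThroughFiniteLevel r)
    (hcyc : ∀ (σ : GQ) (n : ℕ), (∀ μ : QBar, μ ^ p = 1 → σ μ = μ ^ n) → (r σ).det = (n : k))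
    (hsplit : ∀ g, ∃ α β : k, (r g).trace = α + β ∧ (r g).det = α * β)
    (V : Submodule k (GQ → M2 k)) [Module.Finite k V]
    (hcoc : ∀ b ∈ V, IsAdCocycle r b) (hlev : ∀ b ∈ V, IsFiniteLevel b)
    (htr : ∀ b ∈ V, ∀ σ, (b σ).trace = 0)
    (hb : ∀ b ∈ V, b ≠ 0 → ∃ (ρ : GaloisRepAdic (DualNumber k))
      (B : Basis (Fin 2) (DualNumber k) ρ.V), ρ.IsFlatAt p ∧
        ∀ σ, matOf ρ B σ = (1 + epsM (b σ)) * inlM (r σ)) :
    finrank k V ≤ finrank k (V ⊓ cobdOn r (decG p) : Submodule k (GQ → M2 k)) +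
      finrank k (fixedOn r (decG p)) + 1 := by
  classical
  letI : Algebra (ZMod p) k := ZMod.algebra k p
  rcases eq_or_ne V ⊥ with rfl | hV
  · simp [finrank_bot]
  obtain ⟨b₀, hb₀, hb₀ne⟩ := Submodule.exists_mem_ne_zero_of_ne_bot hV
  have hlift : ∀ b ∈ V, b ≠ 0 → HasOrderLift p r b := fun b hbV hne => by
    obtain ⟨ρ, B, hflat, hm⟩ := hb b hbV hne
    exact hasOrderLift_of_flat ρ B hflat hm
  have hbdd : ∀ b ∈ V, ∃ H : Subgroup GQ, IsLevel p H ∧ H ≤ tame p ∧ IsBdd p H ∧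
      ∀ g ∈ H, r g = 1 ∧ b g = 0 := by
    intro b hbV
    rcases eq_or_ne b 0 with rfl | hne
    · obtain ⟨H, h1, h2, h3, h4⟩ := (hlift b₀ hb₀ hb₀ne).exists_bdd
      exact ⟨H, h1, h2, h3, fun g hg => ⟨(h4 g hg).1, rfl⟩⟩
    · exact (hlift b hbV hne).exists_bdd
  obtain ⟨L, hLf, hLn, hL⟩ := exists_common_level hr V hlev
  -- coboundaries
  let sl : Submodule k (M2 k) := LinearMap.ker (Matrix.traceLinearMap (Fin 2) k k)
  have hsl : ∀ X, X ∈ sl ↔ X.trace = 0 := fun X => LinearMap.mem_ker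
  let cob : sl →ₗ[k] (GQ → M2 k) := ((resD p).comp (cobdLin r)).comp sl.subtype
  set Tsub := V.map (resD p) ⊔ LinearMap.range cob with hTsub
  haveI : Module.Finite k sl := inferInstance
  haveI : Module.Finite k Tsub := inferInstance
  haveI : Finite Tsub := Module.finite_of_finite k
  have hform : ∀ c ∈ Tsub, ∃ b ∈ V, ∃ X : M2 k, X.trace = 0 ∧
      c = resD p (b + cobdLin r X) := by
    intro c hc
    obtain ⟨a, ⟨b, hbV, rfl⟩, _, ⟨X, rfl⟩, rfl⟩ := Submodule.mem_sup.mp hc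
    exact ⟨b, hbV, (X : M2 k), (hsl _).mp X.2, (map_add (resD p) _ _).symm⟩
  have hon : ∀ (b : GQ → M2 k) g, g ∈ decG p → resD p b g = b g := fun b g hg => if_pos hg
  have hoff : ∀ (b : GQ → M2 k) g, g ∉ decG p → resD p b g = 0 := fun b g hg => if_neg hg
  -- the count
  have hcard : Nat.card Tsub ≤ Nat.card k ^ 4 := by
    haveI : Finite Tsub.toAddSubgroup := ‹Finite Tsub›
    refine natCard_le_flat hp2 hr hcyc hsplit Tsub.toAddSubgroup (fun c hc => ?_)
      ⟨b₀, hlift b₀ hb₀ hb₀ne⟩ fun c hc => ?_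
    · obtain ⟨b, hbV, X, hX, rfl⟩ := hform c hc
      have hcoc' : IsAdCocycle r (b + cobdLin r X) := (hcoc b hbV).add (isAdCocycle_cobdLin r X)
      refine ⟨fun g hg h hh => ?_, fun g => ?_, hoff _, ?_, L, hLf, hLn, fun g hg hgD => ?_⟩
      · rw [hon _ _ ((decG p).mul_mem hg hh), hon _ _ hg, hon _ _ hh, hcoc']
      · by_cases hg : g ∈ decG p
        · rw [hon _ _ hg, Pi.add_apply, Matrix.trace_add, htr b hbV, trace_cobdLin, add_zero]
        · rw [hoff _ _ hg, Matrix.trace_zero]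
      · obtain ⟨H, h1, h2, h3, h4⟩ := hbdd b hbV
        refine ⟨H, h1, h2, h3, fun g hg => ?_⟩
        rw [hon _ _ (inG_le_decG p (h1.le hg)), Pi.add_apply, (h4 g hg).2, cobdLin_apply,
          (h4 g hg).1, (h4 g⁻¹ (H.inv_mem hg)).1, one_mul, mul_one, sub_self, add_zero]
      · have h5 := hL g ((IntermediateField.mem_fixingSubgroup_iff _ _).mp hg)
        have h6 := hL g⁻¹ ((IntermediateField.mem_fixingSubgroup_iff _ _).mp
          (L.fixingSubgroup.inv_mem hg))
        rw [hon _ _ hgD, Pi.add_apply, h5.2 b hbV, cobdLin_apply, h5.1, h6.1, one_mul, mul_one,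
          sub_self, add_zero]
    · obtain ⟨b, hbV, X, -, rfl⟩ := hform c hc
      refine ⟨b, X, ?_, fun g hg => by rw [hon _ _ hg]; rfl⟩
      rcases eq_or_ne b 0 with h0 | h0
      · exact Or.inl h0
      · exact Or.inr (hlift b hbV h0)
  have hT4 : finrank k Tsub ≤ 4 := by
    rw [Module.natCard_eq_pow_finrank (K := k)] at hcard
    exact (Nat.pow_le_pow_iff_right Finite.one_lt_card).mp hcard
  -- dimensions
  set R := LinearMap.range cob
  set Λ : V →ₗ[k] (GQ → M2 k) ⧸ R := (R.mkQ.comp (resD p)).comp V.subtype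
  have h1 := Λ.finrank_range_add_finrank_ker
  have hker : finrank k (LinearMap.ker Λ) ≤
      finrank k (V ⊓ cobdOn r (decG p) : Submodule k (GQ → M2 k)) := by
    rw [(Submodule.equivSubtypeMap V (LinearMap.ker Λ)).finrank_eq]
    refine Submodule.finrank_mono ?_
    rintro _ ⟨⟨b, hbV⟩, hmem, rfl⟩
    obtain ⟨⟨X, hX⟩, he⟩ := (Submodule.Quotient.mk_eq_zero R).mp (LinearMap.mem_ker.mp hmem)
    refine ⟨hbV, (mem_cobdOn r).mpr ⟨X, (hsl X).mp hX, fun s hs => ?_⟩⟩
    have := congrFun he s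
    simp only [cob, LinearMap.comp_apply, Submodule.subtype_apply, hon _ _ hs, cobdLin_apply]
      at this
    exact this.symm
  have hrange : finrank k (LinearMap.range Λ) + finrank k R ≤ finrank k Tsub := by
    set Ψ : Tsub →ₗ[k] (GQ → M2 k) ⧸ R := R.mkQ.comp Tsub.subtype
    have h2 := Ψ.finrank_range_add_finrank_ker
    have hle : LinearMap.range Λ ≤ LinearMap.range Ψ := by
      rintro _ ⟨b, rfl⟩
      exact ⟨⟨_, SetLike.le_def.mp le_sup_left (Submodule.mem_map_of_mem b.2)⟩, rfl⟩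
    have hk : finrank k (LinearMap.ker Ψ) = finrank k R := by
      rw [(Submodule.equivSubtypeMap Tsub (LinearMap.ker Ψ)).finrank_eq]
      refine (LinearEquiv.ofEq _ _ ?_).finrank_eq
      rw [show LinearMap.ker Ψ = R.comap Tsub.subtype by rw [LinearMap.ker_comp, Submodule.ker_mkQ],
        Submodule.map_comap_subtype, inf_eq_right.mpr le_sup_right]
    have h3 := Submodule.finrank_mono hle
    omega
  have hB1 : finrank k R + finrank k (LinearMap.ker cob) = finrank k sl :=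
    cob.finrank_range_add_finrank_ker
  have hsl3 : 3 ≤ finrank k sl := by
    have h := (Matrix.traceLinearMap (Fin 2) k k).finrank_range_add_finrank_ker
    rw [Module.finrank_matrix, Fintype.card_fin, Module.finrank_self] at h
    have h' := (LinearMap.range (Matrix.traceLinearMap (Fin 2) k k)).finrank_le
    rw [Module.finrank_self] at h'
    change 3 ≤ finrank k (LinearMap.ker (Matrix.traceLinearMap (Fin 2) k k))
    omega
  have hfix : finrank k (LinearMap.ker cob) ≤ finrank k (fixedOn r (decG p)) := by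
    rw [(Submodule.equivSubtypeMap sl (LinearMap.ker cob)).finrank_eq]
    refine Submodule.finrank_mono ?_
    rintro _ ⟨⟨X, hX⟩, hmem, rfl⟩
    refine (mem_fixedOn r).mpr ⟨(hsl X).mp hX, fun s hs => ?_⟩
    have := congrFun (LinearMap.mem_ker.mp hmem) s
    simp only [cob, LinearMap.comp_apply, Submodule.subtype_apply, hon _ _ hs, cobdLin_apply,
      Pi.zero_apply, sub_eq_zero] at this
    exact this
  omega

end Fermat.Agent.CFT.Flat
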